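import Fermat.Agent.CAR.DEG.Defs
import Fermat.Agent.TOR.T1.Defs

/-!
# CAR / P1F : THE COUNT (abstract).  Definitions (no sorry).

`K = ℚ̄`, `F` = function field of level `q²M'`, `E ⊆ F` the subfield of the rational (= inertia-fixed) elements, `vo vm vz` the three
vertical valuations (`∞`, one middle cusp, `0`) with reduction maps `ρo ρm ρz` into `k((Q))`, `t = x(τ) x(q²τ)`, `π = q`,
`ν ∈ B` a uniformiser of `vm` on `E`, `vm ν ^ e = vm π` (`e = q - 1`).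

* `D.B`       : the chart ring `{z ∈ E | z integral over K[t], vo z, vm z, vz z ≤ 1}` (a set)
* `D.Lat a`   : `B ∩ L(a (t)_∞)`
* `D.Ls a s`  : the filtration `Lat a ⊇ ∩ p_∞ ⊇ ∩ p_∞ ∩ p_0 = b_0 ⊇ b_1 ⊇ … ⊇ b_e = π Lat a`   (`s = 0, 1, 2, 3, …, e + 2`)
* `D.Gs s`    : the graded reduction relations `r_∞`, `r_0`, `λ_j z = r_m (z / ν^j)`   (`s = 0, 1, j + 2`)
* `D.Ns s`    : the `k`-span of all reductions at the step `s`  (`R'`-submodules of `k((Q))`: `⊆ R'`, `I₀`, `N_j`)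
-/

set_option autoImplicit false

open Polynomial

noncomputable section

namespace Fermat.Agent.CAR.P1F

open Fermat.Agent.GAL.KL Fermat.Agent.GAL.KLC Fermat.Agent.TOR.T1 Fermat.Agent.CAR.DEG

/-- the data of the count. -/
structure Dat (K F k Γ₀ : Type*) [Field K] [Field F] [Algebra K F] [Field k]
    [LinearOrderedCommGroupWithZero Γ₀] where
  E : Subfield F
  vo : Valuation F Γ₀
  vm : Valuation F Γ₀
  vz : Valuation F Γ₀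
  ρo : vo.integer →+* LaurentSeries k
  ρm : vm.integer →+* LaurentSeries k
  ρz : vz.integer →+* LaurentSeries k
  t : F
  π : K
  ν : F
  e : ℕ

variable {K F k Γ₀ : Type*} [Field K] [Field F] [Algebra K F] [Field k]
  [LinearOrderedCommGroupWithZero Γ₀]

namespace Dat

variable (D : Dat K F k Γ₀)

/-- `π` as an element of `F`. -/
def P : F := algebraMap K F D.π

/-- exchange of `∞` and `0`. -/
def swap : Dat K F k Γ₀ :=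
  { D with vo := D.vz, vz := D.vo, ρo := D.ρz, ρz := D.ρo }

/-- the chart ring (chart `t`), as a set. -/
def B : Set F := {z | z ∈ D.E ∧ IsInt K D.t z ∧ D.vo z ≤ 1 ∧ D.vm z ≤ 1 ∧ D.vz z ≤ 1}

/-- the chart ring of the chart `1/t`, as a set. -/
def Binf : Set F := {z | z ∈ D.E ∧ IsInt K D.t⁻¹ z ∧ D.vo z ≤ 1 ∧ D.vm z ≤ 1 ∧ D.vz z ≤ 1}

/-- `B ∩ L(a (t)_∞)`. -/
def Lat (a : ℕ) : Set F := {z | z ∈ D.E ∧ z ∈ LL K D.t a ∧ D.vo z ≤ 1 ∧ D.vm z ≤ 1 ∧ D.vz z ≤ 1}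

/-- the filtration. -/
def Ls (a : ℕ) : ℕ → Set F
  | 0 => D.Lat a
  | 1 => {z | z ∈ D.Lat a ∧ D.vo z < 1}
  | j + 2 => {z | z ∈ D.Lat a ∧ D.vo z < 1 ∧ D.vz z < 1 ∧ D.vm z ≤ D.vm D.ν ^ j}

/-- the graded reduction relations. -/
def Gs : ℕ → F → LaurentSeries k → Prop
  | 0 => fun z u => Rd D.ρo z u
  | 1 => fun z u => Rd D.ρz z u
  | j + 2 => fun z u => Rd D.ρm (z / D.ν ^ j) u

/-- all reductions at the step `s`. -/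
def Im (s : ℕ) : Set (LaurentSeries k) := {u | ∃ a, ∃ z ∈ D.Ls a s, D.Gs s z u}

/-- the `k`-span of `Im s` (equal to `Im s`: `mem_Ns_iff`). -/
def Ns (s : ℕ) : Submodule k (LaurentSeries k) := Submodule.span k (D.Im s)

theorem mem_B {z : F} :
    z ∈ D.B ↔ z ∈ D.E ∧ IsInt K D.t z ∧ D.vo z ≤ 1 ∧ D.vm z ≤ 1 ∧ D.vz z ≤ 1 := Iff.rfl

theorem mem_Binf {z : F} :
    z ∈ D.Binf ↔ z ∈ D.E ∧ IsInt K D.t⁻¹ z ∧ D.vo z ≤ 1 ∧ D.vm z ≤ 1 ∧ D.vz z ≤ 1 := Iff.rfl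

theorem mem_Lat {a : ℕ} {z : F} :
    z ∈ D.Lat a ↔ z ∈ D.E ∧ z ∈ LL K D.t a ∧ D.vo z ≤ 1 ∧ D.vm z ≤ 1 ∧ D.vz z ≤ 1 := Iff.rfl

theorem mem_Ls_zero {a : ℕ} {z : F} : z ∈ D.Ls a 0 ↔ z ∈ D.Lat a := Iff.rfl

theorem mem_Ls_one {a : ℕ} {z : F} : z ∈ D.Ls a 1 ↔ z ∈ D.Lat a ∧ D.vo z < 1 := Iff.rfl

theorem mem_Ls_add_two {a j : ℕ} {z : F} :
    z ∈ D.Ls a (j + 2) ↔ z ∈ D.Lat a ∧ D.vo z < 1 ∧ D.vz z < 1 ∧ D.vm z ≤ D.vm D.ν ^ j := Iff.rfl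

theorem Gs_zero {z : F} {u : LaurentSeries k} : D.Gs 0 z u ↔ Rd D.ρo z u := Iff.rfl

theorem Gs_one {z : F} {u : LaurentSeries k} : D.Gs 1 z u ↔ Rd D.ρz z u := Iff.rfl

theorem Gs_add_two {j : ℕ} {z : F} {u : LaurentSeries k} :
    D.Gs (j + 2) z u ↔ Rd D.ρm (z / D.ν ^ j) u := Iff.rfl

theorem mem_Im {s : ℕ} {u : LaurentSeries k} : u ∈ D.Im s ↔ ∃ a, ∃ z ∈ D.Ls a s, D.Gs s z u := Iff.rfl

end Dat

/-- **the basic hypotheses.**  `R = R'` the reduced chart ring of level `M'`, `no = (q²+1) m`, `nm = 2 m` the pole orders of the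
reductions of `t`. -/
structure Ok (D : Dat K F k Γ₀) (R : Subalgebra k (LaurentSeries k)) (no nm : ℕ) : Prop where
  redo : IsRed K D.vo D.ρo
  redm : IsRed K D.vm D.ρm
  redz : IsRed K D.vz D.ρz
  /-- the parameter -/
  t0 : D.t ≠ 0
  tE : D.t ∈ D.E
  /-- the uniformiser of the base -/
  π0 : D.π ≠ 0
  πE : D.P ∈ D.E
  πo : D.vo D.P < 1
  πm : D.vm D.P < 1
  πz : D.vz D.P < 1
  /-- every element of `k` lifts to a rational integral constant -/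
  sc : ∀ c : k, ∃ a : K, algebraMap K F a ∈ D.E ∧ Rd D.ρo (algebraMap K F a) (HahnSeries.C c) ∧
    Rd D.ρm (algebraMap K F a) (HahnSeries.C c) ∧ Rd D.ρz (algebraMap K F a) (HahnSeries.C c)
  /-- discreteness on `E` -/
  dso : ∀ z ∈ D.E, D.vo z < 1 → D.vo z ≤ D.vo D.P
  dsz : ∀ z ∈ D.E, D.vz z < 1 → D.vz z ≤ D.vz D.P
  dsm : ∀ z ∈ D.E, D.vm z < 1 → D.vm z ≤ D.vm D.ν
  /-- the uniformiser at the middle component -/
  e0 : 0 < D.e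
  νe : D.vm D.ν ^ D.e = D.vm D.P
  νB : D.ν ∈ D.B
  /-- the reductions of `Lat a` lie in `R'` and have bounded poles -/
  ro : ∀ a, ∀ z ∈ D.Lat a, ∀ u, Rd D.ρo z u → u ∈ R ∧ u ∈ Cut k ((a * no : ℕ) : ℤ)
  rm : ∀ a, ∀ z ∈ D.Lat a, ∀ u, Rd D.ρm z u → u ∈ R ∧ u ∈ Cut k ((a * nm : ℕ) : ℤ)
  rz : ∀ a, ∀ z ∈ D.Lat a, ∀ u, Rd D.ρz z u → u ∈ R ∧ u ∈ Cut k ((a * no : ℕ) : ℤ)
  /-- the reductions `B → R'` are onto -/
  so : ∀ u ∈ R, ∃ z ∈ D.B, Rd D.ρo z u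
  sm : ∀ u ∈ R, ∃ z ∈ D.B, Rd D.ρm z u
  sz : ∀ u ∈ R, ∃ z ∈ D.B, Rd D.ρz z u

/-- **the modular units.**  `Xo = b₁(w_q X)`, `Xo' = b₁ X`, `Xz = a₁ X`, `Xz' = a₁ (w_q X)`, `Nn = 12 e₀`, `H = red X`. -/
structure XOk (D : Dat K F k Γ₀) (H : LaurentSeries k) (Nn : ℕ) (Xo Xo' Xz Xz' : F) : Prop where
  Nn0 : 0 < Nn
  H0 : H ≠ 0
  XoB : Xo ∈ D.B
  Xo'B : Xo' ∈ D.B
  XzB : Xz ∈ D.B
  Xz'B : Xz' ∈ D.B
  mulo : Xo * Xo' = D.P ^ Nn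
  mulz : Xz * Xz' = D.P ^ Nn
  voXo : D.vo Xo = D.vo D.P ^ Nn
  vzXz : D.vz Xz = D.vz D.P ^ Nn
  rzXo : Rd D.ρz Xo H
  rmXo : Rd D.ρm Xo H
  roXz : Rd D.ρo Xz H
  rmXz : Rd D.ρm Xz H

/-- **the global hypotheses**: Riemann's inequality (`Dg = deg t`, `g₂` = genus of level `q²M'`), descent (`L(a (t)_∞)` is spanned by
rational integral elements), a separating family of `K`-linear coordinates (`Q`-expansion coefficients) bounded on the lattices. -/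
structure LOk (D : Dat K F k Γ₀) (Dg : ℕ) (g₂ : ℤ) {J : Type*} (c : J → F →ₗ[K] K) : Prop where
  ri : ∀ a : ℕ, ((a * Dg + 1 : ℕ) : ℤ) - g₂ ≤ Module.finrank K (LL K D.t a)
  span : ∀ a, LL K D.t a ≤ Submodule.span K (D.Lat a)
  sep : ∀ z : F, (∀ j, c j z = 0) → z = 0
  bd : ∀ a, ∀ z ∈ D.Lat a, ∀ j, D.vo (algebraMap K F (c j z)) ≤ 1
  arch : ∀ γ : Γ₀, γ ≠ 0 → ∃ m : ℕ, D.vo D.P ^ m < γ

end Fermat.Agent.CAR.P1F
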