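import Fermat.Agent.CAR.P1F.Prod

/-!
# CAR / P1F : export (E-inf): a local generator of `p_md` at the point at infinity of `C_md` (chart `1/t`)  (package P1F-12)
-/

set_option autoImplicit false

open Polynomial

noncomputable section

namespace Fermat.Agent.CAR.P1F

open Fermat.Agent.GAL.KL Fermat.Agent.GAL.KLC Fermat.Agent.TOR.T1 Fermat.Agent.CAR.DEG Fermat.Agent.CAR

variable {K F k Γ₀ : Type*} [Field K] [Field F] [Algebra K F] [Field k]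
  [LinearOrderedCommGroupWithZero Γ₀]

variable {D : Dat K F k Γ₀} {R : Subalgebra k (LaurentSeries k)} {no nm : ℕ}

/-- **(E-inf).**  PROOF.  `b := t⁻¹^a * z`, `b' := t⁻¹^a' * z'`, `y := t⁻¹^(a+a') * (z z'/π)`.   `vm t = 1` (`Rd.v_eq_one h.redm hτ hτ0`), so multiplication by `t⁻¹^n` does not change the three
valuations.  `b, b' ∈ Binf`: `E` (`h.tE`), `IsInt K t⁻¹ (t⁻¹^a * z)` is the second component of `z ∈ LL K t a`.  `y ∈ Binf`: `prod_mem` gives `z z'/π ∈ Ls (a+a') 2 ⊆ Lat (a+a')`.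
`b b' = y π` (`field_simp`/`pow_add`, `P_ne_zero`).  `prod_mem`: `w₀` = reduction of `z z'/π`, `u u' = c₀ w₀`, so `w₀ ≠ 0`, `ord w₀ = ord u + ord u' - ord c₀` (`HahnSeries.order_mul`, `c0_ne_zero`).
`w := (τ⁻¹)^(a+a') * w₀` (`Rd.inv h.redm hτ hτ0`, `Rd.pow`, `Rd.mul`), `ord w = (a+a') nm + ord w₀ = 0` by `hord` (`HahnSeries.order_pow`, `RP.DimD1_order_inv` or `order_mul` with `τ τ⁻¹ = 1`).
`vm b = vm z = vm ν^j`: `vm (z z'/π) = 1` (`Rd.v_eq_one`), then as in `export_md`. -/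
theorem export_inf (h : Ok D R no nm) {c₀ : LaurentSeries k} (hc₀ : Rd D.ρm (D.P / D.ν ^ D.e) c₀)
    {τ : LaurentSeries k} (hτ : Rd D.ρm D.t τ) (hτ0 : τ ≠ 0) (hτo : τ.order = -(nm : ℤ))
    (hto : D.vo D.t = 1) (htz : D.vz D.t = 1) {j j' : ℕ} (hj : j + j' = D.e) {a a' : ℕ} {z z' : F}
    {u u' : LaurentSeries k} (hz : z ∈ D.Ls a (j + 2)) (hz' : z' ∈ D.Ls a' (j' + 2))
    (hu : D.Gs (j + 2) z u) (hu' : D.Gs (j' + 2) z' u') (hu0 : u ≠ 0) (hu0' : u' ≠ 0)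
    (hord : (u.order + ((a * nm : ℕ) : ℤ)) + (u'.order + ((a' * nm : ℕ) : ℤ)) = c₀.order) :
    ∃ b b' y : F, b ∈ D.Binf ∧ b' ∈ D.Binf ∧ y ∈ D.Binf ∧ b * b' = y * D.P ∧
      D.vm b = D.vm D.ν ^ j ∧ ∃ w, Rd D.ρm y w ∧ w ≠ 0 ∧ w.order = 0 := by
  obtain ⟨hzL, hzo, hzz, hzm⟩ := D.mem_Ls_add_two.1 hz
  obtain ⟨hzL', hzo', hzz', hzm'⟩ := D.mem_Ls_add_two.1 hz'
  have hP0 := P_ne_zero h
  have hν0 := nu_ne_zero h
  have ht0 := h.t0
  have htm : D.vm D.t = 1 := hτ.v_eq_one h.redm hτ0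
  -- multiplication by `t⁻¹ ^ n` does not change the valuations
  have hval : ∀ (v : Valuation F Γ₀), v D.t = 1 → ∀ (n : ℕ) (x : F), v (D.t⁻¹ ^ n * x) = v x := by
    intro v hv n x
    rw [map_mul, map_pow, map_inv₀, hv, inv_one, one_pow, one_mul]
  have hBinf : ∀ (n : ℕ) (x : F), x ∈ D.Lat n → D.t⁻¹ ^ n * x ∈ D.Binf := by
    intro n x hx
    refine ⟨D.E.mul_mem (D.E.pow_mem (D.E.inv_mem h.tE) n) hx.1, hx.2.1.2, ?_, ?_, ?_⟩
    · rw [hval _ hto]; exact hx.2.2.1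
    · rw [hval _ htm]; exact hx.2.2.2.1
    · rw [hval _ htz]; exact hx.2.2.2.2
  obtain ⟨hy, w₀, hw₀, huw⟩ := prod_mem h hc₀ hj hz hz' hu hu'
  have hyL : z * z' / D.P ∈ D.Lat (a + a') := Ls_subset_Lat _ _ hy
  have hc0 := c0_ne_zero h hc₀
  have hw0 : w₀ ≠ 0 := by
    rintro rfl
    rw [mul_zero] at huw
    exact mul_ne_zero hu0 hu0' huw
  have hwR : Rd D.ρm (z * z' / D.P) w₀ := by
    have := (D.Gs_add_two (j := 0)).1 hw₀
    rwa [pow_zero, div_one] at this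
  have hvy : D.vm (z * z' / D.P) = 1 := hwR.v_eq_one h.redm hw0
  have hPm : D.vm D.P ≠ 0 := (Valuation.ne_zero_iff _).2 hP0
  have hνm : 0 < D.vm D.ν := zero_lt_iff.2 ((Valuation.ne_zero_iff _).2 hν0)
  have hzz'v : D.vm z * D.vm z' = D.vm D.ν ^ j * D.vm D.ν ^ j' := by
    rw [map_div₀, div_eq_one_iff_eq hPm, map_mul] at hvy
    rw [hvy, ← h.νe, ← hj, pow_add]
  have hvz : D.vm z = D.vm D.ν ^ j := by
    refine le_antisymm hzm (not_lt.1 fun hlt => ?_)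
    have h1 : D.vm z * D.vm z' < D.vm D.ν ^ j * D.vm D.ν ^ j' :=
      calc D.vm z * D.vm z' ≤ D.vm z * D.vm D.ν ^ j' := mul_le_mul_right hzm' _
        _ < D.vm D.ν ^ j * D.vm D.ν ^ j' := mul_lt_mul_of_pos_right hlt (pow_pos hνm j')
    exact absurd hzz'v h1.ne
  refine ⟨D.t⁻¹ ^ a * z, D.t⁻¹ ^ a' * z', D.t⁻¹ ^ (a + a') * (z * z' / D.P), hBinf a z hzL,
    hBinf a' z' hzL', hBinf (a + a') _ hyL, ?_, ?_, τ⁻¹ ^ (a + a') * w₀,
    ((hτ.inv h.redm hτ0).pow (a + a')).mul hwR, mul_ne_zero (pow_ne_zero _ (inv_ne_zero hτ0)) hw0,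
    ?_⟩
  · rw [pow_add]
    field_simp
  · rw [hval _ htm, hvz]
  · have hinv : (τ⁻¹).order = (nm : ℤ) := by
      have h1 := congrArg HahnSeries.order (mul_inv_cancel₀ hτ0)
      rw [HahnSeries.order_mul hτ0 (inv_ne_zero hτ0), HahnSeries.order_one, hτo] at h1
      linarith
    have h3 := congrArg HahnSeries.order huw
    rw [HahnSeries.order_mul hu0 hu0', HahnSeries.order_mul hc0 hw0] at h3
    rw [HahnSeries.order_mul (pow_ne_zero _ (inv_ne_zero hτ0)) hw0, HahnSeries.order_pow, hinv,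
      nsmul_eq_mul]
    push_cast at hord ⊢
    linarith

end Fermat.Agent.CAR.P1F
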