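import Fermat.Agent.CAR.P1F.AdaptInfA
import Fermat.Agent.CAR.P1F.ExportInf

/-!
# CAR / P1F : adapters from the exports of the count to the hypotheses `PRm`, `PRoz` of `NS.pr_of_cases` and `PRm` of `NS.pr_inf_of_cases`
(package P1F-16)

`B` is a subring of the FIELD `↥D.E` (as `BK.Bu`), `v : ι → Valuation ↥D.E Γ₀` the three vertical valuations.
-/

set_option autoImplicit false

open Polynomial

noncomputable section

namespace Fermat.Agent.CAR.P1F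

open Fermat.Agent.GAL.KL Fermat.Agent.GAL.KLC Fermat.Agent.TOR.T1 Fermat.Agent.CAR.DEG Fermat.Agent.CAR
open Fermat.Agent.CAR.NS

variable {K F k Γ₀ ι : Type*} [Field K] [Field F] [Algebra K F] [Field k]
  [LinearOrderedCommGroupWithZero Γ₀] [Fintype ι]

variable {D : Dat K F k Γ₀} {R : Subalgebra k (LaurentSeries k)} {no nm : ℕ}
  {B : Subring D.E} {v : ι → Valuation D.E Γ₀} {p : ι → Ideal B} {o m z : ι} {π : B}

/-- **`PRm`, chart `1/t`** (the point at infinity of `C_md`).   `ATT` = the attained orders (third output of `count_main`, `j = 1`).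
PROOF.  CASE `D.e = 1`: `NS.genOn_pi` at `m` (`hoth` from `ONE`).  CASE `2 ≤ D.e`: `ATT` + `export_inf` give `b b' y ∈ D.Binf`, `b b' = y π`, `vm b = vm ν ^ 1`, `Rd ρm y w`, `w ≠ 0`, `w.order = 0`;
`notMem_of_order_zero` gives `y ∉ P`; `NS.genOn_of_dvd V hπ0 KR hP.isPrime (i := m) (N := 1)`, `hoth j hj hjP`: `ONE P hP hsP j m hjP hm` contradicts `hj`. -/
theorem prm_inf (V : Vert B v p) (hπ0 : π ≠ 0)
    (KR : ∀ x : D.E, (∃ N : ℕ, ((π : D.E)) ^ N * x ∈ B) → (∀ i, v i x ≤ 1) → x ∈ B)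
    (Ad : Adp D B v o m z π) (hB : ∀ x : D.E, x ∈ B ↔ (x : F) ∈ D.Binf) (h : Ok D R no nm)
    {c₀ : LaurentSeries k} (hc₀ : Rd D.ρm (D.P / D.ν ^ D.e) c₀)
    {τ : LaurentSeries k} (hτ : Rd D.ρm D.t τ) (hτ0 : τ ≠ 0) (hτo : τ.order = -(nm : ℤ))
    (hto : D.vo D.t = 1) (htz : D.vz D.t = 1)
    (Rinf : Subalgebra k (LaurentSeries k))
    (rinf : ∀ x ∈ D.Binf, ∀ u, Rd D.ρm x u → u ∈ Rinf)
    (sinf : ∀ u ∈ Rinf, ∃ x ∈ D.Binf, Rd D.ρm x u)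
    (uinf : ∀ u ∈ Rinf, (∀ i : ℤ, i ≤ 0 → u.coeff i = 0) → ∃ N : ℕ, u ^ N * τ ∈ Rinf)
    (ATT : 2 ≤ D.e → ∃ (a a' : ℕ) (x x' : F) (u u' : LaurentSeries k), x ∈ D.Ls a (1 + 2) ∧
      x' ∈ D.Ls a' (D.e - 1 + 2) ∧ D.Gs (1 + 2) x u ∧ D.Gs (D.e - 1 + 2) x' u' ∧ u ≠ 0 ∧ u' ≠ 0 ∧
      (u.order + ((a * nm : ℕ) : ℤ)) + (u'.order + ((a' * nm : ℕ) : ℤ)) = c₀.order)
    {s : B} (hs : ((s : D.E) : F) = D.t⁻¹)
    (ONE : ∀ P : Ideal B, P.IsMaximal → s ∈ P → ∀ i j, p i ≤ P → p j ≤ P → i = j) :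
    ∀ P : Ideal B, P.IsMaximal → s ∈ P → p m ≤ P → ∃ ν y : B, y ∉ P ∧ GenOn B (v m) (p m) ν y := by
  intro P hP hsP hm
  have hoth : ∀ j, j ≠ m → ¬ p j ≤ P := fun j hj hjP => hj (ONE P hP hsP j m hjP hm)
  rcases Nat.lt_or_ge D.e 2 with he | he
  · -- `e = 1`
    have he1 : D.e = 1 := by have := h.e0; omega
    have hνP : D.vm D.ν = D.vm D.P := by
      have := h.νe
      rwa [he1, pow_one] at this
    refine ⟨π, genOn_pi V hπ0 KR hP.isPrime (i := m) ?_ ?_ hoth⟩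
    · rw [Ad.vm, Ad.π]
      exact h.πm
    · intro x hx
      rw [Ad.vm] at hx
      rw [Ad.vm, Ad.vm, Ad.π, ← hνP]
      exact h.dsm _ x.2 hx
  · obtain ⟨a, a', x, x', u, u', hx, hx', hu, hu', hu0, hu0', hord⟩ := ATT he
    obtain ⟨b, b', y, hb, hb', hy, hbb, hvb, w, hw, hw0, hwo⟩ :=
      export_inf h hc₀ hτ hτ0 hτo hto htz (j := 1) (j' := D.e - 1) (by omega) hx hx' hu hu' hu0 hu0'
        hord
    let bB : B := ⟨⟨b, hb.1⟩, (hB ⟨b, hb.1⟩).2 hb⟩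
    let bB' : B := ⟨⟨b', hb'.1⟩, (hB ⟨b', hb'.1⟩).2 hb'⟩
    let yB : B := ⟨⟨y, hy.1⟩, (hB ⟨y, hy.1⟩).2 hy⟩
    have hyP : yB ∉ P :=
      notMem_of_order_zero V Ad hB h hτ hτ0 Rinf rinf sinf uinf hs hP hsP hm (y := yB) hw hw0 hwo
    rw [pow_one] at hvb
    have hvb' : v m (bB : D.E) = D.vm D.ν := by
      rw [Ad.vm]
      exact hvb
    refine ⟨bB, genOn_of_dvd V hπ0 KR hP.isPrime (i := m) (ν := bB) ?_ ?_
      (fun j hj hjP => absurd hjP (hoth j hj)) (β := bB') (y₀ := yB) (N := 1) hyP ?_⟩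
    · rw [hvb']
      exact vm_nu_lt_one h
    · intro x hx
      rw [Ad.vm] at hx
      rw [hvb', Ad.vm]
      exact h.dsm _ x.2 hx
    · apply Subtype.ext
      apply Subtype.ext
      show b * b' = y * ((π : D.E) : F) ^ 1
      rw [pow_one, Ad.π]
      exact hbb

end Fermat.Agent.CAR.P1F
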