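import Fermat.Agent.CAR.P1F.Incl
import Fermat.Agent.CAR.DEG.Scale

/-!
# CAR / P1F : export (E-md): a local generator of `p_md` at the points lying only on `C_md`  (package P1F-11)
-/

set_option autoImplicit false

open Polynomial

noncomputable section

namespace Fermat.Agent.CAR.P1F

open Fermat.Agent.GAL.KL Fermat.Agent.GAL.KLC Fermat.Agent.TOR.T1 Fermat.Agent.CAR.DEG Fermat.Agent.CAR

variable {K F k Γ₀ : Type*} [Field K] [Field F] [Algebra K F] [Field k]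
  [LinearOrderedCommGroupWithZero Γ₀]

variable {D : Dat K F k Γ₀} {R : Subalgebra k (LaurentSeries k)} {no nm : ℕ}

/-- **(E-md).**  `PP` = an ideal of `B` (as a set) containing `p_md = {vm < 1}` and not containing `p_∞ ∩ p_0`.
PROOF.  By contradiction: `b b' / π ∈ PP` whenever `b ∈ Ls a (j+2)`, `b' ∈ Ls a' (j'+2)` (it is in `B` by `prod_mem`, `Ls_subset_Lat`, `Lat_subset_B`).
`M := {φ | ∃ x ∈ PP, ∃ w, Rd D.ρm x w ∧ φ = c₀ * w}` is a `k`-subspace (as in `export_oo`) containing the products `u u'` (`mem_Ns_iff`, `prod_mem`; `Gs 2 x w ↔ Rd ρm x w`: `pow_zero`, `div_one`);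
`DEG.mulS_le`: `mulS .. ≤ M`.   `y ∈ Ls a 2` for some `a` (`exists_mem_Lat`), `w_y` its reduction, `c₀ * w_y ∈ sc c₀ (Ns 2) ≤ M`: `c₀ w_y = c₀ w`, `w` = reduction of `x ∈ PP`;
`w_y = w` (`c0_ne_zero`), `vm (y - x) < 1` (`Rd.sub_lt h.redm`), `y - x ∈ PP`, `y ∈ PP`: contradiction.
The equality `vm b = vm ν^j`: `y₀ := b b'/π ∉ PP` gives `vm y₀ = 1` (else `hm`), so `vm b * vm b' = vm π = vm ν^j * vm ν^j'` (`h.νe`, `pow_add`, `hj`) with `vm b ≤ vm ν^j`, `vm b' ≤ vm ν^j'`;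
if `vm b < vm ν^j` the product would be smaller (`mul_lt_mul''`-type lemma in a `LinearOrderedCommGroupWithZero`; `vm ν ≠ 0`). -/
theorem export_md (h : Ok D R no nm) {c₀ : LaurentSeries k} (hc₀ : Rd D.ρm (D.P / D.ν ^ D.e) c₀)
    {j j' : ℕ} (hj : j + j' = D.e) (EQ : sc c₀ (D.Ns 2) ≤ mulS (D.Ns (j + 2)) (D.Ns (j' + 2)))
    (PP : Set F) (hsub : PP ⊆ D.B) (hadd : ∀ x ∈ PP, ∀ y ∈ PP, x + y ∈ PP)
    (hmul : ∀ b ∈ D.B, ∀ x ∈ PP, b * x ∈ PP) (hm : ∀ x ∈ D.B, D.vm x < 1 → x ∈ PP)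
    {y : F} (hyB : y ∈ D.B) (hyo : D.vo y < 1) (hyz : D.vz y < 1) (hy : y ∉ PP) :
    ∃ b b' y₀ : F, b ∈ D.B ∧ b' ∈ D.B ∧ y₀ ∈ D.B ∧ y₀ ∉ PP ∧ b * b' = y₀ * D.P ∧
      D.vm b = D.vm D.ν ^ j := by
  classical
  by_contra hcon
  have hP := P_ne_zero h
  have hν0 : D.vm D.ν ≠ 0 := (Valuation.ne_zero_iff _).2 (nu_ne_zero h)
  -- all the quotients `b b' / π` are in `PP`
  have hA : ∀ (a a' : ℕ) (b b' : F), b ∈ D.Ls a (j + 2) → b' ∈ D.Ls a' (j' + 2) →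
      b * b' / D.P ∈ PP := by
    intro a a' b b' hb hb'
    by_contra hnot
    obtain ⟨u, hu⟩ := exists_Gs h hb
    obtain ⟨u', hu'⟩ := exists_Gs h hb'
    obtain ⟨hL, -⟩ := prod_mem h hc₀ hj hb hb' hu hu'
    have hy₀B : b * b' / D.P ∈ D.B := Lat_subset_B _ (Ls_subset_Lat _ _ hL)
    have hbB : b ∈ D.B := Lat_subset_B _ (Ls_subset_Lat _ _ hb)
    have hb'B : b' ∈ D.B := Lat_subset_B _ (Ls_subset_Lat _ _ hb')
    have hmulP : b * b' = b * b' / D.P * D.P := (div_mul_cancel₀ _ hP).symm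
    refine hcon ⟨b, b', b * b' / D.P, hbB, hb'B, hy₀B, hnot, hmulP, ?_⟩
    have hv1 : D.vm (b * b' / D.P) = 1 :=
      le_antisymm hy₀B.2.2.2.1 (not_lt.1 fun hlt => hnot (hm _ hy₀B hlt))
    have hvv : D.vm b * D.vm b' = D.vm D.ν ^ j * D.vm D.ν ^ j' := by
      rw [← map_mul, hmulP, map_mul, hv1, one_mul, ← h.νe, ← hj, pow_add]
    have hbm : D.vm b ≤ D.vm D.ν ^ j := (D.mem_Ls_add_two.1 hb).2.2.2
    have hb'm : D.vm b' ≤ D.vm D.ν ^ j' := (D.mem_Ls_add_two.1 hb').2.2.2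
    refine le_antisymm hbm (not_lt.1 fun hlt => ?_)
    have hpos : 0 < D.vm D.ν ^ j' := zero_lt_iff.2 (pow_ne_zero _ hν0)
    have h1 : D.vm b * D.vm b' ≤ D.vm b * D.vm D.ν ^ j' := mul_le_mul' le_rfl hb'm
    have h2 : D.vm b * D.vm D.ν ^ j' < D.vm D.ν ^ j * D.vm D.ν ^ j' :=
      mul_lt_mul_of_pos_right hlt hpos
    exact absurd hvv (ne_of_lt (h1.trans_lt h2))
  -- the subspace `M`
  have h0B : (0 : F) ∈ D.B := Lat_subset_B 0 (Lat_zero_mem 0)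
  let M : Submodule k (LaurentSeries k) :=
    { carrier := {φ | ∃ x ∈ PP, ∃ w, Rd D.ρm x w ∧ φ = c₀ * w}
      add_mem' := by
        rintro _ _ ⟨x, hx, w, hw, rfl⟩ ⟨x', hx', w', hw', rfl⟩
        exact ⟨x + x', hadd x hx x' hx', w + w', hw.add hw', (mul_add _ _ _).symm⟩
      zero_mem' := ⟨0, hm 0 h0B (by rw [map_zero]; exact zero_lt_one), 0, Rd.zero, (mul_zero _).symm⟩
      smul_mem' := by
        rintro c _ ⟨x, hx, w, hw, rfl⟩
        obtain ⟨a, hE, ho, hmm, hzz⟩ := h.sc c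
        obtain ⟨a₀, ha₀⟩ := exists_mem_Lat h (D := D) B_one_mem
        have haB : algebraMap K F a ∈ D.B := by
          have := Lat_subset_B _ (Lat_smul (ha₀ a₀ le_rfl) hE ho.le_one hmm.le_one hzz.le_one)
          rwa [Algebra.smul_def, mul_one] at this
        refine ⟨algebraMap K F a * x, hmul _ haB x hx, HahnSeries.C c * w, hmm.mul hw, ?_⟩
        rw [HahnSeries.C_mul_eq_smul, mul_smul_comm'] }
  have hM : mulS (D.Ns (j + 2)) (D.Ns (j' + 2)) ≤ M := by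
    rw [mulS_le]
    intro u hu u' hu'
    obtain ⟨a, z, hz, hG⟩ := (mem_Ns_iff h).1 hu
    obtain ⟨a', z', hz', hG'⟩ := (mem_Ns_iff h).1 hu'
    obtain ⟨-, w, hw, e⟩ := prod_mem h hc₀ hj hz hz' hG hG'
    have hw' : Rd D.ρm (z * z' / D.P / D.ν ^ 0) w := hw
    rw [pow_zero, div_one] at hw'
    exact ⟨z * z' / D.P, hA a a' z z' hz hz', w, hw', e⟩
  -- `y`
  obtain ⟨a₀, ha₀⟩ := exists_mem_Lat h hyB
  have hyL : y ∈ D.Ls a₀ 2 := by
    refine (D.mem_Ls_add_two (j := 0)).2 ⟨ha₀ a₀ le_rfl, hyo, hyz, ?_⟩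
    rw [pow_zero]
    exact hyB.2.2.2.1
  obtain ⟨wy, hwy⟩ := exists_Gs h hyL
  have hwy' : Rd D.ρm (y / D.ν ^ 0) wy := hwy
  rw [pow_zero, div_one] at hwy'
  have hmem : c₀ * wy ∈ M := hM (EQ ⟨wy, mem_Ns_of h hyL hwy, rfl⟩)
  obtain ⟨x, hx, w, hw, e⟩ := hmem
  have hww : wy = w := mul_left_cancel₀ (c0_ne_zero h hc₀) e
  rw [hww] at hwy'
  have hlt : D.vm (y - x) < 1 := Rd.sub_lt h.redm hwy' hw
  have hyx : y - x ∈ PP := hm _ (B_sub hyB (hsub hx)) hlt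
  have := hadd _ hyx _ hx
  rw [sub_add_cancel] at this
  exact hy this

end Fermat.Agent.CAR.P1F
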