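import Fermat.Agent.CAR.P1F.AdaptDefs
import Fermat.Agent.CAR.P1F.ExportMd

/-!
# CAR / P1F : adapters from the exports of the count to the hypotheses `PRm`, `PRoz` of `NS.pr_of_cases` and `PRm` of `NS.pr_inf_of_cases`
(package P1F-13)

`B` is a subring of the FIELD `↥D.E` (as `BK.Bu`), `v : ι → Valuation ↥D.E Γ₀` the three vertical valuations.
-/

set_option autoImplicit false

open Polynomial

noncomputable section

namespace Fermat.Agent.CAR.P1F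

open Fermat.Agent.GAL.KL Fermat.Agent.GAL.KLC Fermat.Agent.TOR.T1 Fermat.Agent.CAR.DEG Fermat.Agent.CAR
open Fermat.Agent.CAR.NS

variable {K F k Γ₀ ι : Type*} [Field K] [Field F] [Algebra K F] [Field k]
  [LinearOrderedCommGroupWithZero Γ₀] [Fintype ι]

variable {D : Dat K F k Γ₀} {R : Subalgebra k (LaurentSeries k)} {no nm : ℕ}
  {B : Subring D.E} {v : ι → Valuation D.E Γ₀} {p : ι → Ideal B} {o m z : ι} {π : B}

/-- **`PRm`, chart `t`.**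
PROOF.  `PP := setOf P`.  `hsub`: `hB`; `hadd`, `hmul`: ideal (lift `b ∈ D.B` to `B` by `hB`); `hm`: `x ∈ D.B`, `vm x < 1` ⇒ the lift lies in `p m ≤ P` (`V.mem_p`, `Ad.vm`).
`SetLike.not_le_iff_exists` gives `yo ∈ p o \ P`, `yz ∈ p z \ P`; `y := yo * yz ∉ P` (`hP.isPrime`), `vo y < 1`, `vz y < 1` (`V.mem_p`, `V.le_one`, `Ad.vo`, `Ad.vz`).
CASE `D.e = 1`: `NS.genOn_pi V hπ0 KR hP.isPrime (i := m)`: `v m π < 1` (`h.πm`, `Ad.π`), uniformiser: `h.dsm` and `h.νe` with `e = 1` (`pow_one`); `hoth`: `Ad.h3`, `ho`, `hz`.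
CASE `2 ≤ D.e`: `export_md h hc₀ (j := 1) (j' := D.e - 1) _ (EQ _) PP …` gives `b b' y₀ ∈ D.B`, `y₀ ∉ PP`, `b b' = y₀ π`, `vm b = vm ν ^ 1`.  Lift them to `B`;
`NS.genOn_of_dvd V hπ0 KR hP.isPrime (i := m) (ν := b) (β := b') (y₀ := y₀) (N := 1)`: `hν1`: `vm_nu_lt_one`; `hν`: `h.dsm` (elements of `↥D.E`); `hoth`: vacuous (`Ad.h3`, `ho`, `hz`);
`hdvd`: `Subtype.ext (Subtype.ext _)`, `pow_one`, `Ad.π`. -/
theorem prm (V : Vert B v p) (hπ0 : π ≠ 0)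
    (KR : ∀ x : D.E, (∃ N : ℕ, ((π : D.E)) ^ N * x ∈ B) → (∀ i, v i x ≤ 1) → x ∈ B)
    (Ad : Adp D B v o m z π) (hB : ∀ x : D.E, x ∈ B ↔ (x : F) ∈ D.B) (h : Ok D R no nm)
    {c₀ : LaurentSeries k} (hc₀ : Rd D.ρm (D.P / D.ν ^ D.e) c₀)
    (EQ : 2 ≤ D.e → sc c₀ (D.Ns 2) ≤ mulS (D.Ns (1 + 2)) (D.Ns (D.e - 1 + 2))) :
    ∀ P : Ideal B, P.IsMaximal → p m ≤ P → ¬ p o ≤ P → ¬ p z ≤ P →
      ∃ ν y : B, y ∉ P ∧ GenOn B (v m) (p m) ν y := by
  intro P hP hmP ho hz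
  have hoth : ∀ j, j ≠ m → ¬ p j ≤ P := by
    intro j hj
    rcases Ad.h3 j with rfl | rfl | rfl
    · exact ho
    · exact absurd rfl hj
    · exact hz
  have lift : ∀ x ∈ D.B, ∃ b : B, ((b : D.E) : F) = x := fun x hx =>
    ⟨⟨⟨x, hx.1⟩, (hB _).2 hx⟩, rfl⟩
  rcases Nat.lt_or_ge D.e 2 with he | he
  · -- `e = 1`
    have he1 : D.e = 1 := by have := h.e0; omega
    obtain ⟨y, hy, hG⟩ := genOn_pi V hπ0 KR hP.isPrime (i := m)
      (by rw [Ad.vm, Ad.π]; exact h.πm)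
      (by
        intro x hx
        rw [Ad.vm] at hx
        rw [Ad.vm, Ad.vm, Ad.π, ← h.νe, he1, pow_one]
        exact h.dsm _ x.2 hx) hoth
    exact ⟨π, y, hy, hG⟩
  · -- `2 ≤ e`
    obtain ⟨yo, hyo, hyoP⟩ := SetLike.not_le_iff_exists.1 ho
    obtain ⟨yz, hyz, hyzP⟩ := SetLike.not_le_iff_exists.1 hz
    have hyP : yo * yz ∉ P := fun hmem => (hP.isPrime.mem_or_mem hmem).elim hyoP hyzP
    have hsub : setOf P ⊆ D.B := by
      rintro _ ⟨b, -, rfl⟩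
      exact (hB _).1 b.2
    have hadd : ∀ x ∈ setOf P, ∀ y ∈ setOf P, x + y ∈ setOf P := by
      rintro _ ⟨b, hb, rfl⟩ _ ⟨b', hb', rfl⟩
      exact ⟨b + b', P.add_mem hb hb', rfl⟩
    have hmulP : ∀ b ∈ D.B, ∀ x ∈ setOf P, b * x ∈ setOf P := by
      rintro b hb _ ⟨x, hx, rfl⟩
      obtain ⟨bb, rfl⟩ := lift b hb
      exact ⟨bb * x, P.mul_mem_left _ hx, rfl⟩
    have hm : ∀ x ∈ D.B, D.vm x < 1 → x ∈ setOf P := by
      intro x hx hlt
      obtain ⟨bb, rfl⟩ := lift x hx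
      refine mem_setOf.2 (hmP ((V.mem_p m bb).2 ?_))
      rw [Ad.vm]
      exact hlt
    have hyo' : D.vo (((yo * yz : B) : D.E) : F) < 1 := by
      rw [← Ad.vo]
      show v o ((yo : D.E) * (yz : D.E)) < 1
      rw [map_mul]
      exact mul_lt_one_of_lt_of_le ((V.mem_p o yo).1 hyo) (V.le_one o yz)
    have hyz' : D.vz (((yo * yz : B) : D.E) : F) < 1 := by
      rw [← Ad.vz]
      show v z ((yo : D.E) * (yz : D.E)) < 1
      rw [map_mul, mul_comm]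
      exact mul_lt_one_of_lt_of_le ((V.mem_p z yz).1 hyz) (V.le_one z yo)
    obtain ⟨b, b', y₀, hb, hb', hy₀, hy₀P, hmul, hvb⟩ := export_md h hc₀ (j := 1)
      (j' := D.e - 1) (by omega) (EQ he) (setOf P) hsub hadd hmulP hm
      (y := (((yo * yz : B) : D.E) : F)) ((hB _).1 (yo * yz).2) hyo' hyz'
      (fun hmem => hyP (mem_setOf.1 hmem))
    obtain ⟨bb, rfl⟩ := lift b hb
    obtain ⟨bb', rfl⟩ := lift b' hb'
    obtain ⟨yy, rfl⟩ := lift y₀ hy₀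
    rw [pow_one] at hvb
    obtain ⟨y, hy, hG⟩ := genOn_of_dvd V hπ0 KR hP.isPrime (i := m) (ν := bb) (β := bb')
      (y₀ := yy) (N := 1)
      (by rw [Ad.vm, hvb]; exact vm_nu_lt_one h)
      (by
        intro x hx
        rw [Ad.vm] at hx
        rw [Ad.vm, Ad.vm, hvb]
        exact h.dsm _ x.2 hx)
      (fun j hj hjP => absurd hjP (hoth j hj))
      (fun hmem => hy₀P (mem_setOf.2 hmem))
      (by
        apply Subtype.ext
        apply Subtype.ext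
        rw [pow_one]
        show ((bb : D.E) : F) * ((bb' : D.E) : F) = ((yy : D.E) : F) * ((π : D.E) : F)
        rw [Ad.π]
        exact hmul)
    exact ⟨bb, y, hy, hG⟩

end Fermat.Agent.CAR.P1F
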