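import Fermat.Agent.CAR.P1F.Incl

/-!
# CAR / P1F : export (E-oo): a local generator of `p_∞` at the points of `C_0`  (package P1F-10)
-/

set_option autoImplicit false

open Polynomial

noncomputable section

namespace Fermat.Agent.CAR.P1F

open Fermat.Agent.GAL.KL Fermat.Agent.GAL.KLC Fermat.Agent.TOR.T1 Fermat.Agent.CAR.DEG Fermat.Agent.CAR

variable {K F k Γ₀ : Type*} [Field K] [Field F] [Algebra K F] [Field k]
  [LinearOrderedCommGroupWithZero Γ₀]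

variable {D : Dat K F k Γ₀} {R : Subalgebra k (LaurentSeries k)} {no nm : ℕ}

variable {H : LaurentSeries k} {Nn : ℕ} {Xo Xo' Xz Xz' : F}

/-- **(E-oo).**  `PP` = a proper ideal of `B` (as a set) containing `p_0 = {vz < 1}`.  If `H R' ⊆ I₀^N` then some product of `N` elements of `p_∞`, divided by `Xo`, is not in `PP`.
PROOF.  By contradiction: `(∏ z i) / Xo ∈ PP` for all such `z` (it is in `B` by `prod_div_Xo_mem`).
`M := {φ | ∃ x ∈ PP, ∃ w, Rd D.ρz x w ∧ φ = H * w}` is a `k`-subspace (zero: `0 ∈ PP` by `hz`; add: `hadd`, `Rd.add`, `mul_add`; smul by `c`: `h.sc c` gives `a`, `algebraMap a ∈ B`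
(`IsInt.algebraMap`, `Rd.le_one`), `hmul`, `Rd.mul`, `HahnSeries.C_mul_eq_smul`/`RP.smul_eq_algebraMap_mul`), stable under `R` (`h.sz`, `hmul`), and contains the products of
`Nn` elements of `Ns 1` (as in the proof of `powS_Ns_one_le`: `u i` = reduction of `z i`, `∏ z i = Xo * y`, `y ∈ PP`, `∏ u i = H * red y`).
`DEG.powS_le`: `powS R (Ns 1) Nn ≤ M`.  `H = H * 1 ∈ sc H (ofAlg R)`, so `H = H * w`, `w` = reduction of `x ∈ PP`; `w = 1` (`hX.H0`); `Rd (1 - x) 0`, so `vz (1 - x) < 1`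
(`rd_zero_iff h.redz`), `1 - x ∈ B` (`B_sub`, `B_one_mem`, `hsub`), `1 - x ∈ PP`, `1 = (1 - x) + x ∈ PP`: contradiction. -/
theorem export_oo (h : Ok D R no nm) (hX : XOk D H Nn Xo Xo' Xz Xz')
    (EQ : sc H (ofAlg R) ≤ powS R (D.Ns 1) Nn) (PP : Set F) (hsub : PP ⊆ D.B)
    (hadd : ∀ x ∈ PP, ∀ y ∈ PP, x + y ∈ PP) (hmul : ∀ b ∈ D.B, ∀ x ∈ PP, b * x ∈ PP)
    (hz : ∀ x ∈ D.B, D.vz x < 1 → x ∈ PP) (h1 : (1 : F) ∉ PP) :
    ∃ z : Fin Nn → F, (∀ i, z i ∈ D.B ∧ D.vo (z i) < 1) ∧ (∏ i, z i) / Xo ∈ D.B ∧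
      (∏ i, z i) / Xo ∉ PP := by
  by_contra hcon
  have hcon' : ∀ z : Fin Nn → F, (∀ i, z i ∈ D.B ∧ D.vo (z i) < 1) → (∏ i, z i) / Xo ∈ PP := by
    intro z hz'
    by_contra hn
    exact hcon ⟨z, hz', prod_div_Xo_mem h hX z hz', hn⟩
  have h0PP : (0 : F) ∈ PP :=
    hz 0 (Lat_subset_B 0 (Lat_zero_mem 0)) (by rw [map_zero]; exact zero_lt_one)
  let M : Submodule k (LaurentSeries k) :=
    { carrier := {φ | ∃ x ∈ PP, ∃ w, Rd D.ρz x w ∧ φ = H * w}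
      zero_mem' := ⟨0, h0PP, 0, Rd.zero, (mul_zero _).symm⟩
      add_mem' := by
        rintro _ _ ⟨x, hx, w, hw, rfl⟩ ⟨x', hx', w', hw', rfl⟩
        exact ⟨x + x', hadd x hx x' hx', w + w', hw.add hw', (mul_add _ _ _).symm⟩
      smul_mem' := by
        rintro c _ ⟨x, hx, w, hw, rfl⟩
        obtain ⟨a, haE, hao, ham, haz⟩ := h.sc c
        have haB : algebraMap K F a ∈ D.B :=
          ⟨haE, IsInt.algebraMap a, hao.le_one, ham.le_one, haz.le_one⟩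
        refine ⟨algebraMap K F a * x, hmul _ haB x hx, HahnSeries.C c * w, haz.mul hw, ?_⟩
        rw [← HahnSeries.C_mul_eq_smul]
        ring }
  have hMR : ∀ r ∈ R, ∀ x ∈ M, r * x ∈ M := by
    rintro r hr _ ⟨x, hx, w, hw, rfl⟩
    obtain ⟨b, hb, hbr⟩ := h.sz r hr
    exact ⟨b * x, hmul b hb x hx, r * w, hbr.mul hw, by ring⟩
  have hXo0 : Xo ≠ 0 := by
    intro h0
    have := hX.rzXo.v_eq_one h.redz hX.H0
    rw [h0, map_zero] at this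
    exact zero_ne_one this
  have hle : powS R (D.Ns 1) Nn ≤ M := by
    apply powS_le Nn hMR
    intro u hu
    have h1 : ∀ i, ∃ z : F, z ∈ D.B ∧ D.vo z < 1 ∧ Rd D.ρz z (u i) := by
      intro i
      obtain ⟨a, z, hz, hG⟩ := (mem_Ns_iff h).1 (hu i)
      exact ⟨z, Lat_subset_B a hz.1, hz.2, hG⟩
    choose z hzB hzo hzr using h1
    have hy := prod_div_Xo_mem h hX z (fun i => ⟨hzB i, hzo i⟩)
    have hyP := hcon' z (fun i => ⟨hzB i, hzo i⟩)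
    obtain ⟨w, hw⟩ := exists_rd (ρ := D.ρz) hy.2.2.2.2
    refine ⟨_, hyP, w, hw, ?_⟩
    have e : ∏ i, z i = Xo * ((∏ i, z i) / Xo) := by field_simp
    have h2 : Rd D.ρz (∏ i, z i) (∏ i, u i) := Incl_Rd_prod _ (fun i _ => hzr i)
    rw [e] at h2
    exact h2.unique (hX.rzXo.mul hw)
  have hH : H ∈ M := hle (EQ ⟨1, R.one_mem, mul_one H⟩)
  obtain ⟨x, hx, w, hw, e⟩ := hH
  have hw1 : w = 1 := by
    have : H * 1 = H * w := by rw [mul_one]; exact e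
    exact (mul_left_cancel₀ hX.H0 this).symm
  subst hw1
  have h3 : Rd D.ρz (1 - x) 0 := by
    have := (Rd.one (ρ := D.ρz)).sub hw
    rwa [sub_self] at this
  have h4 : (1 - x) ∈ PP := hz _ (B_sub B_one_mem (hsub hx)) ((rd_zero_iff h.redz).1 h3)
  have h5 := hadd _ h4 _ hx
  rw [sub_add_cancel] at h5
  exact h1 h5

/-- the shape of `NS.genOn_of_dvd`: `ν := z 0`, `β := (∏_{i > 0} z i) * Xo'`, `y := (∏ z i) / Xo`  (`Nn = n + 1`, `Fin.prod_univ_succ`; `Xo * Xo' = π^Nn`, `Xo ≠ 0`). -/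
theorem export_oo' (h : Ok D R no nm) (hX : XOk D H Nn Xo Xo' Xz Xz')
    (EQ : sc H (ofAlg R) ≤ powS R (D.Ns 1) Nn) (PP : Set F) (hsub : PP ⊆ D.B)
    (hadd : ∀ x ∈ PP, ∀ y ∈ PP, x + y ∈ PP) (hmul : ∀ b ∈ D.B, ∀ x ∈ PP, b * x ∈ PP)
    (hz : ∀ x ∈ D.B, D.vz x < 1 → x ∈ PP) (h1 : (1 : F) ∉ PP) :
    ∃ ν β y : F, ν ∈ D.B ∧ β ∈ D.B ∧ y ∈ D.B ∧ y ∉ PP ∧ D.vo ν < 1 ∧ ν * β = y * D.P ^ Nn := by
  obtain ⟨z, hz', hyB, hyP⟩ := export_oo h hX EQ PP hsub hadd hmul hz h1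
  obtain ⟨n, rfl⟩ : ∃ n, Nn = n + 1 := ⟨Nn - 1, by have := hX.Nn0; omega⟩
  have hXo0 : Xo ≠ 0 := by
    intro h0
    have := hX.rzXo.v_eq_one h.redz hX.H0
    rw [h0, map_zero] at this
    exact zero_ne_one this
  refine ⟨z 0, (∏ i : Fin n, z i.succ) * Xo', (∏ i, z i) / Xo, (hz' 0).1,
    B_mul (B_prod _ fun i _ => (hz' i.succ).1) hX.Xo'B, hyB, hyP, (hz' 0).2, ?_⟩
  rw [← hX.mulo, Fin.prod_univ_succ]
  field_simp

end Fermat.Agent.CAR.P1F
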