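import Fermat.Agent.CAR.P1F.AdaptDefs
import Fermat.Agent.CAR.P1F.ExportOo

/-!
# CAR / P1F : adapters from the exports of the count to the hypotheses `PRm`, `PRoz` of `NS.pr_of_cases` and `PRm` of `NS.pr_inf_of_cases`
(package P1F-14)

`B` is a subring of the FIELD `↥D.E` (as `BK.Bu`), `v : ι → Valuation ↥D.E Γ₀` the three vertical valuations.
-/

set_option autoImplicit false

open Polynomial

noncomputable section

namespace Fermat.Agent.CAR.P1F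

open Fermat.Agent.GAL.KL Fermat.Agent.GAL.KLC Fermat.Agent.TOR.T1 Fermat.Agent.CAR.DEG Fermat.Agent.CAR
open Fermat.Agent.CAR.NS

variable {K F k Γ₀ ι : Type*} [Field K] [Field F] [Algebra K F] [Field k]
  [LinearOrderedCommGroupWithZero Γ₀] [Fintype ι]

variable {D : Dat K F k Γ₀} {R : Subalgebra k (LaurentSeries k)} {no nm : ℕ}
  {B : Subring D.E} {v : ι → Valuation D.E Γ₀} {p : ι → Ideal B} {o m z : ι} {π : B}

variable {H : LaurentSeries k} {Nn : ℕ} {Xo Xo' Xz Xz' : F}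

/-- if a product of `n` factors `≤ c` equals `c ^ n` then all factors are equal to `c`  (`c ≠ 0`).
(If `f i₀ < c`: `∏ f = f i₀ * ∏_{i ≠ i₀} f ≤ f i₀ * c^(n-1) < c * c^(n-1)`; `Finset.mul_prod_erase`, `Finset.prod_le_pow_card`, `mul_lt_mul_of_pos_right`.) -/
theorem eq_of_prod_eq_pow {n : ℕ} {c : Γ₀} (hc : c ≠ 0) (f : Fin n → Γ₀) (hf : ∀ i, f i ≤ c)
    (hp : ∏ i, f i = c ^ n) (i : Fin n) : f i = c := by
  classical
  refine le_antisymm (hf i) (not_lt.1 fun hlt => ?_)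
  have h1 : ∏ j, f j = f i * ∏ j ∈ Finset.univ.erase i, f j :=
    (Finset.mul_prod_erase _ _ (Finset.mem_univ i)).symm
  have h2 : ∏ j ∈ Finset.univ.erase i, f j ≤ c ^ (n - 1) := by
    have := Finset.prod_le_pow_card (Finset.univ.erase i) f c (fun j _ => hf j)
    rwa [Finset.card_erase_of_mem (Finset.mem_univ i), Finset.card_univ, Fintype.card_fin] at this
  have h3 : f i * ∏ j ∈ Finset.univ.erase i, f j < c * c ^ (n - 1) :=
    lt_of_le_of_lt (mul_le_mul' le_rfl h2)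
      (mul_lt_mul_of_pos_right hlt (zero_lt_iff.2 (pow_ne_zero _ hc)))
  have h4 : c * c ^ (n - 1) = c ^ n := by
    have hn : n = (n - 1) + 1 := by have := i.2; omega
    conv_rhs => rw [hn, pow_succ']
  rw [← h1, hp, h4] at h3
  exact lt_irrefl _ h3

/-- a valuation which is `1` on `(∏ x i) / X`, `c ^ n` on `X` and `≤ c` on the factors is `c` on the factors. -/
theorem AdaptOz_val_eq {n : ℕ} (u : Valuation F Γ₀) {c : Γ₀} (hc : c ≠ 0) (x : Fin n → F) {X : F}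
    (hy : u ((∏ i, x i) / X) = 1) (hX : u X = c ^ n) (hx : ∀ i, u (x i) ≤ c) (i : Fin n) :
    u (x i) = c := by
  refine eq_of_prod_eq_pow hc (fun i => u (x i)) hx ?_ i
  have hX0 : u X ≠ 0 := by rw [hX]; exact pow_ne_zero _ hc
  rw [map_div₀, div_eq_one_iff_eq hX0, map_prod, hX] at hy
  exact hy

/-- **`PRoz`, chart `t`** (the triple points).
PROOF.  `PP := setOf P` as in `prm`; `hz`-hypothesis of `export_oo` from `p z ≤ P`; `1 ∉ PP` (`hP.ne_top`, `Ideal.ne_top_iff_one`).  `export_oo` gives `x : Fin Nn → F`, `x i ∈ D.B`, `vo (x i) < 1`,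
`y := (∏ x i)/Xo ∈ D.B \ PP`.  `Nn = n + 1`; `ν := x 0`, `β := (∏_{i>0} x i) * Xo'`: `ν β = y π^Nn` (`Fin.prod_univ_succ`, `hX.mulo`, `Xo ≠ 0`).
`vo y = 1` because `y ∉ P ⊇ p o`; `∏ vo (x i) = vo Xo = vo π ^ Nn`, each factor `≤ vo π` (`h.dso`): `eq_of_prod_eq_pow` gives `vo ν = vo π`: so `hν1` (`h.πo`) and `hν` (`h.dso`).
`hoth j`: `j = m` or `j = z` (`Ad.h3`) with `p j ≤ P`: `v j y = 1`, `v j Xo = 1` (`Rd.v_eq_one`, `hX.rmXo`/`hX.rzXo`, `hX.H0`), `∏ v j (x i) = 1 = 1 ^ Nn`, factors `≤ 1`: `eq_of_prod_eq_pow`.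
`NS.genOn_of_dvd V hπ0 KR hP.isPrime (i := o) (N := Nn)`. -/
theorem proz (V : Vert B v p) (hπ0 : π ≠ 0)
    (KR : ∀ x : D.E, (∃ N : ℕ, ((π : D.E)) ^ N * x ∈ B) → (∀ i, v i x ≤ 1) → x ∈ B)
    (Ad : Adp D B v o m z π) (hB : ∀ x : D.E, x ∈ B ↔ (x : F) ∈ D.B) (h : Ok D R no nm)
    (hX : XOk D H Nn Xo Xo' Xz Xz') (EQ : sc H (ofAlg R) ≤ powS R (D.Ns 1) Nn) :
    ∀ P : Ideal B, P.IsMaximal → p o ≤ P → p z ≤ P → ∃ ν y : B, y ∉ P ∧ GenOn B (v o) (p o) ν y := by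
  intro P hP hoP hzP
  have lift : ∀ x ∈ D.B, ∃ b : B, ((b : D.E) : F) = x :=
    fun x hx => ⟨⟨⟨x, hx.1⟩, (hB _).2 hx⟩, rfl⟩
  have coeB : ∀ b : B, ((b : D.E) : F) ∈ D.B := fun b => (hB _).1 b.2
  obtain ⟨x, hx, hyB, hyP⟩ := export_oo h hX EQ (setOf P)
    (by rintro _ ⟨b, _, rfl⟩; exact coeB b)
    (by rintro _ ⟨b, hb, rfl⟩ _ ⟨b', hb', rfl⟩; exact ⟨b + b', P.add_mem hb hb', rfl⟩)
    (by
      rintro b hb _ ⟨x, hx, rfl⟩
      obtain ⟨b', rfl⟩ := lift b hb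
      exact ⟨b' * x, P.mul_mem_left _ hx, rfl⟩)
    (by
      intro x hx hv
      obtain ⟨b, rfl⟩ := lift x hx
      exact mem_setOf.2 (hzP ((V.mem_p z b).2 (by rw [Ad.vz]; exact hv))))
    (by
      intro h1
      have h2 : (((1 : B) : D.E) : F) ∈ setOf P := h1
      exact (Ideal.ne_top_iff_one P).1 hP.ne_top (mem_setOf.1 h2))
  obtain ⟨n, rfl⟩ : ∃ n, Nn = n + 1 := ⟨Nn - 1, by have := hX.Nn0; omega⟩
  have hXo0 : Xo ≠ 0 := by
    intro h0
    have := hX.rzXo.v_eq_one h.redz hX.H0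
    rw [h0, map_zero] at this
    exact zero_ne_one this
  obtain ⟨ν, hν⟩ := lift (x 0) (hx 0).1
  obtain ⟨β, hβ⟩ := lift ((∏ i : Fin n, x i.succ) * Xo')
    (B_mul (B_prod _ fun i _ => (hx i.succ).1) hX.Xo'B)
  obtain ⟨y, hy⟩ := lift _ hyB
  have hyP' : y ∉ P := fun hh => hyP (by rw [← hy]; exact mem_setOf.2 hh)
  -- `y` is a unit on every branch through `P`
  have hunit : ∀ j, p j ≤ P → v j (y : D.E) = 1 := fun j hj =>
    le_antisymm (V.le_one j y) (not_lt.1 fun hlt => hyP' (hj ((V.mem_p j y).2 hlt)))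
  have hP0 : D.vo D.P ≠ 0 := by
    rw [Ne, map_eq_zero, Dat.P, map_eq_zero]
    exact h.π0
  have hvo : D.vo (x 0) = D.vo D.P := by
    refine AdaptOz_val_eq D.vo hP0 x ?_ hX.voXo (fun i => h.dso _ (hx i).1.1 (hx i).2) 0
    rw [← hy, ← Ad.vo]
    exact hunit o hoP
  refine ⟨ν, genOn_of_dvd V hπ0 KR hP.isPrime (i := o) (ν := ν) (β := β) (y₀ := y) (N := n + 1)
    ?_ ?_ ?_ hyP' ?_⟩
  · rw [Ad.vo, hν]
    exact (hx 0).2
  · intro x' hx'
    rw [Ad.vo] at hx' ⊢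
    rw [Ad.vo, hν, hvo]
    exact h.dso _ x'.2 hx'
  · intro j hj hjP
    rcases Ad.h3 j with rfl | rfl | rfl
    · exact absurd rfl hj
    · rw [Ad.vm, hν]
      refine AdaptOz_val_eq D.vm one_ne_zero x ?_
        (by rw [one_pow]; exact hX.rmXo.v_eq_one h.redm hX.H0) (fun i => (hx i).1.2.2.2.1) 0
      rw [← hy, ← Ad.vm]
      exact hunit _ hjP
    · rw [Ad.vz, hν]
      refine AdaptOz_val_eq D.vz one_ne_zero x ?_
        (by rw [one_pow]; exact hX.rzXo.v_eq_one h.redz hX.H0) (fun i => (hx i).1.2.2.2.2) 0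
      rw [← hy, ← Ad.vz]
      exact hunit _ hjP
  · apply Subtype.ext
    apply Subtype.ext
    show ((ν : D.E) : F) * ((β : D.E) : F) = ((y : D.E) : F) * ((π : D.E) : F) ^ (n + 1)
    rw [hν, hβ, hy, Ad.π, ← hX.mulo, Fin.prod_univ_succ]
    field_simp

end Fermat.Agent.CAR.P1F
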