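import Fermat.Agent.CAR.P1F.Filt
import Fermat.Agent.CAR.DEG.Basic

/-!
# CAR / P1F : the count inequality in terms of Euler characteristics  (package P1F-8)
-/

set_option autoImplicit false

open Polynomial

noncomputable section

namespace Fermat.Agent.CAR.P1F

open Fermat.Agent.GAL.KL Fermat.Agent.GAL.KLC Fermat.Agent.TOR.T1 Fermat.Agent.CAR.DEG Fermat.Agent.CAR

variable {K F k Γ₀ : Type*} [Field K] [Field F] [Algebra K F] [Field k]
  [LinearOrderedCommGroupWithZero Γ₀]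

variable {D : Dat K F k Γ₀} {R : Subalgebra k (LaurentSeries k)} {no nm : ℕ}

/-- **the count.**  PROOF.  Unfold the `HasChi`: thresholds `n₀'`, `n₀1`, `n₀N j` (`j < e`; `choose`).  Take `a` so large that `a no ≥ n₀', n₀1`, `a nm - c j ≥ n₀N j` for all `j < e`
(`a := ` sum/sup of `Int.toNat`s; `no, nm ≥ 1` so `a ≤ a no`, `a ≤ a nm`) and `a Dg + 1 - g₂ > 0` (`Dg ≥ 1`).  Then `finrank K (LL K t a) > 0` by `hL.ri`, so
`FiniteDimensional` (`Module.finite_of_finrank_pos`).  `V 0 := Tr (ofAlg R) (a no)`, `V 1 := Tr (Ns 1) (a no)`, `V (j+2) := Tr (Ns (j+2)) (a nm - c j)`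
(define `V` by `match`/`Nat.rec`, or `fun s => if s = 0 then .. else if s = 1 then .. else ..(s - 2)`).
`hV`: `s = 0`: `h.ro`; `s = 1`: `mem_Ns_of`-type (`Submodule.subset_span ⟨a, z, hz, hu⟩`) and `h.rz` (`Ls_subset_Lat`); `s = j + 2`: `Submodule.subset_span` and `hlow`.
`finrank_LL_le`, `Finset.sum_range_succ'` twice, the `HasChi` equalities, `Finset.sum_add_distrib`, `Finset.sum_const`, `hDg`; cast to `ℤ` (`push_cast`) and cancel `a Dg`. -/
theorem count_ineq (h : Ok D R no nm) {Dg : ℕ} {g₂ : ℤ} {J : Type*} {c : J → F →ₗ[K] K}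
    (hL : LOk D Dg g₂ c) (hno : 0 < no) (hnm : 0 < nm) (hDg : Dg = 2 * no + D.e * nm)
    (χ' χ1 : ℤ) (χN cl : ℕ → ℤ) (hχ' : HasChi (ofAlg R) χ') (hχ1 : HasChi (D.Ns 1) χ1)
    (hχN : ∀ j < D.e, HasChi (D.Ns (j + 2)) (χN j))
    (hlow : ∀ j < D.e, ∀ a, ∀ z ∈ D.Ls a (j + 2), ∀ u, D.Gs (j + 2) z u →
      u ∈ Cut k (((a * nm : ℕ) : ℤ) - cl j)) :
    1 - g₂ ≤ χ' + χ1 + ∑ j ∈ Finset.range D.e, (χN j - cl j) := by
  classical
  obtain ⟨n0', h'⟩ := hχ'
  obtain ⟨n01, h1⟩ := hχ1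
  have hex : ∀ j, ∃ n₀ : ℤ, j < D.e → ∀ n, n₀ ≤ n → Module.Finite k (Tr (D.Ns (j + 2)) n) ∧
      (Module.finrank k (Tr (D.Ns (j + 2)) n) : ℤ) = n + χN j := by
    intro j
    by_cases hj : j < D.e
    · obtain ⟨n₀, hn₀⟩ := hχN j hj
      exact ⟨n₀, fun _ => hn₀⟩
    · exact ⟨0, fun h => absurd h hj⟩
  choose n0N hN using hex
  set a : ℕ := n0'.toNat + n01.toNat + (∑ j ∈ Finset.range D.e, (n0N j + cl j).toNat) + g₂.toNat
    with ha
  have hDg1 : 1 ≤ Dg := by rw [hDg]; omega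
  have hano : (a : ℤ) ≤ ((a * no : ℕ) : ℤ) := by
    exact_mod_cast Nat.le_mul_of_pos_right a hno
  have hanm : (a : ℤ) ≤ ((a * nm : ℕ) : ℤ) := by
    exact_mod_cast Nat.le_mul_of_pos_right a hnm
  have haDg : (a : ℤ) ≤ ((a * Dg : ℕ) : ℤ) := by
    exact_mod_cast Nat.le_mul_of_pos_right a hDg1
  have ha1 : n0' ≤ (a : ℤ) := by
    have := Int.self_le_toNat n0'
    have h2 : (n0'.toNat : ℤ) ≤ (a : ℤ) := by exact_mod_cast (by rw [ha]; omega : n0'.toNat ≤ a)
    exact this.trans h2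
  have ha2 : n01 ≤ (a : ℤ) := by
    have := Int.self_le_toNat n01
    have h2 : (n01.toNat : ℤ) ≤ (a : ℤ) := by exact_mod_cast (by rw [ha]; omega : n01.toNat ≤ a)
    exact this.trans h2
  have ha3 : g₂ ≤ (a : ℤ) := by
    have := Int.self_le_toNat g₂
    have h2 : (g₂.toNat : ℤ) ≤ (a : ℤ) := by exact_mod_cast (by rw [ha]; omega : g₂.toNat ≤ a)
    exact this.trans h2
  have ha4 : ∀ j < D.e, n0N j + cl j ≤ (a : ℤ) := by
    intro j hj
    have := Int.self_le_toNat (n0N j + cl j)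
    have h3 : (n0N j + cl j).toNat ≤ ∑ j ∈ Finset.range D.e, (n0N j + cl j).toNat :=
      Finset.single_le_sum (f := fun j => (n0N j + cl j).toNat) (fun _ _ => Nat.zero_le _)
        (Finset.mem_range.2 hj)
    have h2 : ((n0N j + cl j).toNat : ℤ) ≤ (a : ℤ) := by
      exact_mod_cast (by rw [ha]; omega : (n0N j + cl j).toNat ≤ a)
    exact this.trans h2
  have hri := hL.ri a
  have hpos : 0 < Module.finrank K (LL K D.t a) := by
    have : (0 : ℤ) < (Module.finrank K (LL K D.t a) : ℤ) := by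
      push_cast at hri haDg
      linarith
    exact_mod_cast this
  have hfd : FiniteDimensional K (LL K D.t a) := Module.finite_of_finrank_pos hpos
  let V : ℕ → Submodule k (LaurentSeries k) := fun s => match s with
    | 0 => Tr (ofAlg R) ((a * no : ℕ) : ℤ)
    | 1 => Tr (D.Ns 1) ((a * no : ℕ) : ℤ)
    | j + 2 => Tr (D.Ns (j + 2)) (((a * nm : ℕ) : ℤ) - cl j)
  have e0 := h' ((a * no : ℕ) : ℤ) (ha1.trans hano)
  have e1 := h1 ((a * no : ℕ) : ℤ) (ha2.trans hano)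
  have e2 : ∀ j < D.e, Module.Finite k (Tr (D.Ns (j + 2)) (((a * nm : ℕ) : ℤ) - cl j)) ∧
      (Module.finrank k (Tr (D.Ns (j + 2)) (((a * nm : ℕ) : ℤ) - cl j)) : ℤ)
        = ((a * nm : ℕ) : ℤ) - cl j + χN j := by
    intro j hj
    refine hN j hj _ ?_
    have := ha4 j hj
    linarith
  have hfin : ∀ s < D.e + 2, FiniteDimensional k (V s) := by
    intro s hs
    rcases s with _ | _ | j
    · exact e0.1
    · exact e1.1
    · exact (e2 j (by omega)).1
  have hV : ∀ s < D.e + 2, ∀ z ∈ D.Ls a s, ∀ u, D.Gs s z u → u ∈ V s := by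
    intro s hs z hz u hu
    rcases s with _ | _ | j
    · have := h.ro a z hz u hu
      exact ⟨this.1, this.2⟩
    · exact ⟨Submodule.subset_span ⟨a, z, hz, hu⟩, (h.rz a z hz.1 u hu).2⟩
    · exact ⟨Submodule.subset_span ⟨a, z, hz, hu⟩, hlow j (by omega) a z hz u hu⟩
  have hle := finrank_LL_le h hL a V hfin hV
  rw [Finset.sum_range_succ', Finset.sum_range_succ'] at hle
  have hle' : (Module.finrank K (LL K D.t a) : ℤ)
      ≤ (∑ j ∈ Finset.range D.e, (Module.finrank k (V (j + 1 + 1)) : ℤ))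
        + (Module.finrank k (V (0 + 1)) : ℤ) + (Module.finrank k (V 0) : ℤ) := by
    exact_mod_cast hle
  have hs : (∑ j ∈ Finset.range D.e, (Module.finrank k (V (j + 1 + 1)) : ℤ))
      = (D.e : ℤ) * ((a * nm : ℕ) : ℤ) + ∑ j ∈ Finset.range D.e, (χN j - cl j) := by
    have h3 : ∀ j ∈ Finset.range D.e, (Module.finrank k (V (j + 1 + 1)) : ℤ)
        = ((a * nm : ℕ) : ℤ) + (χN j - cl j) := by
      intro j hj
      have := (e2 j (Finset.mem_range.1 hj)).2
      show (Module.finrank k (Tr (D.Ns (j + 2)) (((a * nm : ℕ) : ℤ) - cl j)) : ℤ) = _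
      rw [this]
      ring
    rw [Finset.sum_congr rfl h3, Finset.sum_add_distrib, Finset.sum_const, Finset.card_range,
      nsmul_eq_mul]
  have hv1 : (Module.finrank k (V (0 + 1)) : ℤ) = ((a * no : ℕ) : ℤ) + χ1 := e1.2
  have hv0 : (Module.finrank k (V 0) : ℤ) = ((a * no : ℕ) : ℤ) + χ' := e0.2
  rw [hs, hv1, hv0] at hle'
  have hD : ((a * Dg + 1 : ℕ) : ℤ)
      = 2 * ((a * no : ℕ) : ℤ) + (D.e : ℤ) * ((a * nm : ℕ) : ℤ) + 1 := by
    rw [hDg]
    push_cast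
    ring
  rw [hD] at hri
  linarith

end Fermat.Agent.CAR.P1F
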