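import Fermat.Agent.CAR.P1F.Mod

/-!
# CAR / P1F : the orders at infinity of the graded pieces are bounded below, the bound is attained  (package P1F-6)
-/

set_option autoImplicit false

open Polynomial

noncomputable section

namespace Fermat.Agent.CAR.P1F

open Fermat.Agent.GAL.KL Fermat.Agent.GAL.KLC Fermat.Agent.TOR.T1 Fermat.Agent.CAR.DEG Fermat.Agent.CAR

variable {K F k Γ₀ : Type*} [Field K] [Field F] [Algebra K F] [Field k]
  [LinearOrderedCommGroupWithZero Γ₀]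

variable {D : Dat K F k Γ₀} {R : Subalgebra k (LaurentSeries k)} {no nm : ℕ}

variable {H : LaurentSeries k} {Nn : ℕ} {Xo Xo' Xz Xz' : F}

/-- PROOF.  `S := {n : ℤ | ∃ a, ∃ z ∈ Ls a (j+2), ∃ u, Gs (j+2) z u ∧ u ≠ 0 ∧ u.order + a nm = n}`.
Nonempty: `HH_mem_Ns` + `mem_Ns_iff` (`H * H ≠ 0`).  Bounded below: fix one element `(a', z', u')` of the analogous set for `j'` (nonempty for the same reason);
`order_add_ge` gives `c₀.order - (u'.order + a' nm) ≤ n` for all `n ∈ S`.  `Int.exists_least_of_bdd` gives the least element `c`.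
First clause: `u = 0` is in every `Cut`; `u ≠ 0`: `DEG.mem_Cut_iff_order`: `-(a nm - c) ≤ u.order ↔ c ≤ u.order + a nm`. -/
theorem exists_low (h : Ok D R no nm) (hX : XOk D H Nn Xo Xo' Xz Xz') {c₀ : LaurentSeries k}
    (hc₀ : Rd D.ρm (D.P / D.ν ^ D.e) c₀) {j j' : ℕ} (hj : j + j' = D.e) :
    ∃ c : ℤ, (∀ a, ∀ z ∈ D.Ls a (j + 2), ∀ u, D.Gs (j + 2) z u → u ∈ Cut k (((a * nm : ℕ) : ℤ) - c)) ∧
      ∃ a, ∃ z ∈ D.Ls a (j + 2), ∃ u, D.Gs (j + 2) z u ∧ u ≠ 0 ∧ u.order + ((a * nm : ℕ) : ℤ) = c := by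
  have hHH : H * H ≠ 0 := mul_ne_zero hX.H0 hX.H0
  -- one element for `j` and one for `j'`
  obtain ⟨a₁, z₁, hz₁, hu₁⟩ := (mem_Ns_iff h).1 (HH_mem_Ns h hX j)
  obtain ⟨a', z', hz', hu'⟩ := (mem_Ns_iff h).1 (HH_mem_Ns h hX j')
  let P : ℤ → Prop := fun n => ∃ a, ∃ z ∈ D.Ls a (j + 2), ∃ u, D.Gs (j + 2) z u ∧ u ≠ 0 ∧
    u.order + ((a * nm : ℕ) : ℤ) = n
  have hbd : ∀ n : ℤ, P n → c₀.order - ((H * H).order + ((a' * nm : ℕ) : ℤ)) ≤ n := by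
    rintro n ⟨a, z, hz, u, hu, hu0, rfl⟩
    have := order_add_ge h hc₀ hj hz hz' hu hu' hu0 hHH
    linarith
  have hne : ∃ n : ℤ, P n := ⟨_, a₁, z₁, hz₁, H * H, hu₁, hHH, rfl⟩
  obtain ⟨c, hc, hmin⟩ := Int.exists_least_of_bdd ⟨_, hbd⟩ hne
  refine ⟨c, ?_, hc⟩
  intro a z hz u hu
  by_cases hu0 : u = 0
  · rw [hu0]
    exact Submodule.zero_mem _
  · rw [DEG.mem_Cut_iff_order hu0]
    have := hmin _ ⟨a, z, hz, u, hu, hu0, rfl⟩
    linarith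

end Fermat.Agent.CAR.P1F
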