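import Mathlib

/-!
# CAR / P1F : the numerical core of the count  (package P1F-7; integers only)
-/

set_option autoImplicit false

namespace Fermat.Agent.CAR.P1F

open Finset

/-- **all slacks vanish.**  `χ' = χ(R')`, `χ1 = χ(I₀)`, `χN j = χ(N_j)`, `oH = ord H`, `oc = ord c₀`, `G = 1 - g₂`, `e + 2 = q + 1`.
PROOF.  `S := ∑ j ∈ Ico 1 e, (χN j - c j)`.  Reflection `j ↦ e - j` is an involution of `Ico 1 e` (`Finset.sum_bij'` or `Finset.sum_nbij'`, or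
`Finset.sum_Ico_reflect`-type lemma), so `2 S = ∑ j ∈ Ico 1 e, T j`, `T j := χN j + χN (e-j) - c j - c (e-j)`.
Slacks (all `≥ 0`): `s1 := oH - Nn (χ1 - χ')`, `s2 := 2 oH - Nn (χN 0 - χ')`, `a j := χN 0 + oc - (χN j + χN (e-j) - χ')`, `b j := c j + c (e-j) - oc`;
`T j = χ' + χN 0 - a j - b j`, `card (Ico 1 e) = e - 1` (treat `e = 0` separately or write `e = e' + 1`; for `e = 0` the `Ico` is empty).
Multiply `hcount` by `2 Nn` and use `hnum`:  `2 s1 + (e + 1) s2 + Nn ∑ (a j + b j) ≤ 0`.   Hence everything vanishes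
(`Finset.sum_eq_zero_iff_of_nonneg`, `Nn > 0`; `nlinarith`/`positivity` for the products). -/
theorem num_core {e Nn : ℕ} (he : 0 < e) (hN : 0 < Nn) (χ' χ1 oH oc G : ℤ) (χN c : ℕ → ℤ)
    (hcount : G ≤ χ' + χ1 + χN 0 + ∑ j ∈ Ico 1 e, (χN j - c j))
    (h1 : (Nn : ℤ) * (χ1 - χ') ≤ oH) (h2 : (Nn : ℤ) * (χN 0 - χ') ≤ 2 * oH)
    (h3 : ∀ j ∈ Ico 1 e, χN j + χN (e - j) - χ' ≤ χN 0 + oc)
    (h4 : ∀ j ∈ Ico 1 e, oc ≤ c j + c (e - j))
    (hnum : (Nn : ℤ) * G = ((e : ℤ) + 2) * (Nn * χ' + oH)) :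
    (Nn : ℤ) * (χ1 - χ') = oH ∧ (Nn : ℤ) * (χN 0 - χ') = 2 * oH ∧
      ∀ j ∈ Ico 1 e, χN j + χN (e - j) - χ' = χN 0 + oc ∧ c j + c (e - j) = oc := by
  have hN' : (0 : ℤ) < Nn := by exact_mod_cast hN
  have ha0 : ∀ j ∈ Ico 1 e, 0 ≤ χN 0 + oc - (χN j + χN (e - j) - χ') := fun j hj => by
    have := h3 j hj
    linarith
  have hb0 : ∀ j ∈ Ico 1 e, 0 ≤ c j + c (e - j) - oc := fun j hj => by
    have := h4 j hj
    linarith
  have hrefl : ∑ j ∈ Ico 1 e, (χN (e - j) - c (e - j)) = ∑ j ∈ Ico 1 e, (χN j - c j) := by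
    have := Finset.sum_Ico_reflect (fun j => χN j - c j) 1 (m := e) (n := e) (Nat.le_succ e)
    simpa using this
  have hcard : ((Ico 1 e).card : ℤ) = e - 1 := by
    rw [Nat.card_Ico, Nat.cast_sub he, Nat.cast_one]
  obtain ⟨T, hT⟩ : ∃ T : ℤ, T = ∑ j ∈ Ico 1 e,
      ((χN 0 + oc - (χN j + χN (e - j) - χ')) + (c j + c (e - j) - oc)) := ⟨_, rfl⟩
  obtain ⟨S, hS⟩ : ∃ S : ℤ, S = ∑ j ∈ Ico 1 e, (χN j - c j) := ⟨_, rfl⟩
  have h2S : 2 * S = ((e : ℤ) - 1) * (χ' + χN 0) - T := by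
    have h5 : ∑ j ∈ Ico 1 e, (((χN j - c j) + (χN (e - j) - c (e - j)))
        + ((χN 0 + oc - (χN j + χN (e - j) - χ')) + (c j + c (e - j) - oc)))
        = ∑ _j ∈ Ico 1 e, (χ' + χN 0) := by
      refine sum_congr rfl fun j _ => ?_
      ring
    rw [sum_add_distrib, sum_add_distrib, hrefl, sum_const, nsmul_eq_mul, hcard, ← hT, ← hS] at h5
    linarith
  have hT0 : 0 ≤ T := by
    rw [hT]
    exact sum_nonneg fun j hj => add_nonneg (ha0 j hj) (hb0 j hj)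
  rw [← hS] at hcount
  have key : 2 * (oH - Nn * (χ1 - χ')) + ((e : ℤ) + 1) * (2 * oH - Nn * (χN 0 - χ')) + Nn * T
      ≤ 0 := by
    have h5 : (Nn : ℤ) * (2 * G) ≤ Nn * (2 * (χ' + χ1 + χN 0) + 2 * S) :=
      mul_le_mul_of_nonneg_left (by linarith) hN'.le
    rw [h2S] at h5
    have h6 : (Nn : ℤ) * (2 * G) = 2 * (((e : ℤ) + 2) * (Nn * χ' + oH)) := by
      rw [← hnum]
      ring
    rw [h6] at h5
    linarith
  have hs2 : 0 ≤ ((e : ℤ) + 1) * (2 * oH - Nn * (χN 0 - χ')) :=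
    mul_nonneg (by positivity) (by linarith)
  have hT' : 0 ≤ (Nn : ℤ) * T := mul_nonneg hN'.le hT0
  have r1 : (Nn : ℤ) * (χ1 - χ') = oH := by linarith
  have r2 : ((e : ℤ) + 1) * (2 * oH - Nn * (χN 0 - χ')) = 0 := by linarith
  have r3 : (Nn : ℤ) * T = 0 := by linarith
  have r2' : 2 * oH - Nn * (χN 0 - χ') = 0 := by
    rcases mul_eq_zero.1 r2 with h | h
    · exfalso
      have : (0 : ℤ) ≤ e := Int.natCast_nonneg e
      linarith
    · exact h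
  have r3' : T = 0 := by
    rcases mul_eq_zero.1 r3 with h | h
    · exact absurd h hN'.ne'
    · exact h
  refine ⟨r1, by linarith, fun j hj => ?_⟩
  rw [hT] at r3'
  have h7 := (sum_eq_zero_iff_of_nonneg
    (fun j hj => add_nonneg (ha0 j hj) (hb0 j hj))).1 r3' j hj
  have h8 := ha0 j hj
  have h9 := hb0 j hj
  constructor <;> linarith

end Fermat.Agent.CAR.P1F
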