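import Fermat.Agent.CAR.P1F.Incl
import Fermat.Agent.CAR.P1F.Low
import Fermat.Agent.CAR.P1F.Num
import Fermat.Agent.CAR.P1F.Dim
import Fermat.Agent.CAR.DEG.Scale
import Fermat.Agent.CAR.DEG.Ideal

/-!
# CAR / P1F : THE COUNT, assembly
-/

set_option autoImplicit false

open Polynomial

noncomputable section

namespace Fermat.Agent.CAR.P1F

open Fermat.Agent.GAL.KL Fermat.Agent.GAL.KLC Fermat.Agent.TOR.T1 Fermat.Agent.CAR.DEG Fermat.Agent.CAR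

variable {K F k Γ₀ : Type*} [Field K] [Field F] [Algebra K F] [Field k]
  [LinearOrderedCommGroupWithZero Γ₀]

variable {D : Dat K F k Γ₀} {no nm : ℕ} {H : LaurentSeries k} {Nn : ℕ} {Xo Xo' Xz Xz' : F}

/-- **THE COUNT.**  All the inclusions between the graded pieces are equalities. -/
theorem count_main {Fb : IntermediateField k (LaurentSeries k)} {ξ : LaurentSeries k} {g : ℕ}
    (hC : RP.IsCurve Fb ξ g) (h : Ok D (RP.RR Fb ξ) no nm) (hX : XOk D H Nn Xo Xo' Xz Xz')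
    {Dg : ℕ} {g₂ : ℤ} {J : Type*} {c : J → F →ₗ[K] K} (hL : LOk D Dg g₂ c)
    {c₀ : LaurentSeries k} (hc₀ : Rd D.ρm (D.P / D.ν ^ D.e) c₀) (hno : 0 < no) (hnm : 0 < nm)
    (hDg : Dg = 2 * no + D.e * nm)
    (hnum : (Nn : ℤ) * (1 - g₂) = ((D.e : ℤ) + 2) * (Nn * (1 - (g : ℤ)) + H.order)) :
    powS (RP.RR Fb ξ) (D.Ns 1) Nn = sc H (ofAlg (RP.RR Fb ξ)) ∧
    ∀ j j' : ℕ, 0 < j → 0 < j' → j + j' = D.e →
      mulS (D.Ns (j + 2)) (D.Ns (j' + 2)) = sc c₀ (D.Ns 2) ∧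
      ∃ (a a' : ℕ) (z z' : F) (u u' : LaurentSeries k), z ∈ D.Ls a (j + 2) ∧ z' ∈ D.Ls a' (j' + 2) ∧
        D.Gs (j + 2) z u ∧ D.Gs (j' + 2) z' u' ∧ u ≠ 0 ∧ u' ≠ 0 ∧
        (u.order + ((a * nm : ℕ) : ℤ)) + (u'.order + ((a' * nm : ℕ) : ℤ)) = c₀.order := by
  classical
  set R := RP.RR Fb ξ with hR
  have he := h.e0
  have hc₀0 := c0_ne_zero h hc₀
  have hχ' : HasChi (ofAlg R) (1 - (g : ℤ)) := hasChi_RR hC
  have hF1 := isFrac_Ns_one h hX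
  obtain ⟨χ1, hχ1⟩ := exists_hasChi hC hF1
  have hfr : ∀ j, j ≤ D.e → IsFrac R (D.Ns (j + 2)) := fun j hj =>
    isFrac_Ns h hX hc₀ (j := j) (j' := D.e - j) (by omega)
  have hex : ∀ j, ∃ χ : ℤ, j ≤ D.e → HasChi (D.Ns (j + 2)) χ := by
    intro j
    by_cases hj : j ≤ D.e
    · obtain ⟨χ, hχ⟩ := exists_hasChi hC (hfr j hj)
      exact ⟨χ, fun _ => hχ⟩
    · exact ⟨0, fun h' => absurd h' hj⟩
  choose χN hχN using hex
  have hexl : ∀ j, ∃ cl : ℤ, j ≤ D.e →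
      (∀ a, ∀ z ∈ D.Ls a (j + 2), ∀ u, D.Gs (j + 2) z u → u ∈ Cut k (((a * nm : ℕ) : ℤ) - cl)) ∧
      ∃ a, ∃ z ∈ D.Ls a (j + 2), ∃ u, D.Gs (j + 2) z u ∧ u ≠ 0 ∧
        u.order + ((a * nm : ℕ) : ℤ) = cl := by
    intro j
    by_cases hj : j ≤ D.e
    · obtain ⟨cl, hcl⟩ := exists_low h hX hc₀ (j := j) (j' := D.e - j) (by omega)
      exact ⟨cl, fun _ => hcl⟩
    · exact ⟨0, fun h' => absurd h' hj⟩
  choose cl0 hcl0 using hexl
  set cl : ℕ → ℤ := fun j => if j = 0 then 0 else cl0 j with hcl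
  have hlow : ∀ j < D.e, ∀ a, ∀ z ∈ D.Ls a (j + 2), ∀ u, D.Gs (j + 2) z u →
      u ∈ Cut k (((a * nm : ℕ) : ℤ) - cl j) := by
    intro j hj a z hz u hu
    by_cases hj0 : j = 0
    · subst hj0
      have h1 : Rd D.ρm z u := by
        have := (D.Gs_add_two (j := 0)).1 hu
        rwa [pow_zero, div_one] at this
      simpa [hcl] using (h.rm a z (Ls_subset_Lat a _ hz) u h1).2
    · simp only [hcl, if_neg hj0]
      exact (hcl0 j hj.le).1 a z hz u hu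
  have hcount := count_ineq h hL hno hnm hDg (1 - (g : ℤ)) χ1 χN cl hχ' hχ1
    (fun j hj => hχN j hj.le) hlow
  have hsplit : ∑ j ∈ Finset.range D.e, (χN j - cl j)
      = χN 0 + ∑ j ∈ Finset.Ico 1 D.e, (χN j - cl j) := by
    rw [Finset.range_eq_Ico, Finset.sum_eq_sum_Ico_succ_bot he]
    simp [hcl]
  rw [hsplit, ← add_assoc] at hcount
  have h1 : (Nn : ℤ) * (χ1 - (1 - (g : ℤ))) ≤ H.order := by
    have := HasChi.le (hasChi_powS hC hF1 hχ1 Nn) (hasChi_sc hX.H0 hχ') (powS_Ns_one_le h hX)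
    linarith
  have hHH : (H * H).order = 2 * H.order := by
    rw [HahnSeries.order_mul hX.H0 hX.H0]; ring
  have h2 : (Nn : ℤ) * (χN 0 - (1 - (g : ℤ))) ≤ 2 * H.order := by
    have := HasChi.le (hasChi_powS hC (hfr 0 (Nat.zero_le _)) (hχN 0 (Nat.zero_le _)) Nn)
      (hasChi_sc (mul_ne_zero hX.H0 hX.H0) hχ') (powS_Ns_two_le h hX)
    rw [hHH] at this
    linarith
  have hmul : ∀ j ∈ Finset.Ico 1 D.e,
      HasChi (mulS (D.Ns (j + 2)) (D.Ns (D.e - j + 2))) (χN j + χN (D.e - j) - (1 - (g : ℤ))) := by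
    intro j hj
    rw [Finset.mem_Ico] at hj
    exact hasChi_mulS hC (hfr j (by omega)) (hfr (D.e - j) (by omega)) (hχN j (by omega))
      (hχN (D.e - j) (by omega))
  have hsc : HasChi (sc c₀ (D.Ns 2)) (χN 0 + c₀.order) :=
    hasChi_sc hc₀0 (hχN 0 (Nat.zero_le _))
  have h3 : ∀ j ∈ Finset.Ico 1 D.e,
      χN j + χN (D.e - j) - (1 - (g : ℤ)) ≤ χN 0 + c₀.order := by
    intro j hj
    have hj' := Finset.mem_Ico.1 hj
    exact HasChi.le (hmul j hj) hsc (mulS_Ns_le h hc₀ (by omega))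
  have hclj : ∀ j ∈ Finset.Ico 1 D.e, cl j = cl0 j ∧ cl (D.e - j) = cl0 (D.e - j) := by
    intro j hj
    rw [Finset.mem_Ico] at hj
    constructor
    · simp only [hcl]; rw [if_neg (by omega)]
    · simp only [hcl]; rw [if_neg (by omega)]
  have h4 : ∀ j ∈ Finset.Ico 1 D.e, c₀.order ≤ cl j + cl (D.e - j) := by
    intro j hj
    have hj' := Finset.mem_Ico.1 hj
    obtain ⟨a, z, hz, u, hu, hu0, hua⟩ := (hcl0 j (by omega)).2
    obtain ⟨a', z', hz', u', hu', hu0', hua'⟩ := (hcl0 (D.e - j) (by omega)).2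
    rw [(hclj j hj).1, (hclj j hj).2, ← hua, ← hua']
    exact order_add_ge h hc₀ (by omega) hz hz' hu hu' hu0 hu0'
  obtain ⟨e1, -, e3⟩ := num_core he hX.Nn0 (1 - (g : ℤ)) χ1 H.order c₀.order (1 - g₂) χN cl hcount
    h1 h2 h3 h4 hnum
  refine ⟨?_, ?_⟩
  · refine HasChi.eq_of_le (hasChi_powS hC hF1 hχ1 Nn) (hasChi_sc hX.H0 hχ') (powS_Ns_one_le h hX) ?_
    linarith
  · intro j j' hj hj' hjj
    obtain rfl : j' = D.e - j := by omega
    have hjm : j ∈ Finset.Ico 1 D.e := Finset.mem_Ico.2 ⟨hj, by omega⟩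
    obtain ⟨e4, e5⟩ := e3 j hjm
    refine ⟨HasChi.eq_of_le (hmul j hjm) hsc (mulS_Ns_le h hc₀ hjj) e4.ge, ?_⟩
    obtain ⟨a, z, hz, u, hu, hu0, hua⟩ := (hcl0 j (by omega)).2
    obtain ⟨a', z', hz', u', hu', hu0', hua'⟩ := (hcl0 (D.e - j) (by omega)).2
    refine ⟨a, a', z, z', u, u', hz, hz', hu, hu', hu0, hu0', ?_⟩
    rw [hua, hua', ← (hclj j hjm).1, ← (hclj j hjm).2]
    exact e5

end Fermat.Agent.CAR.P1F
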