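import Fermat.Agent.CAR.P1F.BKInst
import Fermat.Agent.CAR.P1F.Main
import Fermat.Agent.CAR.P1F.AdaptMd
import Fermat.Agent.CAR.P1F.AdaptOz
import Fermat.Agent.CAR.P1F.AdaptInf

/-!
# CAR / P1F : the three hypotheses `PRm`, `PRoz`, `PRmi` of `CAR.Main.top_abs`, from the count, in the abstract BK language (assembly)
-/

set_option autoImplicit false

open Polynomial ModularCurve AlgebraicCurve

noncomputable section

namespace Fermat.Agent.CAR.P1F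

open Fermat.Agent.GAL.KL Fermat.Agent.GAL.KLC Fermat.Agent.TOR.T1 Fermat.Agent.CAR.ON
open Fermat.Agent.GAL Fermat.Agent.CAR Fermat.Agent.CAR.BK Fermat.Agent.CAR.DEG

variable {K F₀ F k Γ' Γ₀ I : Type*} [Field K] [Field F₀] [Field F] [Algebra K F₀]
  [Algebra K F] [Field k] [LinearOrderedCommGroupWithZero Γ'] [LinearOrderedCommGroupWithZero Γ₀]
  {v₀ : Valuation F₀ Γ'} {ρ₀ : v₀.integer →+* LaurentSeries k}
  {v : Idx I → Valuation F Γ₀} {ρ : ∀ i, (v i).integer →+* LaurentSeries k}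
  {α β γ : F₀ →ₐ[K] F} {q : ℕ} [NeZero q] {E₀ : Subfield F₀} {E : Subfield F}
  {x x' : F₀} {ξ ξ' : LaurentSeries k} {m : ℕ}

/-- **[P1] in BK language.** -/
theorem pr_BK (H : Lvl2 K ρ₀ v ρ α β γ q) (X : XDat K ρ₀ x x' ξ ξ' m q) (hq : 2 ≤ q)
    (hq0 : (q : K) ≠ 0) (hA : ∀ i, Arch (v i))
    (Ct : ChartK K ρ₀ ρ α γ E₀ E q x (tt α γ x) ξ)
    (Ci : ChartK K ρ₀ ρ α γ E₀ E q x⁻¹ (tt α γ x)⁻¹ ξ⁻¹)
    (hDt : IsDedekindDomain (RP.RR (CTV.Fbar H.red₀) ξ))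
    (hDi : IsDedekindDomain (RP.RR (CTV.Fbar H.red₀) ξ⁻¹)) (i₀ : I)
    (πt : Bu K E v (tt α γ x)) (hπt : ((πt : E) : F) = algebraMap K F (q : K))
    (πi : Bu K E v (tt α γ x)⁻¹) (hπi : ((πi : E) : F) = algebraMap K F (q : K))
    (s : Bu K E v (tt α γ x)⁻¹) (hs : ((s : E) : F) = (tt α γ x)⁻¹)
    {νt : Bu K E v (tt α γ x)} {e : ℕ}
    (Dt : NS.Disc3 (Bu K E v (tt α γ x)) (v3 E v i₀) oo (md ()) zr πt νt e) (he : e + 1 = q)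
    (ONE : ∀ P : Ideal (Bu K E v (tt α γ x)⁻¹), P.IsMaximal → s ∈ P → ∀ i j,
      pK K E v (tt α γ x)⁻¹ i₀ i ≤ P → pK K E v (tt α γ x)⁻¹ i₀ j ≤ P → i = j)
    (sc : ∀ c : k, ∃ a : K, algebraMap K F a ∈ E ∧ Rd (ρ oo) (algebraMap K F a) (HahnSeries.C c) ∧
      Rd (ρ (md i₀)) (algebraMap K F a) (HahnSeries.C c) ∧
      Rd (ρ zr) (algebraMap K F a) (HahnSeries.C c))
    {g : ℕ} (hC : RP.IsCurve (CTV.Fbar H.red₀) ξ g)
    {Hh : LaurentSeries k} {Nn : ℕ} {Xo Xo' Xz Xz' : F}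
    (hX : XOk (datBK E v ρ i₀ (tt α γ x) (q : K) ((νt : E) : F) e) Hh Nn Xo Xo' Xz Xz')
    {g₂ : ℤ} {J : Type*} {c : J → F →ₗ[K] K}
    (hL : LOk (datBK E v ρ i₀ (tt α γ x) (q : K) ((νt : E) : F) e)
      (2 * ((q * q + 1) * m) + e * ((1 + 1) * m)) g₂ c)
    (hnum : (Nn : ℤ) * (1 - g₂) = ((q : ℤ) + 1) * (Nn * (1 - (g : ℤ)) + Hh.order)) :
    (∀ P : Ideal (Bu K E v (tt α γ x)), P.IsMaximal → pK K E v (tt α γ x) i₀ (md ()) ≤ P →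
      ¬ pK K E v (tt α γ x) i₀ oo ≤ P → ¬ pK K E v (tt α γ x) i₀ zr ≤ P →
      ∃ ν y : Bu K E v (tt α γ x), y ∉ P ∧
        NS.GenOn (Bu K E v (tt α γ x)) (v3 E v i₀ (md ())) (pK K E v (tt α γ x) i₀ (md ())) ν y) ∧
    (∀ P : Ideal (Bu K E v (tt α γ x)), P.IsMaximal → pK K E v (tt α γ x) i₀ oo ≤ P →
      pK K E v (tt α γ x) i₀ zr ≤ P →
      ∃ ν y : Bu K E v (tt α γ x), y ∉ P ∧
        NS.GenOn (Bu K E v (tt α γ x)) (v3 E v i₀ oo) (pK K E v (tt α γ x) i₀ oo) ν y) ∧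
    (∀ P : Ideal (Bu K E v (tt α γ x)⁻¹), P.IsMaximal → s ∈ P →
      pK K E v (tt α γ x)⁻¹ i₀ (md ()) ≤ P →
      ∃ ν y : Bu K E v (tt α γ x)⁻¹, y ∉ P ∧
        NS.GenOn (Bu K E v (tt α γ x)⁻¹) (v3 E v i₀ (md ())) (pK K E v (tt α γ x)⁻¹ i₀ (md ()))
          ν y) := by
  classical
  set D := datBK E v ρ i₀ (tt α γ x) (q : K) ((νt : E) : F) e with hD
  have hOk : Ok D (RP.RR (CTV.Fbar H.red₀) ξ) ((q * q + 1) * m) ((1 + 1) * m) :=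
    ok_BK H X hq0 Ct Ci i₀ πt hπt Dt sc
  have hm := X.m_pos
  have hξ := ON.xi_ne_zero X
  -- the constant `c₀`
  have hv1 : D.vm (D.P / D.ν ^ D.e) ≤ 1 := by
    rw [map_div₀, map_pow, hOk.νe, div_self ((Valuation.ne_zero_iff _).2 (P_ne_zero hOk))]
  obtain ⟨c₀, hc₀⟩ := exists_rd (ρ := D.ρm) hv1
  have hnum' : (Nn : ℤ) * (1 - g₂) = ((D.e : ℤ) + 2) * (Nn * (1 - (g : ℤ)) + Hh.order) := by
    rw [hnum]
    have : ((D.e : ℕ) : ℤ) + 1 = (q : ℤ) := by exact_mod_cast he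
    rw [← this]; ring
  obtain ⟨hoo, hmd⟩ := count_main hC hOk hX hL hc₀ (Nat.mul_pos (Nat.succ_pos _) hm)
    (Nat.mul_pos (Nat.succ_pos _) hm) rfl hnum'
  -- the two charts
  have Vt := BK.vert H Ct hq hA hDt i₀
  have Vi := BK.vert H Ci hq hA hDi i₀
  have KRt := BK.kr Ct i₀ (q : K) hq0 πt hπt
  have KRi := BK.kr Ci i₀ (q : K) hq0 πi hπi
  have hπt0 : πt ≠ 0 := by
    rintro rfl
    exact (_root_.map_ne_zero (algebraMap K F)).2 hq0 hπt.symm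
  have hπi0 : πi ≠ 0 := by
    rintro rfl
    exact (_root_.map_ne_zero (algebraMap K F)).2 hq0 hπi.symm
  have Adt : Adp D (Bu K E v (tt α γ x)) (v3 E v i₀) oo (md ()) zr πt :=
    adp_BK i₀ _ _ _ _ _ πt hπt
  have Adi : Adp D (Bu K E v (tt α γ x)⁻¹) (v3 E v i₀) oo (md ()) zr πi :=
    adp_BK i₀ _ _ _ _ _ πi hπi
  have hBt : ∀ z : E, z ∈ Bu K E v (tt α γ x) ↔ (z : F) ∈ D.B := mem_B_iff Ct i₀ _ _ _
  have hBi : ∀ z : E, z ∈ Bu K E v (tt α γ x)⁻¹ ↔ (z : F) ∈ D.Binf := mem_Binf_iff Ci i₀ _ _ _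
  refine ⟨?_, ?_, ?_⟩
  · exact prm Vt hπt0 KRt Adt hBt hOk hc₀ fun h2 =>
      (hmd 1 (D.e - 1) one_pos (by omega) (by omega)).1.ge
  · exact proz Vt hπt0 KRt Adt hBt hOk hX hoo.ge
  · have hτ : Rd D.ρm D.t (ξ ^ (1 + 1)) := rd_tt_md H X i₀
    have hτo : (ξ ^ (1 + 1)).order = -(((1 + 1) * m : ℕ) : ℤ) := by
      rw [HahnSeries.order_pow, X.ox]
      push_cast
      simp only [nsmul_eq_mul]
      push_cast
      ring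
    have hto : D.vo D.t = 1 := (rd_tt_oo H X).v_eq_one (H.red oo) (pow_ne_zero _ hξ)
    have htz : D.vz D.t = 1 := (rd_tt_zr H X).v_eq_one (H.red zr) (pow_ne_zero _ hξ)
    refine prm_inf Vi hπi0 KRi Adi hBi hOk hc₀ hτ (pow_ne_zero _ hξ) hτo hto htz
      (RP.RR (CTV.Fbar H.red₀) ξ⁻¹) ?_ ?_ (uinf_BK H.red₀ X) ?_ hs ONE
    · intro z hz u hu
      have hzE : z ∈ E := hz.1
      have hzB : (⟨z, hzE⟩ : E) ∈ Bu K E v (tt α γ x)⁻¹ := (hBi ⟨z, hzE⟩).2 hz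
      have h1 := rK_mem_RR H Ci i₀ (md ()) ⟨⟨z, hzE⟩, hzB⟩
      have h2 := rd_rK E ρ (tt α γ x)⁻¹ i₀ (md ()) ⟨⟨z, hzE⟩, hzB⟩
      rwa [← Rd.unique hu h2] at h1
    · intro u hu
      obtain ⟨z, hz⟩ := rK_surj H Ci i₀ (md ()) hu
      refine ⟨((z : E) : F), (hBi z).1 z.2, ?_⟩
      have h2 := rd_rK E ρ (tt α γ x)⁻¹ i₀ (md ()) z
      rwa [hz] at h2
    · intro h2
      exact (hmd 1 (D.e - 1) one_pos (by omega) (by omega)).2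

end Fermat.Agent.CAR.P1F
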