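import Mathlib

/-!
# CAR / P1F : the abstract filtration lemma of the count  (block [P1F], shape (S4) of helper18's plan)

`K` a valued field (`ℚ̄` or `ℚ̄^I`), `W` a `K`-vector space, `L 0 ⊇ L 1 ⊇ … ⊇ L r = π L 0` a chain of "lattices" (just sets),
`G s : W → U → Prop` the graded "reduction relations" (`G s z u` = "`z` reduces to `u` at the step `s`"), `R a c` = "the scalar
`a` is rational, integral and reduces to `c`".  If the reductions of `L s` lie in the finite dimensional `k`-space `V s`, and `L 0` is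
bounded (coordinates `c j`), then `dim_K span_K (L 0) ≤ ∑ dim_k V s`.

No module structure over the valuation ring, no noetherianity, no discreteness is used: Nakayama is replaced by
"a bounded set `L` with `L ⊆ T + π L` lies in the subspace `T`".
-/

set_option autoImplicit false

namespace Fermat.Agent.CAR.P1F

open Module

section Step

variable {K W k U : Type*} [Field K] [AddCommGroup W] [Module K W] [Field k] [AddCommGroup U]
  [Module k U]

/-- **one step**: lifts of a basis of the image generate `L` modulo the kernel `L'`. -/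
theorem chain_step (R : K → k → Prop) (hR : ∀ c, ∃ a, R a c) (L L' : Set W) (G : W → U → Prop)
    (V : Submodule k U) [FiniteDimensional k V]
    (h0 : 0 ∈ L ∧ G 0 0)
    (hsub : ∀ z z' u u', z ∈ L → z' ∈ L → G z u → G z' u' → z - z' ∈ L ∧ G (z - z') (u - u'))
    (hsmul : ∀ a c z u, R a c → z ∈ L → G z u → a • z ∈ L ∧ G (a • z) (c • u))
    (hV : ∀ z ∈ L, ∃ u ∈ V, G z u)
    (hker : ∀ z ∈ L, G z 0 → z ∈ L') :
    ∃ T : Submodule K W, FiniteDimensional K T ∧ finrank K T ≤ finrank k V ∧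
      ∀ z ∈ L, ∃ z' ∈ L', z - z' ∈ T := by
  classical
  have hadd : ∀ z z' u u', z ∈ L → z' ∈ L → G z u → G z' u' → z + z' ∈ L ∧ G (z + z') (u + u') := by
    intro z z' u u' hz hz' hu hu'
    obtain ⟨h1, h2⟩ := hsub 0 z' 0 u' h0.1 hz' h0.2 hu'
    have := hsub z (0 - z') u (0 - u') hz h1 hu h2
    simpa using this
  let Im : Submodule k U :=
    { carrier := {u | u ∈ V ∧ ∃ z ∈ L, G z u}
      add_mem' := by
        rintro u u' ⟨hu, z, hz, hG⟩ ⟨hu', z', hz', hG'⟩
        exact ⟨V.add_mem hu hu', z + z', (hadd _ _ _ _ hz hz' hG hG').1,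
          (hadd _ _ _ _ hz hz' hG hG').2⟩
      zero_mem' := ⟨V.zero_mem, 0, h0.1, h0.2⟩
      smul_mem' := by
        rintro c u ⟨hu, z, hz, hG⟩
        obtain ⟨a, ha⟩ := hR c
        exact ⟨V.smul_mem c hu, a • z, (hsmul _ _ _ _ ha hz hG).1, (hsmul _ _ _ _ ha hz hG).2⟩ }
  have hIm : Im ≤ V := fun u hu => hu.1
  have : FiniteDimensional k Im := Submodule.finiteDimensional_of_le hIm
  let b := Module.finBasis k Im
  have hlift : ∀ i, ∃ y ∈ L, G y (b i : U) := fun i => (b i).2.2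
  choose y hyL hyG using hlift
  refine ⟨Submodule.span K (Set.range y), FiniteDimensional.span_of_finite K (Set.finite_range y),
    ?_, ?_⟩
  · calc finrank K (Submodule.span K (Set.range y)) ≤ Fintype.card (Fin (finrank k Im)) :=
          finrank_range_le_card y
      _ = finrank k Im := Fintype.card_fin _
      _ ≤ finrank k V := Submodule.finrank_mono hIm
  · intro z hz
    obtain ⟨u, huV, hG⟩ := hV z hz
    let u' : Im := ⟨u, huV, z, hz, hG⟩
    have hrep : ∀ i, ∃ a, R a (b.repr u' i) := fun i => hR _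
    choose a ha using hrep
    have hsum : ∀ S : Finset (Fin (finrank k Im)),
        (∑ i ∈ S, a i • y i) ∈ L ∧ G (∑ i ∈ S, a i • y i) (∑ i ∈ S, b.repr u' i • (b i : U)) := by
      intro S
      induction S using Finset.induction_on with
      | empty => simpa using h0
      | insert i S hi ih =>
        rw [Finset.sum_insert hi, Finset.sum_insert hi]
        have h1 := hsmul _ _ _ _ (ha i) (hyL i) (hyG i)
        exact hadd _ _ _ _ h1.1 ih.1 h1.2 ih.2
    have hu : (∑ i, b.repr u' i • (b i : U)) = u := by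
      have h1 : ((∑ i, b.repr u' i • b i : Im) : U) = u := by rw [b.sum_repr u']
      rw [← h1, Submodule.coe_sum]
      rfl
    obtain ⟨h1, h2⟩ := hsum Finset.univ
    rw [hu] at h2
    obtain ⟨h3, h4⟩ := hsub _ _ _ _ hz h1 hG h2
    rw [sub_self] at h4
    refine ⟨_, hker _ h3 h4, ?_⟩
    rw [sub_sub_cancel]
    exact Submodule.sum_mem _ fun i _ =>
      Submodule.smul_mem _ _ (Submodule.subset_span (Set.mem_range_self i))

/-- **the chain**: `L 0 ⊆ T + L r` with `dim T ≤ ∑ dim V s`. -/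
theorem chain_all (R : K → k → Prop) (hR : ∀ c, ∃ a, R a c) (r : ℕ) (L : ℕ → Set W)
    (G : ℕ → W → U → Prop) (V : ℕ → Submodule k U) (hfin : ∀ s < r, FiniteDimensional k (V s))
    (h0 : ∀ s < r, 0 ∈ L s ∧ G s 0 0)
    (hsub : ∀ s < r, ∀ z z' u u', z ∈ L s → z' ∈ L s → G s z u → G s z' u' →
      z - z' ∈ L s ∧ G s (z - z') (u - u'))
    (hsmul : ∀ s < r, ∀ a c z u, R a c → z ∈ L s → G s z u → a • z ∈ L s ∧ G s (a • z) (c • u))
    (hV : ∀ s < r, ∀ z ∈ L s, ∃ u ∈ V s, G s z u)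
    (hker : ∀ s < r, ∀ z ∈ L s, G s z 0 → z ∈ L (s + 1)) :
    ∃ T : Submodule K W, FiniteDimensional K T ∧
      finrank K T ≤ ∑ s ∈ Finset.range r, finrank k (V s) ∧ ∀ z ∈ L 0, ∃ z' ∈ L r, z - z' ∈ T := by
  induction r with
  | zero =>
    refine ⟨⊥, inferInstance, by simp, fun z hz => ⟨z, hz, by simp⟩⟩
  | succ r ih =>
    obtain ⟨T, hT1, hT2, hT3⟩ := ih (fun s hs => hfin s (by omega)) (fun s hs => h0 s (by omega))
      (fun s hs => hsub s (by omega)) (fun s hs => hsmul s (by omega)) (fun s hs => hV s (by omega))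
      (fun s hs => hker s (by omega))
    have := hfin r (by omega)
    obtain ⟨T', hT'1, hT'2, hT'3⟩ := chain_step R hR (L r) (L (r + 1)) (G r) (V r) (h0 r (by omega))
      (hsub r (by omega)) (hsmul r (by omega)) (hV r (by omega)) (hker r (by omega))
    refine ⟨T ⊔ T', inferInstance, ?_, ?_⟩
    · rw [Finset.sum_range_succ]
      exact (Submodule.finrank_add_le_finrank_add_finrank T T').trans (add_le_add hT2 hT'2)
    · intro z hz
      obtain ⟨z', hz', h1⟩ := hT3 z hz
      obtain ⟨z'', hz'', h2⟩ := hT'3 z' hz'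
      refine ⟨z'', hz'', ?_⟩
      have : z - z'' = (z - z') + (z' - z'') := by abel
      rw [this]
      exact Submodule.add_mem_sup h1 h2

end Step

section Closed

variable {K W Γ₀ J : Type*} [Field K] [AddCommGroup W] [Module K W]
  [LinearOrderedCommGroupWithZero Γ₀]

/-- on a finite dimensional space every linear form is bounded on a set which is bounded in a separating family of coordinates. -/
theorem bounded_dual (vK : Valuation K Γ₀) (L : Set W) (W₀ : Submodule K W) [FiniteDimensional K W₀]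
    (hW₀ : L ⊆ W₀) (c : J → W →ₗ[K] K) (hc : ∀ z ∈ W₀, (∀ j, c j z = 0) → z = 0)
    (hb : ∀ z ∈ L, ∀ j, vK (c j z) ≤ 1) (φ : W →ₗ[K] K) :
    ∃ C : Γ₀, ∀ z ∈ L, vK (φ z) ≤ C := by
  classical
  let Φ : Subspace K (Dual K W₀) := Submodule.span K (Set.range fun j => (c j).domRestrict W₀)
  have hΦ : Φ = ⊤ := by
    have h1 : Φ.dualCoannihilator = ⊥ := by
      rw [eq_bot_iff]
      intro z hz
      rw [Submodule.mem_dualCoannihilator] at hz
      rw [Submodule.mem_bot]
      apply Subtype.ext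
      exact hc z z.2 fun j => hz _ (Submodule.subset_span ⟨j, rfl⟩)
    rw [← Subspace.dualCoannihilator_dualAnnihilator_eq (W := Φ), h1,
      Submodule.dualAnnihilator_bot]
  have key : ∀ ψ ∈ Φ, ∃ C : Γ₀, ∀ z (hz : z ∈ W₀), z ∈ L → vK (ψ ⟨z, hz⟩) ≤ C := by
    intro ψ hψ
    induction hψ using Submodule.span_induction with
    | mem ψ h =>
      obtain ⟨j, rfl⟩ := h
      exact ⟨1, fun z hz hzL => hb z hzL j⟩
    | zero => exact ⟨1, fun z hz _ => by simp⟩
    | add ψ ψ' _ _ h h' =>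
      obtain ⟨C, hC⟩ := h
      obtain ⟨C', hC'⟩ := h'
      refine ⟨max C C', fun z hz hzL => ?_⟩
      rw [LinearMap.add_apply]
      exact (vK.map_add _ _).trans (max_le_max (hC z hz hzL) (hC' z hz hzL))
    | smul a ψ _ h =>
      obtain ⟨C, hC⟩ := h
      refine ⟨vK a * C, fun z hz hzL => ?_⟩
      rw [LinearMap.smul_apply, smul_eq_mul, map_mul]
      exact mul_le_mul_right (hC z hz hzL) _
  obtain ⟨C, hC⟩ := key (φ.domRestrict W₀) (hΦ ▸ Submodule.mem_top)
  exact ⟨C, fun z hz => hC z (hW₀ hz) hz⟩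

/-- **Nakayama without noetherianity**: a bounded set `L` with `L ⊆ T + π L` is contained in the subspace `T`. -/
theorem subset_of_bounded (vK : Valuation K Γ₀) {π : K}
    (hA : ∀ γ : Γ₀, γ ≠ 0 → ∃ m : ℕ, vK π ^ m < γ) (L : Set W) (W₀ : Submodule K W)
    [FiniteDimensional K W₀] (hW₀ : L ⊆ W₀) (c : J → W →ₗ[K] K)
    (hc : ∀ z ∈ W₀, (∀ j, c j z = 0) → z = 0) (hb : ∀ z ∈ L, ∀ j, vK (c j z) ≤ 1)
    (T : Submodule K W) (hT : ∀ z ∈ L, ∃ z' ∈ L, z - π • z' ∈ T) : L ⊆ T := by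
  intro z₀ hz₀
  by_contra hn
  obtain ⟨φ, hφ, hφT⟩ := Submodule.exists_dual_map_eq_bot_of_notMem hn inferInstance
  have hφT' : ∀ t ∈ T, φ t = 0 := by
    intro t ht
    have : φ t ∈ T.map φ := Submodule.mem_map_of_mem ht
    rwa [hφT, Submodule.mem_bot] at this
  obtain ⟨C, hC⟩ := bounded_dual vK L W₀ hW₀ c hc hb φ
  have hit : ∀ m : ℕ, ∀ z ∈ L, vK (φ z) ≤ vK π ^ m * C := by
    intro m
    induction m with
    | zero => intro z hz; simpa using hC z hz
    | succ m ih =>
      intro z hz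
      obtain ⟨z', hz', h⟩ := hT z hz
      have h1 : φ z = π * φ z' := by
        have := hφT' _ h
        rw [map_sub, map_smul, smul_eq_mul, sub_eq_zero] at this
        exact this
      rw [h1, map_mul, pow_succ', mul_assoc]
      exact mul_le_mul_right (ih z' hz') _
  have hv0 : vK (φ z₀) ≠ 0 := (Valuation.ne_zero_iff _).2 hφ
  have hC0 : C ≠ 0 := by
    intro h
    have := hC z₀ hz₀
    rw [h] at this
    exact hv0 (le_antisymm this zero_le)
  obtain ⟨m, hm⟩ := hA (vK (φ z₀) / C) (div_ne_zero hv0 hC0)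
  have h2 := hit m z₀ hz₀
  have h3 : vK π ^ m * C < vK (φ z₀) := by
    rwa [lt_div_iff₀ (zero_lt_iff.2 hC0)] at hm
  exact absurd h2 (not_le.2 h3)

end Closed

variable {K W k U Γ₀ J : Type*} [Field K] [AddCommGroup W] [Module K W] [Field k] [AddCommGroup U]
  [Module k U] [LinearOrderedCommGroupWithZero Γ₀]

/-- **THE FILTRATION LEMMA.**  `dim_K span_K (L 0) ≤ ∑_{s<r} dim_k V s`. -/
theorem finrank_span_le (vK : Valuation K Γ₀) {π : K}
    (hA : ∀ γ : Γ₀, γ ≠ 0 → ∃ m : ℕ, vK π ^ m < γ)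
    (R : K → k → Prop) (hR : ∀ c, ∃ a, R a c) (r : ℕ) (L : ℕ → Set W)
    (G : ℕ → W → U → Prop) (V : ℕ → Submodule k U) (hfin : ∀ s < r, FiniteDimensional k (V s))
    (h0 : ∀ s < r, 0 ∈ L s ∧ G s 0 0)
    (hsub : ∀ s < r, ∀ z z' u u', z ∈ L s → z' ∈ L s → G s z u → G s z' u' →
      z - z' ∈ L s ∧ G s (z - z') (u - u'))
    (hsmul : ∀ s < r, ∀ a c z u, R a c → z ∈ L s → G s z u → a • z ∈ L s ∧ G s (a • z) (c • u))
    (hV : ∀ s < r, ∀ z ∈ L s, ∃ u ∈ V s, G s z u)
    (hker : ∀ s < r, ∀ z ∈ L s, G s z 0 → z ∈ L (s + 1))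
    (hlast : ∀ z ∈ L r, ∃ z' ∈ L 0, z = π • z')
    (W₀ : Submodule K W) [FiniteDimensional K W₀] (hW₀ : L 0 ⊆ W₀)
    (c : J → W →ₗ[K] K) (hc : ∀ z ∈ W₀, (∀ j, c j z = 0) → z = 0)
    (hb : ∀ z ∈ L 0, ∀ j, vK (c j z) ≤ 1) :
    finrank K (Submodule.span K (L 0)) ≤ ∑ s ∈ Finset.range r, finrank k (V s) := by
  obtain ⟨T, hT1, hT2, hT3⟩ := chain_all R hR r L G V hfin h0 hsub hsmul hV hker
  have hsubT : L 0 ⊆ T := by
    refine subset_of_bounded vK hA (L 0) W₀ hW₀ c hc hb T fun z hz => ?_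
    obtain ⟨z', hz', h⟩ := hT3 z hz
    obtain ⟨z'', hz'', rfl⟩ := hlast z' hz'
    exact ⟨z'', hz'', h⟩
  exact (Submodule.finrank_mono (Submodule.span_le.2 hsubT)).trans hT2

end Fermat.Agent.CAR.P1F
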