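import Fermat.Agent.CAR.P1F.Defs
import Fermat.Agent.CAR.NS.Asm3

/-!
# CAR / P1F : adapters from the exports of the count to the hypotheses `PRm`, `PRoz` of `NS.pr_of_cases` and `PRm` of `NS.pr_inf_of_cases`
(definitions, no sorry)

`B` is a subring of the FIELD `↥D.E` (as `BK.Bu`), `v : ι → Valuation ↥D.E Γ₀` the three vertical valuations.
-/

set_option autoImplicit false

open Polynomial

noncomputable section

namespace Fermat.Agent.CAR.P1F

open Fermat.Agent.GAL.KL Fermat.Agent.GAL.KLC Fermat.Agent.TOR.T1 Fermat.Agent.CAR.DEG Fermat.Agent.CAR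
open Fermat.Agent.CAR.NS

variable {K F k Γ₀ ι : Type*} [Field K] [Field F] [Algebra K F] [Field k]
  [LinearOrderedCommGroupWithZero Γ₀] [Fintype ι]

/-- dictionary between the datum `D` and the `NS` language. -/
structure Adp (D : Dat K F k Γ₀) (B : Subring D.E) (v : ι → Valuation D.E Γ₀) (o m z : ι) (π : B) :
    Prop where
  h3 : ∀ i, i = o ∨ i = m ∨ i = z
  vo : ∀ x : D.E, v o x = D.vo (x : F)
  vm : ∀ x : D.E, v m x = D.vm (x : F)
  vz : ∀ x : D.E, v z x = D.vz (x : F)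
  π : ((π : D.E) : F) = D.P

variable {D : Dat K F k Γ₀} {R : Subalgebra k (LaurentSeries k)} {no nm : ℕ}
  {B : Subring D.E} {v : ι → Valuation D.E Γ₀} {p : ι → Ideal B} {o m z : ι} {π : B}

/-- the image in `F` of an ideal of `B`. -/
def setOf (P : Ideal B) : Set F := {x | ∃ b : B, b ∈ P ∧ ((b : D.E) : F) = x}

theorem mem_setOf {P : Ideal B} {b : B} : ((b : D.E) : F) ∈ setOf P ↔ b ∈ P :=
  ⟨fun ⟨_, hb', h⟩ => by rwa [← Subtype.ext (Subtype.ext h)], fun h => ⟨b, h, rfl⟩⟩

end Fermat.Agent.CAR.P1F
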