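import Fermat.Agent.CAR.P1F.Basic

/-!
# CAR / P1F : basic API of the filtration `Ls` and of the graded relations `Gs`  (package P1F-1b)

All proofs: `cases s` (`match s with | 0 | 1 | j + 2`), unfold with `Dat.mem_Ls_zero/one/add_two`, `Dat.Gs_zero/one/add_two`, then the `Lat` API of
`Basic.lean`, the `Rd` API of `TOR/T1/Defs.lean` (`Rd.add`, `Rd.sub`, `Rd.mul`, `Rd.unique`, `Rd.zero`, `exists_rd`) and the ultrametric inequality
(`Valuation.map_sub`, `Valuation.map_add`, `max_lt`, `max_le`).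
-/

set_option autoImplicit false

open Polynomial

noncomputable section

namespace Fermat.Agent.CAR.P1F

open Fermat.Agent.GAL.KL Fermat.Agent.GAL.KLC Fermat.Agent.TOR.T1 Fermat.Agent.CAR.DEG

variable {K F k Γ₀ : Type*} [Field K] [Field F] [Algebra K F] [Field k]
  [LinearOrderedCommGroupWithZero Γ₀]

variable {D : Dat K F k Γ₀} {R : Subalgebra k (LaurentSeries k)} {no nm : ℕ}

theorem Ls_subset_Lat (a s : ℕ) : D.Ls a s ⊆ D.Lat a := by
  intro z hz
  match s, hz with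
  | 0, hz => exact hz
  | 1, hz => exact hz.1
  | _ + 2, hz => exact hz.1

theorem Ls_mono {a a' : ℕ} (h : a ≤ a') (s : ℕ) : D.Ls a s ⊆ D.Ls a' s := by
  intro z hz
  match s, hz with
  | 0, hz => exact Lat_mono h hz
  | 1, hz => exact ⟨Lat_mono h hz.1, hz.2⟩
  | _ + 2, hz => exact ⟨Lat_mono h hz.1, hz.2⟩

theorem Ls_zero_mem (h : Ok D R no nm) (a s : ℕ) : (0 : F) ∈ D.Ls a s := by
  match s with
  | 0 => exact Lat_zero_mem a
  | 1 => exact ⟨Lat_zero_mem a, by rw [map_zero]; exact zero_lt_one⟩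
  | j + 2 =>
    exact ⟨Lat_zero_mem a, by rw [map_zero]; exact zero_lt_one, by rw [map_zero]; exact zero_lt_one,
      by rw [map_zero]; exact zero_le⟩

theorem Gs_zero_zero (s : ℕ) : D.Gs s 0 (0 : LaurentSeries k) := by
  match s with
  | 0 => exact Rd.zero
  | 1 => exact Rd.zero
  | j + 2 =>
    rw [Dat.Gs_add_two, zero_div]
    exact Rd.zero

theorem Ls_sub {a s : ℕ} {z z' : F} (hz : z ∈ D.Ls a s) (hz' : z' ∈ D.Ls a s) :
    z - z' ∈ D.Ls a s := by
  match s, hz, hz' with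
  | 0, hz, hz' => exact Lat_sub hz hz'
  | 1, hz, hz' => exact ⟨Lat_sub hz.1 hz'.1, Valuation.map_sub_lt _ hz.2 hz'.2⟩
  | j + 2, hz, hz' =>
    exact ⟨Lat_sub hz.1 hz'.1, Valuation.map_sub_lt _ hz.2.1 hz'.2.1,
      Valuation.map_sub_lt _ hz.2.2.1 hz'.2.2.1, Valuation.map_sub_le _ hz.2.2.2 hz'.2.2.2⟩

theorem Gs_sub {s : ℕ} {z z' : F} {u u' : LaurentSeries k} (hu : D.Gs s z u) (hu' : D.Gs s z' u') :
    D.Gs s (z - z') (u - u') := by
  match s, hu, hu' with
  | 0, hu, hu' => exact Rd.sub hu hu'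
  | 1, hu, hu' => exact Rd.sub hu hu'
  | j + 2, hu, hu' =>
    rw [Dat.Gs_add_two, sub_div]
    exact Rd.sub hu hu'

theorem Gs_add {s : ℕ} {z z' : F} {u u' : LaurentSeries k} (hu : D.Gs s z u) (hu' : D.Gs s z' u') :
    D.Gs s (z + z') (u + u') := by
  match s, hu, hu' with
  | 0, hu, hu' => exact Rd.add hu hu'
  | 1, hu, hu' => exact Rd.add hu hu'
  | j + 2, hu, hu' =>
    rw [Dat.Gs_add_two, add_div]
    exact Rd.add hu hu'

theorem Ls_add {a s : ℕ} {z z' : F} (hz : z ∈ D.Ls a s) (hz' : z' ∈ D.Ls a s) :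
    z + z' ∈ D.Ls a s := by
  have h0 : z' - z' - z' ∈ D.Ls a s := Ls_sub (Ls_sub hz' hz') hz'
  have h1 := Ls_sub hz h0
  have e : z - (z' - z' - z') = z + z' := by ring
  rwa [e] at h1

theorem Gs_unique {s : ℕ} {z : F} {u u' : LaurentSeries k} (hu : D.Gs s z u) (hu' : D.Gs s z u') :
    u = u' := by
  match s, hu, hu' with
  | 0, hu, hu' => exact Rd.unique hu hu'
  | 1, hu, hu' => exact Rd.unique hu hu'
  | _ + 2, hu, hu' => exact Rd.unique hu hu'

/-- every element of `Ls a s` has a reduction (`exists_rd`; for `s = j + 2`: `vm (z / ν^j) ≤ 1`, `div_le_one₀`). -/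
theorem exists_Gs (h : Ok D R no nm) {a s : ℕ} {z : F} (hz : z ∈ D.Ls a s) : ∃ u, D.Gs s z u := by
  match s, hz with
  | 0, hz => exact exists_rd hz.2.2.1
  | 1, hz => exact exists_rd hz.1.2.2.2.2
  | j + 2, hz =>
    refine exists_rd ?_
    have hpos : 0 < D.vm D.ν ^ j :=
      pow_pos (zero_lt_iff.2 ((Valuation.ne_zero_iff _).2 (nu_ne_zero h))) j
    rw [map_div₀, map_pow]
    exact (div_le_one₀ hpos).2 hz.2.2.2

/-- multiplication by an element `b` of `Lat a'`; `w` = the reduction of `b` at the valuation of the step `s`. -/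
theorem Ls_mul {a a' s : ℕ} {b z : F} (hb : b ∈ D.Lat a') (hz : z ∈ D.Ls a s) :
    b * z ∈ D.Ls (a' + a) s := by
  have ho : ∀ {x : Γ₀}, D.vo z < x → D.vo (b * z) < x := fun hx => by
    rw [map_mul]
    exact (mul_le_of_le_one_left' hb.2.2.1).trans_lt hx
  have hvz : ∀ {x : Γ₀}, D.vz z < x → D.vz (b * z) < x := fun hx => by
    rw [map_mul]
    exact (mul_le_of_le_one_left' hb.2.2.2.2).trans_lt hx
  have hm : ∀ {x : Γ₀}, D.vm z ≤ x → D.vm (b * z) ≤ x := fun hx => by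
    rw [map_mul]
    exact (mul_le_of_le_one_left' hb.2.2.2.1).trans hx
  match s, hz with
  | 0, hz => exact Lat_mul hb hz
  | 1, hz => exact ⟨Lat_mul hb hz.1, ho hz.2⟩
  | j + 2, hz => exact ⟨Lat_mul hb hz.1, ho hz.2.1, hvz hz.2.2.1, hm hz.2.2.2⟩

theorem Gs_mul_zero {b z : F} {w u : LaurentSeries k} (hw : Rd D.ρo b w) (hu : D.Gs 0 z u) :
    D.Gs 0 (b * z) (w * u) := hw.mul hu

theorem Gs_mul_one {b z : F} {w u : LaurentSeries k} (hw : Rd D.ρz b w) (hu : D.Gs 1 z u) :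
    D.Gs 1 (b * z) (w * u) := hw.mul hu

/-- `b * z / ν^j = b * (z / ν^j)`. -/
theorem Gs_mul_add_two {j : ℕ} {b z : F} {w u : LaurentSeries k} (hw : Rd D.ρm b w)
    (hu : D.Gs (j + 2) z u) : D.Gs (j + 2) (b * z) (w * u) := by
  rw [Dat.Gs_add_two, mul_div_assoc]
  exact hw.mul hu

/-- multiplication by a rational integral constant reducing to `c` (`h.sc`); `c • u = C c * u` (`HahnSeries.C_mul_eq_smul`),
`b • z = algebraMap b * z` (`Algebra.smul_def`). -/
theorem Ls_Gs_smul {a s : ℕ} {z : F} {u : LaurentSeries k} (hz : z ∈ D.Ls a s) (hu : D.Gs s z u)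
    {b : K} {c : k} (hE : algebraMap K F b ∈ D.E) (ho : Rd D.ρo (algebraMap K F b) (HahnSeries.C c))
    (hm : Rd D.ρm (algebraMap K F b) (HahnSeries.C c))
    (hz' : Rd D.ρz (algebraMap K F b) (HahnSeries.C c)) :
    b • z ∈ D.Ls a s ∧ D.Gs s (b • z) (c • u) := by
  have hL : ∀ {x : F}, x ∈ D.Lat a → b • x ∈ D.Lat a := fun hx =>
    Lat_smul hx hE ho.le_one hm.le_one hz'.le_one
  have e1 : b • z = algebraMap K F b * z := Algebra.smul_def b z
  have e2 : c • u = HahnSeries.C c * u := (HahnSeries.C_mul_eq_smul).symm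
  have hvo : ∀ {x : Γ₀}, D.vo z < x → D.vo (b • z) < x := fun hx => by
    rw [e1, map_mul]
    exact (mul_le_of_le_one_left' ho.le_one).trans_lt hx
  have hvz : ∀ {x : Γ₀}, D.vz z < x → D.vz (b • z) < x := fun hx => by
    rw [e1, map_mul]
    exact (mul_le_of_le_one_left' hz'.le_one).trans_lt hx
  have hvm : ∀ {x : Γ₀}, D.vm z ≤ x → D.vm (b • z) ≤ x := fun hx => by
    rw [e1, map_mul]
    exact (mul_le_of_le_one_left' hm.le_one).trans hx
  match s, hz, hu with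
  | 0, hz, hu =>
    refine ⟨hL hz, ?_⟩
    rw [e1, e2]
    exact Gs_mul_zero ho hu
  | 1, hz, hu =>
    refine ⟨⟨hL hz.1, hvo hz.2⟩, ?_⟩
    rw [e1, e2]
    exact Gs_mul_one hz' hu
  | j + 2, hz, hu =>
    refine ⟨⟨hL hz.1, hvo hz.2.1, hvz hz.2.2.1, hvm hz.2.2.2⟩, ?_⟩
    rw [e1, e2]
    exact Gs_mul_add_two hm hu

end Fermat.Agent.CAR.P1F
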