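import Fermat.Agent.CAR.P1F.AdaptDefs
import Fermat.Agent.CAR.P1F.BasicLs

/-!
# CAR / P1F : adapters from the exports of the count to the hypotheses `PRm`, `PRoz` of `NS.pr_of_cases` and `PRm` of `NS.pr_inf_of_cases`
(package P1F-15)

`B` is a subring of the FIELD `↥D.E` (as `BK.Bu`), `v : ι → Valuation ↥D.E Γ₀` the three vertical valuations.
-/

set_option autoImplicit false

open Polynomial

noncomputable section

namespace Fermat.Agent.CAR.P1F

open Fermat.Agent.GAL.KL Fermat.Agent.GAL.KLC Fermat.Agent.TOR.T1 Fermat.Agent.CAR.DEG Fermat.Agent.CAR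
open Fermat.Agent.CAR.NS

variable {K F k Γ₀ ι : Type*} [Field K] [Field F] [Algebra K F] [Field k]
  [LinearOrderedCommGroupWithZero Γ₀] [Fintype ι]

variable {D : Dat K F k Γ₀} {R : Subalgebra k (LaurentSeries k)} {no nm : ℕ}
  {B : Subring D.E} {v : ι → Valuation D.E Γ₀} {p : ι → Ideal B} {o m z : ι} {π : B}

/-- **an element of `B°` whose reduction at `md` has order `0` is a unit at the point at infinity of `C_md`.**   `Rinf` = the reduced chart ring at infinity (`RP.RR Fb ξ⁻¹`), `τ` = reduction of `t`.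
PROOF.  Suppose `y ∈ P`.  `w ∈ Rinf` has no negative coefficients (`w.order = 0`: `HahnSeries.coeff_eq_zero_of_lt_order`), `c := w.coeff 0 ≠ 0` (`HahnSeries.coeff_order_ne_zero`/`coeff_order_eq_zero`).
`h.sc c` gives a constant `a`; `algebraMap a ∈ D.Binf` (`IsInt.algebraMap`, `Rd.le_one`).  `w₁ := w - C c ∈ Rinf` (subalgebra; `C c = algebraMap k _ c`: `ModularCurve.algebraMap_laurentSeries_eq_single`/`RP.smul_eq_algebraMap_mul`),
`w₁.coeff i = 0` for `i ≤ 0`.  `uinf` gives `N` with `w₁^N * τ ∈ Rinf`; `sinf` gives `β ∈ D.Binf` reducing to it.  `(y - a)^N - β * t⁻¹` reduces to `w₁^N - w₁^N τ τ⁻¹ = 0` (`Rd.inv h.redm hτ hτ0`), so it lies in `p m ≤ P`;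
`β * s ∈ P`; hence `(y - a)^N ∈ P`, `y - a ∈ P` (`hP.isPrime.mem_of_pow_mem`), `a ∈ P`.  `h.sc c⁻¹` gives `a'`, `a a' - 1` reduces to `0`, so it lies in `p m ≤ P`: `1 ∈ P`.  Contradiction. -/
theorem notMem_of_order_zero (V : Vert B v p) (Ad : Adp D B v o m z π)
    (hB : ∀ x : D.E, x ∈ B ↔ (x : F) ∈ D.Binf) (h : Ok D R no nm)
    {τ : LaurentSeries k} (hτ : Rd D.ρm D.t τ) (hτ0 : τ ≠ 0)
    (Rinf : Subalgebra k (LaurentSeries k))
    (rinf : ∀ x ∈ D.Binf, ∀ u, Rd D.ρm x u → u ∈ Rinf)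
    (sinf : ∀ u ∈ Rinf, ∃ x ∈ D.Binf, Rd D.ρm x u)
    (uinf : ∀ u ∈ Rinf, (∀ i : ℤ, i ≤ 0 → u.coeff i = 0) → ∃ N : ℕ, u ^ N * τ ∈ Rinf)
    {s : B} (hs : ((s : D.E) : F) = D.t⁻¹) {P : Ideal B} (hP : P.IsMaximal) (hsP : s ∈ P)
    (hm : p m ≤ P) {y : B} {w : LaurentSeries k} (hw : Rd D.ρm ((y : D.E) : F) w) (hw0 : w ≠ 0)
    (hwo : w.order = 0) : y ∉ P := by
  intro hyP
  have hmemP : ∀ e : B, Rd D.ρm ((e : D.E) : F) 0 → e ∈ P := by
    intro e he
    apply hm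
    rw [V.mem_p, Ad.vm]
    exact (rd_zero_iff h.redm).1 he
  have hc : w.coeff 0 ≠ 0 := by
    intro h0
    apply hw0
    rw [← HahnSeries.coeff_order_eq_zero, hwo, h0]
  obtain ⟨a, haE, hao, ham, haz⟩ := h.sc (w.coeff 0)
  obtain ⟨a', ha'E, ha'o, ha'm, ha'z⟩ := h.sc (w.coeff 0)⁻¹
  have haB : (⟨algebraMap K F a, haE⟩ : D.E) ∈ B :=
    (hB _).2 ⟨haE, IsInt.algebraMap a, hao.le_one, ham.le_one, haz.le_one⟩
  have ha'B : (⟨algebraMap K F a', ha'E⟩ : D.E) ∈ B :=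
    (hB _).2 ⟨ha'E, IsInt.algebraMap a', ha'o.le_one, ha'm.le_one, ha'z.le_one⟩
  have hwR : w ∈ Rinf := rinf _ ((hB _).1 y.2) w hw
  have hCR : HahnSeries.C (w.coeff 0) ∈ Rinf := by
    have h1 : algebraMap k (LaurentSeries k) (w.coeff 0) = HahnSeries.C (w.coeff 0) := by
      have h2 : algebraMap k (PowerSeries k) (w.coeff 0) = PowerSeries.C (w.coeff 0) := by simp
      rw [HahnSeries.algebraMap_apply', h2, HahnSeries.ofPowerSeries_C]
    rw [← h1]
    exact Rinf.algebraMap_mem _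
  have hw₁R : w - HahnSeries.C (w.coeff 0) ∈ Rinf := Rinf.sub_mem hwR hCR
  have hw₁c : ∀ i : ℤ, i ≤ 0 → (w - HahnSeries.C (w.coeff 0)).coeff i = 0 := by
    intro i hi
    rw [HahnSeries.coeff_sub]
    rcases hi.lt_or_eq with hi | rfl
    · rw [HahnSeries.coeff_eq_zero_of_lt_order (by rw [hwo]; exact hi), HahnSeries.C_apply,
        HahnSeries.coeff_single_of_ne hi.ne, sub_zero]
    · rw [HahnSeries.C_apply, HahnSeries.coeff_single_same, sub_self]
  obtain ⟨N, hN⟩ := uinf _ hw₁R hw₁c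
  obtain ⟨β, hβB, hβ⟩ := sinf _ hN
  have hβB' : (⟨β, hβB.1⟩ : D.E) ∈ B := (hB _).2 hβB
  -- the elements of `B`
  set aB : B := ⟨⟨algebraMap K F a, haE⟩, haB⟩ with haBdef
  set a'B : B := ⟨⟨algebraMap K F a', ha'E⟩, ha'B⟩ with ha'Bdef
  set βB : B := ⟨⟨β, hβB.1⟩, hβB'⟩ with hβBdef
  have h1 : (y - aB) ^ N - βB * s ∈ P := by
    apply hmemP
    have e1 : ((((y - aB) ^ N - βB * s : B) : D.E) : F)
        = (((y : D.E) : F) - algebraMap K F a) ^ N - β * D.t⁻¹ := by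
      rw [← hs]; rfl
    rw [e1]
    have h2 := ((hw.sub ham).pow N).sub (hβ.mul (hτ.inv h.redm hτ0))
    rwa [mul_assoc, mul_inv_cancel₀ hτ0, mul_one, sub_self] at h2
  have h2 : (y - aB) ^ N ∈ P := by
    have := P.add_mem h1 (P.mul_mem_left βB hsP)
    rwa [sub_add_cancel] at this
  have h3 : y - aB ∈ P := hP.isPrime.mem_of_pow_mem N h2
  have h4 : aB ∈ P := by
    have := P.sub_mem hyP h3
    rwa [sub_sub_cancel] at this
  have h5 : aB * a'B - 1 ∈ P := by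
    apply hmemP
    have e1 : (((aB * a'B - 1 : B) : D.E) : F) = algebraMap K F a * algebraMap K F a' - 1 := rfl
    rw [e1]
    have h6 := (ham.mul ha'm).sub Rd.one
    rwa [← map_mul HahnSeries.C, mul_inv_cancel₀ hc, map_one, sub_self] at h6
  have h6 : (1 : B) ∈ P := by
    have := P.sub_mem (P.mul_mem_right a'B h4) h5
    rwa [sub_sub_cancel] at this
  exact (Ideal.ne_top_iff_one P).1 hP.ne_top h6

end Fermat.Agent.CAR.P1F
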