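import Fermat.Agent.CAR.P1F.AdaptDefs
import Fermat.Agent.CAR.BK.Vert
import Fermat.Agent.CAR.ON.Table
import Fermat.Agent.CAR.DEG.Scale
import Fermat.Agent.CAR.RP.Dim

/-!
# CAR / P1F : the datum of the count in helper32's abstract BK language  (definition, no sorry)

`H : ON.Lvl2`, `X : T1.XDat`, `Ct`, `Ci : BK.ChartK` (the charts `t`, `1/t`), `Dt : NS.Disc3` (discreteness on `E`).
-/

set_option autoImplicit false

open Polynomial ModularCurve AlgebraicCurve

noncomputable section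

namespace Fermat.Agent.CAR.P1F

open Fermat.Agent.GAL.KL Fermat.Agent.GAL.KLC Fermat.Agent.TOR.T1 Fermat.Agent.CAR.ON
open Fermat.Agent.GAL Fermat.Agent.CAR Fermat.Agent.CAR.BK Fermat.Agent.CAR.DEG

variable {K F₀ F k Γ' Γ₀ I : Type*} [Field K] [Field F₀] [Field F] [Algebra K F₀]
  [Algebra K F] [Field k] [LinearOrderedCommGroupWithZero Γ'] [LinearOrderedCommGroupWithZero Γ₀]
  {v₀ : Valuation F₀ Γ'} {ρ₀ : v₀.integer →+* LaurentSeries k}
  {v : Idx I → Valuation F Γ₀} {ρ : ∀ i, (v i).integer →+* LaurentSeries k}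
  {α β γ : F₀ →ₐ[K] F} {q : ℕ} [NeZero q] {E₀ : Subfield F₀} {E : Subfield F}
  {x x' : F₀} {ξ ξ' : LaurentSeries k} {m : ℕ}

/-- the datum of the count attached to a BK datum. -/
def datBK (E : Subfield F) (v : Idx I → Valuation F Γ₀) (ρ : ∀ i, (v i).integer →+* LaurentSeries k)
    (i₀ : I) (t : F) (π : K) (ν : F) (e : ℕ) : Dat K F k Γ₀ where
  E := E
  vo := v oo
  vm := v (md i₀)
  vz := v zr
  ρo := ρ oo
  ρm := ρ (md i₀)
  ρz := ρ zr
  t := t
  π := π
  ν := ν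
  e := e

end Fermat.Agent.CAR.P1F
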