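import Fermat.Agent.CAR.P1F.BKDefs

/-!
# CAR / P1F : the datum of the count in helper32's abstract BK language  (package P1F-19)

`H : ON.Lvl2`, `X : T1.XDat`, `Ct`, `Ci : BK.ChartK` (the charts `t`, `1/t`), `Dt : NS.Disc3` (discreteness on `E`).
-/

set_option autoImplicit false

open Polynomial ModularCurve AlgebraicCurve

noncomputable section

namespace Fermat.Agent.CAR.P1F

open Fermat.Agent.GAL.KL Fermat.Agent.GAL.KLC Fermat.Agent.TOR.T1 Fermat.Agent.CAR.ON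
open Fermat.Agent.GAL Fermat.Agent.CAR Fermat.Agent.CAR.BK Fermat.Agent.CAR.DEG

variable {K F₀ F k Γ' Γ₀ I : Type*} [Field K] [Field F₀] [Field F] [Algebra K F₀]
  [Algebra K F] [Field k] [LinearOrderedCommGroupWithZero Γ'] [LinearOrderedCommGroupWithZero Γ₀]
  {v₀ : Valuation F₀ Γ'} {ρ₀ : v₀.integer →+* LaurentSeries k}
  {v : Idx I → Valuation F Γ₀} {ρ : ∀ i, (v i).integer →+* LaurentSeries k}
  {α β γ : F₀ →ₐ[K] F} {q : ℕ} [NeZero q] {E₀ : Subfield F₀} {E : Subfield F}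
  {x x' : F₀} {ξ ξ' : LaurentSeries k} {m : ℕ}

/-- **(INF)**: the cusp is the only point of the chart at infinity where `ξ⁻¹` vanishes.
PROOF.  `N := 2 * m`; `φ := u ^ N ∈ RR Fbar ξ⁻¹`, `φ.coeff i = 0` for `i < 2 m` (`u = 0` trivial; else `1 ≤ u.order`, `HahnSeries.order_pow`, `coeff_eq_zero_of_lt_order`).
`IsInt.shift (t := ξ) (xi_ne_zero X) φ.2` gives `a ≥ 2` with `b := ξ^a * φ` integral over `k[ξ]`; `b ∈ RR Fbar ξ` (`ξ ∈ Fbar`: `BK.mem_Fbar_iff`, `X.rx`), `b.coeff n = 0` for `n < -((a-2) m)` (orders add).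
`RP.isInt_inv_of_coeff H.red₀ hx hx' X.m_pos _ _ X.spans (a - 2) hb h0 : IsInt k ξ⁻¹ (ξ⁻¹^(a-2) * b)` (`X.rx = ⟨hx, _⟩`, `X.rx' = ⟨hx', _⟩`, `subst`; `X.ox`, `X.ox'`), and `ξ⁻¹^(a-2) * b = φ * ξ^(1+1)`. -/
theorem uinf_BK (hρ₀ : IsRed K v₀ ρ₀) (X : XDat K ρ₀ x x' ξ ξ' m q) :
    ∀ u ∈ RP.RR (CTV.Fbar hρ₀) ξ⁻¹, (∀ i : ℤ, i ≤ 0 → u.coeff i = 0) →
      ∃ N : ℕ, u ^ N * ξ ^ (1 + 1) ∈ RP.RR (CTV.Fbar hρ₀) ξ⁻¹ := by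
  intro u hu h0
  have hξ0 : ξ ≠ 0 := ON.xi_ne_zero X
  have hξF : ξ ∈ CTV.Fbar hρ₀ := (BK.mem_Fbar_iff hρ₀).2 ⟨x, X.rx⟩
  refine ⟨2 * m, ?_⟩
  have hφ : u ^ (2 * m) ∈ RP.RR (CTV.Fbar hρ₀) ξ⁻¹ := Subalgebra.pow_mem _ hu _
  by_cases hu0 : u = 0
  · have hm := X.m_pos
    rw [hu0, zero_pow (by omega), zero_mul]
    exact Subalgebra.zero_mem _
  have huo : 1 ≤ u.order := by
    by_contra hlt
    exact hu0 (HahnSeries.coeff_order_eq_zero.1 (h0 _ (by omega)))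
  obtain ⟨m₀, hm₀⟩ := IsInt.shift (t := ξ) hξ0 hφ.2
  have hbI : IsInt k ξ (ξ ^ (m₀ + 2) * u ^ (2 * m)) := hm₀ _ (by omega)
  have hb : ξ ^ (m₀ + 2) * u ^ (2 * m) ∈ RP.RR (CTV.Fbar hρ₀) ξ :=
    ⟨(CTV.Fbar hρ₀).mul_mem (pow_mem hξF _) hφ.1, hbI⟩
  have hbo : ∀ n : ℤ, n < -((m₀ * m : ℕ) : ℤ) → (ξ ^ (m₀ + 2) * u ^ (2 * m)).coeff n = 0 := by
    intro n hn
    apply HahnSeries.coeff_eq_zero_of_lt_order
    rw [HahnSeries.order_mul (pow_ne_zero _ hξ0) (pow_ne_zero _ hu0), HahnSeries.order_pow,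
      HahnSeries.order_pow, X.ox, nsmul_eq_mul, nsmul_eq_mul]
    push_cast at hn ⊢
    have hm : (0 : ℤ) ≤ (m : ℤ) := Int.natCast_nonneg m
    nlinarith
  obtain ⟨hx, hxe⟩ := X.rx
  obtain ⟨hx', hxe'⟩ := X.rx'
  have hox := X.ox
  have hox' := X.ox'
  subst hxe
  subst hxe'
  have key := RP.isInt_inv_of_coeff hρ₀ hx hx' X.m_pos hox hox' X.spans m₀ hb hbo
  refine ⟨(CTV.Fbar hρ₀).mul_mem hφ.1 (pow_mem hξF _), ?_⟩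
  have he : u ^ (2 * m) * (ρ₀ ⟨x, hx⟩) ^ (1 + 1) =
      (ρ₀ ⟨x, hx⟩)⁻¹ ^ m₀ * ((ρ₀ ⟨x, hx⟩) ^ (m₀ + 2) * u ^ (2 * m)) := by
    rw [inv_pow]
    field_simp
    ring
  rw [he]
  exact key

end Fermat.Agent.CAR.P1F
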