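import Fermat.Agent.CAR.P1F.BKRed
import Fermat.Agent.CAR.P1F.BKInf

/-!
# CAR / P1F : the datum of the count in helper32's abstract BK language  (package P1F-17)

`H : ON.Lvl2`, `X : T1.XDat`, `Ct`, `Ci : BK.ChartK` (the charts `t`, `1/t`), `Dt : NS.Disc3` (discreteness on `E`).
-/

set_option autoImplicit false

open Polynomial ModularCurve AlgebraicCurve

noncomputable section

namespace Fermat.Agent.CAR.P1F

open Fermat.Agent.GAL.KL Fermat.Agent.GAL.KLC Fermat.Agent.TOR.T1 Fermat.Agent.CAR.ON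
open Fermat.Agent.GAL Fermat.Agent.CAR Fermat.Agent.CAR.BK Fermat.Agent.CAR.DEG

variable {K F₀ F k Γ' Γ₀ I : Type*} [Field K] [Field F₀] [Field F] [Algebra K F₀]
  [Algebra K F] [Field k] [LinearOrderedCommGroupWithZero Γ'] [LinearOrderedCommGroupWithZero Γ₀]
  {v₀ : Valuation F₀ Γ'} {ρ₀ : v₀.integer →+* LaurentSeries k}
  {v : Idx I → Valuation F Γ₀} {ρ : ∀ i, (v i).integer →+* LaurentSeries k}
  {α β γ : F₀ →ₐ[K] F} {q : ℕ} [NeZero q] {E₀ : Subfield F₀} {E : Subfield F}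
  {x x' : F₀} {ξ ξ' : LaurentSeries k} {m : ℕ}

/-- (`BK.mem_Bu_iff3`; `j = oo, md (), zr`.) -/
theorem mem_B_iff {u₀ : F₀} {u : F} {η : LaurentSeries k} (C : ChartK K ρ₀ ρ α γ E₀ E q u₀ u η)
    (i₀ : I) (π : K) (ν : F) (e : ℕ) (z : E) :
    z ∈ Bu K E v u ↔ (z : F) ∈ (datBK E v ρ i₀ u π ν e).B := by
  rw [mem_Bu_iff3 C i₀ z]
  constructor
  · rintro ⟨h1, h2⟩
    exact ⟨z.2, h1, h2 oo, h2 (md ()), h2 zr⟩
  · rintro ⟨-, h1, ho, hm, hz⟩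
    refine ⟨h1, fun j => ?_⟩
    rcases Vert_idx_cases j with rfl | rfl | rfl
    · exact ho
    · exact hm
    · exact hz

/-- the same for the chart `1/t`. -/
theorem mem_Binf_iff {u₀ : F₀} {u : F} {η : LaurentSeries k}
    (C : ChartK K ρ₀ ρ α γ E₀ E q u₀ u⁻¹ η) (i₀ : I) (π : K) (ν : F) (e : ℕ) (z : E) :
    z ∈ Bu K E v u⁻¹ ↔ (z : F) ∈ (datBK E v ρ i₀ u π ν e).Binf := by
  rw [mem_Bu_iff3 C i₀ z]
  constructor
  · rintro ⟨h1, h2⟩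
    exact ⟨z.2, h1, h2 oo, h2 (md ()), h2 zr⟩
  · rintro ⟨-, h1, ho, hm, hz⟩
    refine ⟨h1, fun j => ?_⟩
    rcases Vert_idx_cases j with rfl | rfl | rfl
    · exact ho
    · exact hm
    · exact hz

/-- the dictionary with the `NS` language (all fields are `rfl` or `BK.Vert_idx_cases`). -/
theorem adp_BK (i₀ : I) (t u : F) (π : K) (ν : F) (e : ℕ) (πB : Bu K E v u)
    (hπ : ((πB : E) : F) = algebraMap K F π) :
    Adp (datBK E v ρ i₀ t π ν e) (Bu K E v u) (v3 E v i₀) oo (md ()) zr πB :=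
  ⟨Vert_idx_cases, fun _ => rfl, fun _ => rfl, fun _ => rfl, hπ⟩

/-- **`Ok`.**  Fields: `redo.. := H.red _`; `t0`: `ON.transcendental_tt H X` (or `Rd.v_eq_one`); `tE := mul_mem (Ct.αE x Ct.u₀E) (Ct.γE x Ct.u₀E)`; `π0 := hq0`; `πE`: `hπt ▸ (πt : E).2`;
`πo := Dt.πo`, `πz := Dt.πz` (rewrite with `hπt`; `v3_apply`), `πm`: `H.eqL (md i₀) oo`; `sc := sc`; `dso z hz := Dt.uo ⟨z, hz⟩`, `dsz`, `dsm := Dt.um`; `e0 := Dt.e0`; `νe := Dt.νe`;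
`νB := (mem_B_iff Ct ..).1 νt.2`; `ro rm rz := red_mem_BK` with `rd_tt_oo H X`, `rd_tt_md H X i₀`, `rd_tt_zr H X`; `so sm sz`: `BK.rK_surj H Ct i₀ j hu` + `BK.rd_rK` + `mem_B_iff`. -/
theorem ok_BK (H : Lvl2 K ρ₀ v ρ α β γ q) (X : XDat K ρ₀ x x' ξ ξ' m q) (hq0 : (q : K) ≠ 0)
    (Ct : ChartK K ρ₀ ρ α γ E₀ E q x (tt α γ x) ξ)
    (Ci : ChartK K ρ₀ ρ α γ E₀ E q x⁻¹ (tt α γ x)⁻¹ ξ⁻¹) (i₀ : I)
    (πt : Bu K E v (tt α γ x)) (hπt : ((πt : E) : F) = algebraMap K F (q : K))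
    {νt : Bu K E v (tt α γ x)} {e : ℕ}
    (Dt : NS.Disc3 (Bu K E v (tt α γ x)) (v3 E v i₀) oo (md ()) zr πt νt e)
    (sc : ∀ c : k, ∃ a : K, algebraMap K F a ∈ E ∧ Rd (ρ oo) (algebraMap K F a) (HahnSeries.C c) ∧
      Rd (ρ (md i₀)) (algebraMap K F a) (HahnSeries.C c) ∧
      Rd (ρ zr) (algebraMap K F a) (HahnSeries.C c)) :
    Ok (datBK E v ρ i₀ (tt α γ x) (q : K) ((νt : E) : F) e) (RP.RR (CTV.Fbar H.red₀) ξ)
      ((q * q + 1) * m) ((1 + 1) * m) := by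
  have hπo : v oo (algebraMap K F (q : K)) < 1 := by
    have := Dt.πo
    rwa [v3_apply, hπt] at this
  have hπz : v zr (algebraMap K F (q : K)) < 1 := by
    have := Dt.πz
    rwa [v3_apply, hπt] at this
  have ht0 : tt α γ x ≠ 0 := fun h0 => transcendental_tt H X (h0 ▸ isAlgebraic_zero)
  have hπE : algebraMap K F (q : K) ∈ E := hπt ▸ (πt : E).2
  refine
    { redo := H.red oo
      redm := H.red (md i₀)
      redz := H.red zr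
      t0 := ht0
      tE := mul_mem (Ct.αE x Ct.u₀E) (Ct.γE x Ct.u₀E)
      π0 := hq0
      πE := hπE
      πo := hπo
      πm := (H.eqL (md i₀) oo (q : K)).trans_lt hπo
      πz := hπz
      sc := sc
      dso := fun z hz hlt => ?_
      dsz := fun z hz hlt => ?_
      dsm := fun z hz hlt => Dt.um ⟨z, hz⟩ hlt
      e0 := Dt.e0
      νe := ?_
      νB := (mem_B_iff Ct i₀ _ _ _ (νt : E)).1 νt.2
      ro := fun a z hz u hu =>
        red_mem_BK H X Ct Ci i₀ (rd_tt_oo H X) hz.1 hz.2.1 hz.2.2.1 hz.2.2.2.1 hz.2.2.2.2 hu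
      rm := fun a z hz u hu =>
        red_mem_BK H X Ct Ci i₀ (rd_tt_md H X i₀) hz.1 hz.2.1 hz.2.2.1 hz.2.2.2.1 hz.2.2.2.2 hu
      rz := fun a z hz u hu =>
        red_mem_BK H X Ct Ci i₀ (rd_tt_zr H X) hz.1 hz.2.1 hz.2.2.1 hz.2.2.2.1 hz.2.2.2.2 hu
      so := fun u hu => ?_
      sm := fun u hu => ?_
      sz := fun u hu => ?_ }
  · have := Dt.uo ⟨z, hz⟩ hlt
    rwa [v3_apply, v3_apply, hπt] at this
  · have := Dt.uz ⟨z, hz⟩ hlt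
    rwa [v3_apply, v3_apply, hπt] at this
  · have := Dt.νe
    rwa [v3_apply, v3_apply, hπt] at this
  · obtain ⟨z, rfl⟩ := rK_surj H Ct i₀ oo hu
    exact ⟨_, (mem_B_iff Ct i₀ _ _ _ (z : E)).1 z.2, rd_rK E ρ _ i₀ oo z⟩
  · obtain ⟨z, rfl⟩ := rK_surj H Ct i₀ (md ()) hu
    exact ⟨_, (mem_B_iff Ct i₀ _ _ _ (z : E)).1 z.2, rd_rK E ρ _ i₀ (md ()) z⟩
  · obtain ⟨z, rfl⟩ := rK_surj H Ct i₀ zr hu
    exact ⟨_, (mem_B_iff Ct i₀ _ _ _ (z : E)).1 z.2, rd_rK E ρ _ i₀ zr z⟩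

end Fermat.Agent.CAR.P1F
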