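import Fermat.Agent.CAR.P1F.BKDefs

/-!
# CAR / P1F : the datum of the count in helper32's abstract BK language  (package P1F-18)

`H : ON.Lvl2`, `X : T1.XDat`, `Ct`, `Ci : BK.ChartK` (the charts `t`, `1/t`), `Dt : NS.Disc3` (discreteness on `E`).
-/

set_option autoImplicit false

open Polynomial ModularCurve AlgebraicCurve

noncomputable section

namespace Fermat.Agent.CAR.P1F

open Fermat.Agent.GAL.KL Fermat.Agent.GAL.KLC Fermat.Agent.TOR.T1 Fermat.Agent.CAR.ON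
open Fermat.Agent.GAL Fermat.Agent.CAR Fermat.Agent.CAR.BK Fermat.Agent.CAR.DEG

variable {K F₀ F k Γ' Γ₀ I : Type*} [Field K] [Field F₀] [Field F] [Algebra K F₀]
  [Algebra K F] [Field k] [LinearOrderedCommGroupWithZero Γ'] [LinearOrderedCommGroupWithZero Γ₀]
  {v₀ : Valuation F₀ Γ'} {ρ₀ : v₀.integer →+* LaurentSeries k}
  {v : Idx I → Valuation F Γ₀} {ρ : ∀ i, (v i).integer →+* LaurentSeries k}
  {α β γ : F₀ →ₐ[K] F} {q : ℕ} [NeZero q] {E₀ : Subfield F₀} {E : Subfield F}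
  {x x' : F₀} {ξ ξ' : LaurentSeries k} {m : ℕ}

/-- **reductions of `Lat a`**: they lie in `R'` and have a pole of order `≤ a * (pole order of the reduction of t)`.
`i` = one of `oo`, `md i₀`, `zr`; `τ = ξ ^ N` the reduction of `t` at `i`.
PROOF.  `hv : ∀ j, v j z ≤ 1` (`rcases j`; `BK.md_le_one Ct hzE i₀ _`).  `u ∈ RR`: `RP.mem_RR`, `(BK.mem_Fbar_iff H.red₀).2 (Ct.res z hzE i u hu)`, `Ct.ir z i u hzL.1 hv hu`.
`u ∈ Cut`: `hτ' : Rd (ρ i) (t⁻¹ ^ a) ((ξ ^ N)⁻¹ ^ a)` (`Rd.inv (H.red i) hτ (pow_ne_zero _ (ON.xi_ne_zero X))`, `Rd.pow`); `Ci.ir _ i _ hzL.2 _ (hτ'.mul hu)` gives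
`IsInt k ξ⁻¹ ((ξ^N)⁻¹^a * u)` (the valuations of `t⁻¹^a * z`: `v j t = 1` for all `j` by `Rd.v_eq_one` and `rd_tt_oo/zr/md`, or `Rd.le_one` of the products);
so its coefficients of negative index vanish (as in `RP.coeff_eq_zero_of_mem_RR_inv`, file CAR/RP/DimD6.lean), i.e. it lies in `Cut k 0`;
`DEG.mul_mem_Cut_iff` with `((ξ^N)⁻¹^a).order = a * N * m` (`HahnSeries.order_pow`, `RP.DimD1_order_inv`, `X.ox`). -/
theorem red_mem_BK (H : Lvl2 K ρ₀ v ρ α β γ q) (X : XDat K ρ₀ x x' ξ ξ' m q)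
    (Ct : ChartK K ρ₀ ρ α γ E₀ E q x (tt α γ x) ξ)
    (Ci : ChartK K ρ₀ ρ α γ E₀ E q x⁻¹ (tt α γ x)⁻¹ ξ⁻¹) (i₀ : I) {i : Idx I} {N : ℕ}
    (hτ : Rd (ρ i) (tt α γ x) (ξ ^ N)) {a : ℕ} {z : F} (hzE : z ∈ E)
    (hzL : z ∈ LL K (tt α γ x) a) (ho : v oo z ≤ 1) (hm : v (md i₀) z ≤ 1) (hz : v zr z ≤ 1)
    {u : LaurentSeries k} (hu : Rd (ρ i) z u) :
    u ∈ RP.RR (CTV.Fbar H.red₀) ξ ∧ u ∈ Cut k ((a * (N * m) : ℕ) : ℤ) := by
  have hξ0 : ξ ≠ 0 := ON.xi_ne_zero X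
  have hv : ∀ j, v j z ≤ 1 := by
    intro j
    rcases j with _ | _ | j
    · exact ho
    · exact hz
    · exact BK.md_le_one Ct hzE i₀ j hm
  refine ⟨RP.mem_RR.2 ⟨(BK.mem_Fbar_iff H.red₀).2 (Ct.res z hzE i u hu),
    Ct.ir z i u hzL.1 hv hu⟩, ?_⟩
  have hτ' : Rd (ρ i) ((tt α γ x)⁻¹ ^ a) ((ξ ^ N)⁻¹ ^ a) :=
    (Rd.inv (H.red i) hτ (pow_ne_zero _ hξ0)).pow a
  have hvt : ∀ j, v j (tt α γ x) = 1 := by
    intro j
    rcases j with _ | _ | j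
    · exact (rd_tt_oo H X).v_eq_one (H.red _) (pow_ne_zero _ hξ0)
    · exact (rd_tt_zr H X).v_eq_one (H.red _) (pow_ne_zero _ hξ0)
    · exact (rd_tt_md H X j).v_eq_one (H.red _) (pow_ne_zero _ hξ0)
  have hv' : ∀ j, v j ((tt α γ x)⁻¹ ^ a * z) ≤ 1 := by
    intro j
    rw [map_mul, map_pow, map_inv₀, hvt j, inv_one, one_pow, one_mul]
    exact hv j
  have hint : IsInt k ξ⁻¹ ((ξ ^ N)⁻¹ ^ a * u) := Ci.ir _ i _ hzL.2 hv' (hτ'.mul hu)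
  have hoinv : (ξ⁻¹).order = (m : ℤ) := by
    rw [RP.DimD1_order_inv hξ0, X.ox, neg_neg]
  have hη : ∀ n : ℤ, n < 0 → (ξ⁻¹).coeff n = 0 := fun n hn =>
    HahnSeries.coeff_eq_zero_of_lt_order (by rw [hoinv]; omega)
  have h0 : (ξ ^ N)⁻¹ ^ a * u ∈ Cut k 0 := fun n hn =>
    KLB.coeff_eq_zero_of_isInt hη hint n (by simpa using hn)
  rw [DEG.mul_mem_Cut_iff (pow_ne_zero _ (inv_ne_zero (pow_ne_zero _ hξ0)))] at h0
  have hord : ((ξ ^ N)⁻¹ ^ a).order = ((a * (N * m) : ℕ) : ℤ) := by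
    rw [HahnSeries.order_pow, RP.DimD1_order_inv (pow_ne_zero _ hξ0), HahnSeries.order_pow, X.ox]
    push_cast
    simp
  rwa [hord, zero_add] at h0

end Fermat.Agent.CAR.P1F
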