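import Fermat.Agent.CAR.P1F.Defs

/-!
# CAR / P1F : basic API of `LL`, `B`, `Lat`, `Ls`  (package P1F-1)
-/

set_option autoImplicit false

open Polynomial

noncomputable section

namespace Fermat.Agent.CAR.P1F

open Fermat.Agent.GAL.KL Fermat.Agent.GAL.KLC Fermat.Agent.TOR.T1 Fermat.Agent.CAR.DEG

variable {K F k Γ₀ : Type*} [Field K] [Field F] [Algebra K F] [Field k]
  [LinearOrderedCommGroupWithZero Γ₀]

/-- `t⁻¹ ^ a' * z = t⁻¹ ^ (a' - a) * (t⁻¹ ^ a * z)`; `t⁻¹ ^ n` is integral over `K[t⁻¹]` (`IsInt.aeval (X ^ n)`), `IsInt.mul`. -/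
theorem LL_mono {t : F} {a a' : ℕ} (h : a ≤ a') : LL K t a ≤ LL K t a' := by
  intro z hz
  rw [mem_LL] at hz ⊢
  refine ⟨hz.1, ?_⟩
  obtain ⟨b, rfl⟩ := Nat.exists_eq_add_of_le h
  have h1 : IsInt K t⁻¹ (t⁻¹ ^ b) := by
    have := IsInt.aeval (L := K) (t := t⁻¹) (X ^ b)
    rwa [map_pow, aeval_X] at this
  have e : t⁻¹ ^ (a + b) * z = t⁻¹ ^ b * (t⁻¹ ^ a * z) := by rw [pow_add]; ring
  rw [e]
  exact h1.mul hz.2

/-- `IsInt.mul` twice; `t⁻¹ ^ (a + a') * (z * z') = (t⁻¹ ^ a * z) * (t⁻¹ ^ a' * z')`. -/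
theorem LL_mul {t : F} {a a' : ℕ} {z z' : F} (hz : z ∈ LL K t a) (hz' : z' ∈ LL K t a') :
    z * z' ∈ LL K t (a + a') := by
  rw [mem_LL] at hz hz' ⊢
  refine ⟨hz.1.mul hz'.1, ?_⟩
  have e : t⁻¹ ^ (a + a') * (z * z') = (t⁻¹ ^ a * z) * (t⁻¹ ^ a' * z') := by rw [pow_add]; ring
  rw [e]
  exact hz.2.mul hz'.2

/-- `IsInt.shift` applied to `t⁻¹` (`(t⁻¹)⁻¹ = t`). -/
theorem exists_mem_LL {t : F} (ht : t ≠ 0) {z : F} (hz : IsInt K t z) :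
    ∃ a₀ : ℕ, ∀ a, a₀ ≤ a → z ∈ LL K t a := by
  have hz' : IsInt K (t⁻¹)⁻¹ z := by rwa [inv_inv]
  obtain ⟨m₀, hm₀⟩ := IsInt.shift (inv_ne_zero ht) hz'
  exact ⟨m₀, fun a ha => (mem_LL K).2 ⟨hz, hm₀ a ha⟩⟩

variable {D : Dat K F k Γ₀} {R : Subalgebra k (LaurentSeries k)} {no nm : ℕ}

theorem P_ne_zero (h : Ok D R no nm) : D.P ≠ 0 := by
  intro h0
  exact h.π0 ((map_eq_zero (algebraMap K F)).1 h0)

/-- `vm ν ^ e = vm π ≠ 0`. -/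
theorem nu_ne_zero (h : Ok D R no nm) : D.ν ≠ 0 := by
  intro h0
  have h1 := h.νe
  rw [h0, map_zero, zero_pow h.e0.ne'] at h1
  exact P_ne_zero h ((map_eq_zero D.vm).1 h1.symm)

/-- `vm ν ^ e = vm π < 1`, `e > 0`. -/
theorem vm_nu_lt_one (h : Ok D R no nm) : D.vm D.ν < 1 := by
  by_contra hcon
  rw [not_lt] at hcon
  have h1 : 1 ≤ D.vm D.ν ^ D.e := one_le_pow₀ hcon
  rw [h.νe] at h1
  exact absurd h.πm (not_lt.2 h1)

theorem Lat_subset_B (a : ℕ) : D.Lat a ⊆ D.B := fun _ hz => ⟨hz.1, hz.2.1.1, hz.2.2⟩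

theorem Lat_mono {a a' : ℕ} (h : a ≤ a') : D.Lat a ⊆ D.Lat a' :=
  fun _ hz => ⟨hz.1, LL_mono h hz.2.1, hz.2.2⟩

theorem exists_mem_Lat (h : Ok D R no nm) {z : F} (hz : z ∈ D.B) :
    ∃ a₀ : ℕ, ∀ a, a₀ ≤ a → z ∈ D.Lat a := by
  obtain ⟨a₀, ha₀⟩ := exists_mem_LL h.t0 hz.2.1
  exact ⟨a₀, fun a ha => ⟨hz.1, ha₀ a ha, hz.2.2⟩⟩

theorem Lat_zero_mem (a : ℕ) : (0 : F) ∈ D.Lat a := by
  refine ⟨D.E.zero_mem, (LL K D.t a).zero_mem, ?_, ?_, ?_⟩ <;> rw [map_zero] <;> exact zero_le_one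

theorem Lat_sub {a : ℕ} {z z' : F} (hz : z ∈ D.Lat a) (hz' : z' ∈ D.Lat a) : z - z' ∈ D.Lat a := by
  obtain ⟨h1, h2, h3, h4, h5⟩ := hz
  obtain ⟨h1', h2', h3', h4', h5'⟩ := hz'
  exact ⟨D.E.sub_mem h1 h1', (LL K D.t a).sub_mem h2 h2', (D.vo.map_sub _ _).trans (max_le h3 h3'),
    (D.vm.map_sub _ _).trans (max_le h4 h4'), (D.vz.map_sub _ _).trans (max_le h5 h5')⟩

theorem Lat_mul {a a' : ℕ} {z z' : F} (hz : z ∈ D.Lat a) (hz' : z' ∈ D.Lat a') :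
    z * z' ∈ D.Lat (a + a') := by
  obtain ⟨h1, h2, h3, h4, h5⟩ := hz
  obtain ⟨h1', h2', h3', h4', h5'⟩ := hz'
  refine ⟨D.E.mul_mem h1 h1', LL_mul h2 h2', ?_, ?_, ?_⟩ <;> rw [map_mul]
  · exact mul_le_one' h3 h3'
  · exact mul_le_one' h4 h4'
  · exact mul_le_one' h5 h5'

/-- multiplication by a rational integral constant (`Algebra.smul_def`, `(LL K t a).smul_mem`). -/
theorem Lat_smul {a : ℕ} {z : F} (hz : z ∈ D.Lat a) {b : K} (hE : algebraMap K F b ∈ D.E)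
    (ho : D.vo (algebraMap K F b) ≤ 1) (hm : D.vm (algebraMap K F b) ≤ 1)
    (hz' : D.vz (algebraMap K F b) ≤ 1) : b • z ∈ D.Lat a := by
  obtain ⟨h1, h2, h3, h4, h5⟩ := hz
  refine ⟨?_, (LL K D.t a).smul_mem b h2, ?_, ?_, ?_⟩ <;> rw [Algebra.smul_def]
  · exact D.E.mul_mem hE h1
  · rw [map_mul]; exact mul_le_one' ho h3
  · rw [map_mul]; exact mul_le_one' hm h4
  · rw [map_mul]; exact mul_le_one' hz' h5

/-- `z / π = π⁻¹ • z` stays in `LL`, in `E`; the three valuations by `map_div₀`, `div_le_one₀`. -/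
theorem Lat_div_P (h : Ok D R no nm) {a : ℕ} {z : F} (hz : z ∈ D.Lat a) (ho : D.vo z ≤ D.vo D.P)
    (hm : D.vm z ≤ D.vm D.P) (hz' : D.vz z ≤ D.vz D.P) : z / D.P ∈ D.Lat a := by
  have hP := P_ne_zero h
  obtain ⟨h1, h2, -, -, -⟩ := hz
  have e : z / D.P = D.π⁻¹ • z := by
    rw [Algebra.smul_def, map_inv₀, div_eq_inv_mul]
    rfl
  have key : ∀ w : Valuation F Γ₀, w z ≤ w D.P → w (z / D.P) ≤ 1 := by
    intro w hw
    rw [map_div₀]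
    exact div_le_one_of_le₀ hw zero_le
  refine ⟨D.E.div_mem h1 h.πE, ?_, key _ ho, key _ hm, key _ hz'⟩
  rw [e]
  exact (LL K D.t a).smul_mem _ h2

theorem B_one_mem : (1 : F) ∈ D.B := by
  refine ⟨D.E.one_mem, IsInt.one, ?_, ?_, ?_⟩ <;> rw [map_one]

theorem B_mul {z z' : F} (hz : z ∈ D.B) (hz' : z' ∈ D.B) : z * z' ∈ D.B := by
  obtain ⟨h1, h2, h3, h4, h5⟩ := hz
  obtain ⟨h1', h2', h3', h4', h5'⟩ := hz'
  refine ⟨D.E.mul_mem h1 h1', h2.mul h2', ?_, ?_, ?_⟩ <;> rw [map_mul]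
  · exact mul_le_one' h3 h3'
  · exact mul_le_one' h4 h4'
  · exact mul_le_one' h5 h5'

theorem B_sub {z z' : F} (hz : z ∈ D.B) (hz' : z' ∈ D.B) : z - z' ∈ D.B := by
  obtain ⟨h1, h2, h3, h4, h5⟩ := hz
  obtain ⟨h1', h2', h3', h4', h5'⟩ := hz'
  exact ⟨D.E.sub_mem h1 h1', h2.sub h2', (D.vo.map_sub _ _).trans (max_le h3 h3'),
    (D.vm.map_sub _ _).trans (max_le h4 h4'), (D.vz.map_sub _ _).trans (max_le h5 h5')⟩

theorem B_add {z z' : F} (hz : z ∈ D.B) (hz' : z' ∈ D.B) : z + z' ∈ D.B := by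
  obtain ⟨h1, h2, h3, h4, h5⟩ := hz
  obtain ⟨h1', h2', h3', h4', h5'⟩ := hz'
  exact ⟨D.E.add_mem h1 h1', h2.add h2', (D.vo.map_add _ _).trans (max_le h3 h3'),
    (D.vm.map_add _ _).trans (max_le h4 h4'), (D.vz.map_add _ _).trans (max_le h5 h5')⟩

theorem B_pow {z : F} (hz : z ∈ D.B) (n : ℕ) : z ^ n ∈ D.B := by
  induction n with
  | zero => rw [pow_zero]; exact B_one_mem
  | succ n ih => rw [pow_succ]; exact B_mul ih hz

theorem B_prod {ι : Type*} (s : Finset ι) {z : ι → F} (hz : ∀ i ∈ s, z i ∈ D.B) :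
    ∏ i ∈ s, z i ∈ D.B := by
  classical
  induction s using Finset.induction_on with
  | empty => rw [Finset.prod_empty]; exact B_one_mem
  | insert a s ha ih =>
    rw [Finset.prod_insert ha]
    exact B_mul (hz a (Finset.mem_insert_self a s)) (ih fun i hi => hz i (Finset.mem_insert_of_mem hi))

/-- **the division trick.**  `z / Y = z * Y' * (π⁻¹)^N`: integral over `K[t]` (`IsInt.algebraMap`, `IsInt.mul`), in `E`; valuations by hypothesis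
(`Y ≠ 0` because `Y * Y' = π^N ≠ 0`). -/
theorem B_div (h : Ok D R no nm) {z Y Y' : F} {N : ℕ} (hz : z ∈ D.B) (hY : Y ∈ D.B) (hY' : Y' ∈ D.B)
    (hYY : Y * Y' = D.P ^ N) (ho : D.vo z ≤ D.vo Y) (hm : D.vm z ≤ D.vm Y) (hz' : D.vz z ≤ D.vz Y) :
    z / Y ∈ D.B := by
  have hP := P_ne_zero h
  have hPN : D.P ^ N ≠ 0 := pow_ne_zero _ hP
  have hY0 : Y ≠ 0 := by
    rintro rfl
    rw [zero_mul] at hYY
    exact hPN hYY.symm
  have e : z / Y = z * Y' * algebraMap K F (D.π⁻¹ ^ N) := by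
    have e1 : algebraMap K F (D.π⁻¹ ^ N) = (D.P ^ N)⁻¹ := by
      rw [map_pow, map_inv₀, inv_pow]
      rfl
    rw [e1, ← hYY]
    have hY'0 : Y' ≠ 0 := by
      rintro rfl
      rw [mul_zero] at hYY
      exact hPN hYY.symm
    field_simp
  have key : ∀ w : Valuation F Γ₀, w z ≤ w Y → w (z / Y) ≤ 1 := by
    intro w hw
    rw [map_div₀]
    exact div_le_one_of_le₀ hw zero_le
  refine ⟨D.E.div_mem hz.1 hY.1, ?_, key _ ho, key _ hm, key _ hz'⟩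
  rw [e]
  exact (hz.2.1.mul hY'.2.1).mul (IsInt.algebraMap _)

end Fermat.Agent.CAR.P1F
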