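import Fermat.Agent.CAR.XT.Inc
import Fermat.Agent.CAR.P1F.BKDefs

/-!
# CAR / P1F / ConcX : the input `hX : XOk ..` of `P1F.pr_BK` at the concrete level (from the table `CAR/XT`)

`xokC` : `E = BK.EC A (M' q²)`;  `xokF` : `E = NRM.Inst.FK A (M' q²)`;  `ν`, `e` arbitrary (they do not occur in `XOk`).
-/

set_option autoImplicit false

open ModularCurve AlgebraicCurve

noncomputable section

namespace Fermat.Agent.CAR.P1F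

open Fermat.Agent.GR Fermat.Agent.GAL Fermat.Agent.GAL.KL Fermat.Agent.GAL.KLC Fermat.Agent.S24
open Fermat.Agent.S28 Fermat.Agent.GR.HeckeField Fermat.Agent.TOR Fermat.Agent.TOR.GB
open Fermat.Agent.CAR.FQ2V Fermat.Agent.CAR.FQ2E Fermat.Agent.CAR.FQ2C Fermat.Agent.CAR.ON
open Fermat.Agent.CAR.TH1 Fermat.Agent.CAR.XW Fermat.Agent.CAR.BK Fermat.Agent.CAR.XT

variable {M' q : ℕ} [NeZero M'] [NeZero q]

variable (hM : AdmLevel M') (hq : q.Prime) (hqM : ¬ q ∣ M') (A : ValuationSubring Qb)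
  (hA : A.LiesOverPrime q) (ζ : Qbˣ) (hζ : IsPrimitiveRoot ζ q)

include hM hq hqM hA hζ in
/-- **`XOk`** for `E = BK.EC A (M' q²)`. -/
theorem xokC (i₀ : (ZMod q)ˣ) (ν : FN (M' * q * q)) (e : ℕ) :
    XOk (datBK (EC A (M' * q * q)) (vC M' q A ζ) (rhoC M' q A ζ) i₀ (FQ2C.tC M' q) (q : Qb) ν e)
      (HX M' q A) (NX M') (Xo M' q) (Xo' M' q) (Xz M' q) (Xz' M' q) where
  Nn0 := NX_pos M'
  H0 := HX_ne_zero A
  XoB := ⟨Xo_mem_EC hq hqM A, isInt_Xo hM hq hqM A hA (isInt_XF_inv_t1C hq hqM),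
    vC_Xo_le hq hqM A hA ζ hζ _, vC_Xo_le hq hqM A hA ζ hζ _, vC_Xo_le hq hqM A hA ζ hζ _⟩
  Xo'B := ⟨Xo'_mem_EC A, isInt_Xo' hM hq hqM A hA (isInt_XF_t1C hq hqM),
    vC_Xo'_le hq hqM A hA ζ hζ _, vC_Xo'_le hq hqM A hA ζ hζ _, vC_Xo'_le hq hqM A hA ζ hζ _⟩
  XzB := ⟨Xz_mem_EC A, isInt_Xz hM hq hqM A hA (isInt_XF_t1C hq hqM),
    vC_Xz_le hq hqM A hA ζ _, vC_Xz_le hq hqM A hA ζ _, vC_Xz_le hq hqM A hA ζ _⟩
  Xz'B := ⟨Xz'_mem_EC hq hqM A, isInt_Xz' hM hq hqM A hA (isInt_XF_inv_t1C hq hqM),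
    vC_Xz'_le hq hqM A hA ζ _, vC_Xz'_le hq hqM A hA ζ _, vC_Xz'_le hq hqM A hA ζ _⟩
  mulo := by
    show Xo M' q * Xo' M' q = algebraMap Qb (FN (M' * q * q)) (q : Qb) ^ NX M'
    rw [Xo_mul_Xo' hq hqM, map_pow]
  mulz := by
    show Xz M' q * Xz' M' q = algebraMap Qb (FN (M' * q * q)) (q : Qb) ^ NX M'
    rw [Xz_mul_Xz' hq hqM, map_pow]
  voXo := by
    show vC M' q A ζ oo (Xo M' q) = vC M' q A ζ oo (algebraMap Qb (FN (M' * q * q)) (q : Qb)) ^ NX M'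
    rw [vC_q, vC_oo_Xo hq hqM A ζ]
  vzXz := by
    show vC M' q A ζ zr (Xz M' q) = vC M' q A ζ zr (algebraMap Qb (FN (M' * q * q)) (q : Qb)) ^ NX M'
    rw [vC_q, vC_zr_Xz hq hqM A ζ]
  rzXo := rd_zr_Xo hq hqM A ζ
  rmXo := rd_md_Xo hq hqM A hA ζ hζ i₀
  roXz := rd_oo_Xz A ζ
  rmXz := rd_md_Xz A ζ i₀

include hM hq hqM hA hζ in
/-- **`XOk`** for `E = NRM.Inst.FK A (M' q²)`. -/
theorem xokF (i₀ : (ZMod q)ˣ) (ν : FN (M' * q * q)) (e : ℕ) :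
    XOk (datBK (NRM.Inst.FK A (M' * q * q)) (vC M' q A ζ) (rhoC M' q A ζ) i₀ (FQ2C.tC M' q)
      (q : Qb) ν e)
      (HX M' q A) (NX M') (Xo M' q) (Xo' M' q) (Xz M' q) (Xz' M' q) := by
  rw [← EC_eq_FK]
  exact xokC hM hq hqM A hA ζ hζ i₀ ν e

end Fermat.Agent.CAR.P1F
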