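import Fermat.Agent.CAR.P1F.BKMain
import Fermat.Agent.CAR.P1F.ConcX
import Fermat.Agent.CAR.TH1.Pl.Theta
import Fermat.Agent.CAR.TH1.Formal
import Fermat.Agent.CAR.BK.SpanC
import Fermat.Agent.CAR.BK.BLC
import Fermat.Agent.CAR.P1.Conc.Val
import Fermat.Agent.CAR.RP.Conc

/-!
# CAR / P1F / Conc : the count at the concrete level `F = FN (M' q²)`, `E = BK.EC A (M' q²)`

`prC` : the fields `prm`, `proz` and the third part of `inf` of `CAR.Main.GeoE` at `E = EC`, from [D3] (`NS.Disc3`, `e + 1 = q`) and [INF] (`ONE`).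
-/

set_option autoImplicit false

open ModularCurve AlgebraicCurve

noncomputable section

namespace Fermat.Agent.CAR.P1F

open Fermat.Agent.GR Fermat.Agent.GAL Fermat.Agent.GAL.KL Fermat.Agent.GAL.KLC Fermat.Agent.S24
open Fermat.Agent.S28 Fermat.Agent.GR.HeckeField Fermat.Agent.TOR Fermat.Agent.TOR.GB
open Fermat.Agent.TOR.T1
open Fermat.Agent.CAR.FQ2V Fermat.Agent.CAR.FQ2E Fermat.Agent.CAR.FQ2C Fermat.Agent.CAR.ON
open Fermat.Agent.CAR.BK Fermat.Agent.CAR Fermat.Agent.CAR.DEG Fermat.Agent.CAR.CNT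
open Fermat.Agent.CAR.XT Fermat.Agent.DSC

variable {M' q : ℕ} [NeZero M'] [NeZero q] (A : ValuationSubring Qb) (ζ : Qbˣ)

/-- the coefficient functionals. -/
def cfQ (N : ℕ) (j : ℤ) : FN N →ₗ[Qb] Qb where
  toFun z := (Lift_incl N z).coeff j
  map_add' x y := by rw [map_add]; rfl
  map_smul' a x := by rw [map_smul]; rfl

theorem cfQ_apply (N : ℕ) (j : ℤ) (z : FN N) : cfQ N j z = (z : LaurentSeries Qb).coeff j := rfl

/-- the concrete datum. -/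
abbrev datC (M' q : ℕ) [NeZero M'] [NeZero q] (A : ValuationSubring Qb) (ζ : Qbˣ) (i₀ : (ZMod q)ˣ)
    (ν : FN (M' * q * q)) (e : ℕ) : Dat Qb (FN (M' * q * q)) (kA A) (ΓU A) :=
  datBK (EC A (M' * q * q)) (vC M' q A ζ) (rhoC M' q A ζ) i₀ (FQ2C.tC M' q) (q : Qb) ν e

/-- constants. -/
theorem scC (hq : q.Prime) (hA : A.LiesOverPrime q) (i₀ : (ZMod q)ˣ) (c : kA A) :
    ∃ a : Qb, algebraMap Qb (FN (M' * q * q)) a ∈ EC A (M' * q * q) ∧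
      Rd (rhoC M' q A ζ oo) (algebraMap Qb (FN (M' * q * q)) a) (HahnSeries.C c) ∧
      Rd (rhoC M' q A ζ (md i₀)) (algebraMap Qb (FN (M' * q * q)) a) (HahnSeries.C c) ∧
      Rd (rhoC M' q A ζ zr) (algebraMap Qb (FN (M' * q * q)) a) (HahnSeries.C c) := by
  obtain ⟨a, ha, haA, rfl⟩ := exists_lift_EH_inertia hq hA c
  exact ⟨a, (algebraMap (EH (IA A)) (EC A (M' * q * q)) ⟨a, ha⟩).2,
    P1.Conc.rd_const A ζ _ ⟨a, haA⟩, P1.Conc.rd_const A ζ _ ⟨a, haA⟩,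
    P1.Conc.rd_const A ζ _ ⟨a, haA⟩⟩

section

variable (hM : AdmLevel M') (hq : q.Prime) (hqM : ¬ q ∣ M') (hA : A.LiesOverPrime q)
  (hζ : IsPrimitiveRoot ζ q)
include hM hq hqM hA hζ

theorem all_le_oneC (i₀ : (ZMod q)ˣ) {z : FN (M' * q * q)} (hE : z ∈ EC A (M' * q * q))
    (ho : vC M' q A ζ oo z ≤ 1) (hm : vC M' q A ζ (md i₀) z ≤ 1) (hz : vC M' q A ζ zr z ≤ 1)
    (j : ON.Idx (ZMod q)ˣ) : vC M' q A ζ j z ≤ 1 := by
  rcases j with _ | _ | j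
  · exact ho
  · exact hz
  · exact md_le_one (chartC A ζ hM hq hqM hA hζ) hE i₀ j hm

/-- **the global hypotheses.** -/
theorem lokC (i₀ : (ZMod q)ˣ) (ν : FN (M' * q * q)) {e : ℕ} (he : e + 1 = q) :
    LOk (datC M' q A ζ i₀ ν e) (2 * ((q * q + 1) * mX M') + e * ((1 + 1) * mX M'))
      ((gS (M' * q * q) : ℕ) : ℤ) (cfQ (M' * q * q)) := by
  have hP : (datC M' q A ζ i₀ ν e).P = algebraMap Qb (FN (M' * q * q)) (q : Qb) := rfl
  refine ⟨fun a => ?_, fun a => ?_, fun z hz => ?_, fun a z hz j => ?_, fun γ hγ => ?_⟩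
  · have h := P1.Conc.ri_tC A ζ hM hq hqM hA hζ a
    have e1 : DD (mX M') q = 2 * ((q * q + 1) * mX M') + e * ((1 + 1) * mX M') := by
      subst he
      simp only [DD, Nat.add_sub_cancel]
      ring
    rw [e1] at h
    exact h
  · refine (span_LatC A ζ hq hA a).trans (Submodule.span_mono ?_)
    rintro z ⟨h1, h2, h3⟩
    exact ⟨h1, h2, h3 _, h3 _, h3 _⟩
  · apply Subtype.ext
    apply HahnSeries.ext
    funext j
    exact hz j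
  · have h1 := coeff_mem_of_isInt_C A ζ hM hq hqM hA hζ (z := z) hz.2.1.1
      (all_le_oneC A ζ hM hq hqM hA hζ i₀ hz.1 hz.2.2.1 hz.2.2.2.1 hz.2.2.2.2) j
    exact (P1.Conc.rd_const A ζ oo ⟨_, h1⟩).le_one
  · rw [hP]
    exact arch_C A ζ hq hA oo _ (SpanC_q_lt_one A ζ hA oo) γ hγ

omit hζ hA in
/-- the numerical identity. -/
theorem numC' :
    ((NX M' : ℕ) : ℤ) * (1 - ((gS (M' * q * q) : ℕ) : ℤ))
      = ((q : ℤ) + 1) * (((NX M' : ℕ) : ℤ) * (1 - ((RP.gC M' : ℕ) : ℤ)) + (HX M' q A).order) := by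
  have h := num_P1 M' q hM hq hqM
  rw [TH1.order_XR]
  push_cast
  linear_combination h

/-- **[P1] at `E = EC`.** -/
theorem prC (i₀ : (ZMod q)ˣ) {νt : BC M' q A ζ} {e : ℕ}
    (Dt : NS.Disc3 (BC M' q A ζ) (v3 (EC A (M' * q * q)) (vC M' q A ζ) i₀) oo (md ()) zr
      (q : BC M' q A ζ) νt e) (he : e + 1 = q)
    (s : BCinf M' q A ζ) (hs : ((s : EC A (M' * q * q)) : FN (M' * q * q)) = (FQ2C.tC M' q)⁻¹)
    (ONE : ∀ P : Ideal (BCinf M' q A ζ), P.IsMaximal → s ∈ P → ∀ i j,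
      pK Qb (EC A (M' * q * q)) (vC M' q A ζ) (FQ2C.tC M' q)⁻¹ i₀ i ≤ P →
      pK Qb (EC A (M' * q * q)) (vC M' q A ζ) (FQ2C.tC M' q)⁻¹ i₀ j ≤ P → i = j) :
    (∀ P : Ideal (BC M' q A ζ), P.IsMaximal →
      pK Qb (EC A (M' * q * q)) (vC M' q A ζ) (FQ2C.tC M' q) i₀ (md ()) ≤ P →
      ¬ pK Qb (EC A (M' * q * q)) (vC M' q A ζ) (FQ2C.tC M' q) i₀ oo ≤ P →
      ¬ pK Qb (EC A (M' * q * q)) (vC M' q A ζ) (FQ2C.tC M' q) i₀ zr ≤ P →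
      ∃ ν y : BC M' q A ζ, y ∉ P ∧
        NS.GenOn (BC M' q A ζ) (v3 (EC A (M' * q * q)) (vC M' q A ζ) i₀ (md ()))
          (pK Qb (EC A (M' * q * q)) (vC M' q A ζ) (FQ2C.tC M' q) i₀ (md ())) ν y) ∧
    (∀ P : Ideal (BC M' q A ζ), P.IsMaximal →
      pK Qb (EC A (M' * q * q)) (vC M' q A ζ) (FQ2C.tC M' q) i₀ oo ≤ P →
      pK Qb (EC A (M' * q * q)) (vC M' q A ζ) (FQ2C.tC M' q) i₀ zr ≤ P →
      ∃ ν y : BC M' q A ζ, y ∉ P ∧
        NS.GenOn (BC M' q A ζ) (v3 (EC A (M' * q * q)) (vC M' q A ζ) i₀ oo)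
          (pK Qb (EC A (M' * q * q)) (vC M' q A ζ) (FQ2C.tC M' q) i₀ oo) ν y) ∧
    (∀ P : Ideal (BCinf M' q A ζ), P.IsMaximal → s ∈ P →
      pK Qb (EC A (M' * q * q)) (vC M' q A ζ) (FQ2C.tC M' q)⁻¹ i₀ (md ()) ≤ P →
      ∃ ν y : BCinf M' q A ζ, y ∉ P ∧
        NS.GenOn (BCinf M' q A ζ) (v3 (EC A (M' * q * q)) (vC M' q A ζ) i₀ (md ()))
          (pK Qb (EC A (M' * q * q)) (vC M' q A ζ) (FQ2C.tC M' q)⁻¹ i₀ (md ())) ν y) :=
  pr_BK (FQ2C.lvl2 A ζ hq hqM hA hζ) (xDatC A hM hq hqM hA) hq.two_le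
    (Nat.cast_ne_zero.2 hq.ne_zero) (arch_C A ζ hq hA)
    (chartC A ζ hM hq hqM hA hζ) (chartC_inv A ζ hM hq hqM hA hζ)
    (RP.isDedekindDomain_RC M' q hM hq hqM A hA) (RP.isDedekindDomain_RCinf M' q hM hq hqM A hA) i₀
    (q : BC M' q A ζ) (coe_natCast_Bu _ _ _ q) (q : BCinf M' q A ζ) (coe_natCast_Bu _ _ _ q) s hs
    Dt he ONE (scC A ζ hq hA i₀) (RP.isCurve_RC M' q hM hq hqM A hA)
    (xokC hM hq hqM A hA ζ hζ i₀ _ e) (lokC A ζ hM hq hqM hA hζ i₀ _ he)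
    (numC' A hM hq hqM)

end

end Fermat.Agent.CAR.P1F
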