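import Fermat.Agent.CAR.P1F.BKDefs
import Fermat.Agent.CAR.P1.Conc.RI
import Fermat.Agent.CAR.BK.BLC
import Fermat.Agent.CAR.BK.SpanC
import Fermat.Agent.CAR.BK.ConcCnt

/-!
# CAR / P1F / ConcL : the hypotheses `sc`, `hL : LOk`, `hC`, of `P1F.pr_BK` at the concrete level (`E = BK.EC`, `vC`, `rhoC`, `tC`)
-/

set_option autoImplicit false

open ModularCurve AlgebraicCurve

noncomputable section

namespace Fermat.Agent.CAR.P1F

open Fermat.Agent.GR Fermat.Agent.GAL Fermat.Agent.GAL.KL Fermat.Agent.GAL.KLC Fermat.Agent.S24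
open Fermat.Agent.S28 Fermat.Agent.GR.HeckeField Fermat.Agent.TOR Fermat.Agent.TOR.GB
open Fermat.Agent.CAR.FQ2V Fermat.Agent.CAR.FQ2E Fermat.Agent.CAR.FQ2C Fermat.Agent.CAR.ON
open Fermat.Agent.CAR.BK Fermat.Agent.CAR.CNT

variable {M' q : ℕ} [NeZero M'] [NeZero q] (A : ValuationSubring Qb) (ζ : Qbˣ)

/-- the `Q`-expansion coefficients as `ℚ̄`-linear forms on `FN N`. -/
def cfC (N : ℕ) (j : ℤ) : FN N →ₗ[Qb] Qb := (DESC.linCoeff j).comp (Lift_incl N)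

theorem cfC_apply (N : ℕ) (j : ℤ) (z : FN N) : cfC N j z = (z : LaurentSeries Qb).coeff j := rfl

/-- **`sc`.** -/
theorem scC (hq : q.Prime) (hA : A.LiesOverPrime q) (i₀ : (ZMod q)ˣ) (c : kA A) :
    ∃ a : Qb, algebraMap Qb (FN (M' * q * q)) a ∈ EC A (M' * q * q) ∧
      T1.Rd (rhoC M' q A ζ oo) (algebraMap Qb (FN (M' * q * q)) a) (HahnSeries.C c) ∧
      T1.Rd (rhoC M' q A ζ (md i₀)) (algebraMap Qb (FN (M' * q * q)) a) (HahnSeries.C c) ∧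
      T1.Rd (rhoC M' q A ζ zr) (algebraMap Qb (FN (M' * q * q)) a) (HahnSeries.C c) := by
  obtain ⟨a, -, h1, h2⟩ := cstC (M' := M') A ζ hq hA c
  exact ⟨a, h1, h2 _, h2 _, h2 _⟩

/-- constants of `A` are integral. -/
theorem vC_algebraMap_le_one {a : Qb} (ha : a ∈ A) (i : ON.Idx (ZMod q)ˣ) :
    vC M' q A ζ i (algebraMap Qb (FN (M' * q * q)) a) ≤ 1 := by
  rw [vC_le_one_iff, (famC M' q ζ i).const]
  exact ⟨_, hasRed_C A ⟨a, ha⟩⟩

/-- **`hL`.** -/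
theorem lOkC (hM : AdmLevel M') (hq : q.Prime) (hqM : ¬ q ∣ M') (hA : A.LiesOverPrime q)
    (hζ : IsPrimitiveRoot ζ q) (i₀ : (ZMod q)ˣ) (ν : FN (M' * q * q)) {e : ℕ} (he : e + 1 = q) :
    LOk (datBK (EC A (M' * q * q)) (vC M' q A ζ) (rhoC M' q A ζ) i₀ (FQ2C.tC M' q) (q : Qb) ν e)
      (2 * ((q * q + 1) * mX M') + e * ((1 + 1) * mX M')) (gS (M' * q * q) : ℤ)
      (cfC (M' * q * q)) where
  ri := fun a => by
    have h := P1.Conc.ri_tC A ζ hM hq hqM hA hζ a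
    have e1 : DD (mX M') q = 2 * ((q * q + 1) * mX M') + e * ((1 + 1) * mX M') := by
      subst he
      simp only [DD, Nat.add_sub_cancel]
      ring
    rw [e1] at h
    exact h
  span := fun a => (span_LatC A ζ hq hA a).trans (Submodule.span_mono fun z hz =>
    ⟨hz.1, hz.2.1, hz.2.2 _, hz.2.2 _, hz.2.2 _⟩)
  sep := fun z hz => Subtype.ext (HahnSeries.ext (funext hz))
  bd := fun a z hz j => by
    refine vC_algebraMap_le_one A ζ ?_ oo
    exact coeff_mem_of_isInt_C A ζ hM hq hqM hA hζ hz.2.1.1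
      (le_one_of3C A ζ hM hq hqM hA hζ i₀ hz.1 hz.2.2.1 hz.2.2.2.1 hz.2.2.2.2) j
  arch := fun γ hγ => arch_C (M' := M') A ζ hq hA oo _ (SpanC_q_lt_one A ζ hA oo) γ hγ

end Fermat.Agent.CAR.P1F
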