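import Fermat.Agent.CAR.DEG.Mul
import Fermat.Agent.CAR.DEG.Scale

/-!
# CAR / P1F : the numeric core of the count  (block D of [P1])

`R = RR Fb ξ` the reduced chart ring of level `M'`, `I0`, `Nj j` fractional ideals with
`I0 ^ N ⊆ H R`, `(Nj 0) ^ N ⊆ H² R`, `Nj j * Nj (e - j) ⊆ c0 * Nj 0`, integers `cj j` with `order c0 ≤ cj j + cj (e - j)`.
If the sum of the dimensions of the truncations is at least `a D + 1 - g2` and `N (1 - g2) = (e + 2) (N (1 - g) + order H)`,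
all these inclusions / inequalities are equalities.
-/

set_option autoImplicit false

noncomputable section

namespace Fermat.Agent.CAR.P1F

open Fermat.Agent.CAR.RP Fermat.Agent.CAR.DEG Module

variable {k : Type*} [Field k]
variable {Fb : IntermediateField k (LaurentSeries k)} {ξ : LaurentSeries k} {g : ℕ}

/-- reflection `j ↦ e - j` on `Ico 1 e`. -/
theorem core_sum_reflect (e : ℕ) (f : ℕ → ℤ) :
    ∑ j ∈ Finset.Ico 1 e, f (e - j) = ∑ j ∈ Finset.Ico 1 e, f j := by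
  refine Finset.sum_bij' (fun j _ => e - j) (fun j _ => e - j) ?_ ?_ ?_ ?_ ?_
  · intro j hj
    rw [Finset.mem_Ico] at hj ⊢
    omega
  · intro j hj
    rw [Finset.mem_Ico] at hj ⊢
    omega
  · intro j hj
    rw [Finset.mem_Ico] at hj
    show e - (e - j) = j
    omega
  · intro j hj
    rw [Finset.mem_Ico] at hj
    show e - (e - j) = j
    omega
  · intro j _
    rfl

/-- pure arithmetic: all slacks vanish. -/
theorem core_arith {e : ℕ} {N : ℤ} (hN : 0 < N) (χR χI oH oc g2 : ℤ) (χ c : ℕ → ℤ)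
    (a1 : N * (χI - χR) ≤ oH) (a2 : N * (χ 0 - χR) ≤ 2 * oH)
    (a3 : ∀ j ∈ Finset.Ico 1 e, χ j + χ (e - j) - χR ≤ χ 0 + oc)
    (a4 : ∀ j ∈ Finset.Ico 1 e, oc ≤ c j + c (e - j))
    (hlow : 1 - g2 ≤ χR + χI + χ 0 + ∑ j ∈ Finset.Ico 1 e, (χ j - c j))
    (hnum : N * (1 - g2) = ((e : ℤ) + 2) * (N * χR + oH)) (he : 1 ≤ e) :
    N * (χI - χR) = oH ∧ N * (χ 0 - χR) = 2 * oH ∧
      ∀ j ∈ Finset.Ico 1 e, χ j + χ (e - j) - χR = χ 0 + oc ∧ c j + c (e - j) = oc := by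
  set S : ℤ := ∑ j ∈ Finset.Ico 1 e, (χ j - c j) with hS
  -- slack of the pair `(j, e - j)`
  let sl : ℕ → ℤ := fun j => (χ 0 + oc - (χ j + χ (e - j) - χR)) + (c j + c (e - j) - oc)
  have hsl0 : ∀ j ∈ Finset.Ico 1 e, 0 ≤ sl j := by
    intro j hj
    have h3 := a3 j hj
    have h4 := a4 j hj
    show 0 ≤ (χ 0 + oc - (χ j + χ (e - j) - χR)) + (c j + c (e - j) - oc)
    linarith
  have hcard : ((Finset.Ico 1 e).card : ℤ) = (e : ℤ) - 1 := by
    rw [Nat.card_Ico]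
    push_cast [Nat.cast_sub he]
    ring
  have h2S : 2 * S + ∑ j ∈ Finset.Ico 1 e, sl j = ((e : ℤ) - 1) * (χR + χ 0) := by
    have h1 : ∑ j ∈ Finset.Ico 1 e, (χ (e - j) - c (e - j)) = S :=
      core_sum_reflect e fun j => χ j - c j
    have h2 : 2 * S + ∑ j ∈ Finset.Ico 1 e, sl j
        = ∑ j ∈ Finset.Ico 1 e, ((χ j - c j) + (χ (e - j) - c (e - j)) + sl j) := by
      have e1 : ∑ j ∈ Finset.Ico 1 e, ((χ j - c j) + (χ (e - j) - c (e - j)) + sl j)
          = ∑ j ∈ Finset.Ico 1 e, (χ j - c j) + ∑ j ∈ Finset.Ico 1 e, (χ (e - j) - c (e - j))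
            + ∑ j ∈ Finset.Ico 1 e, sl j := by
        rw [← Finset.sum_add_distrib, ← Finset.sum_add_distrib]
      rw [e1, h1, ← hS]
      ring
    rw [h2]
    have h3 : ∀ j ∈ Finset.Ico 1 e, ((χ j - c j) + (χ (e - j) - c (e - j)) + sl j) = χR + χ 0 := by
      intro j _
      show (χ j - c j) + (χ (e - j) - c (e - j))
        + ((χ 0 + oc - (χ j + χ (e - j) - χR)) + (c j + c (e - j) - oc)) = χR + χ 0
      ring
    rw [Finset.sum_congr rfl h3, Finset.sum_const, nsmul_eq_mul, hcard]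
  have hT0 : 0 ≤ ∑ j ∈ Finset.Ico 1 e, sl j := Finset.sum_nonneg hsl0
  set T : ℤ := ∑ j ∈ Finset.Ico 1 e, sl j with hT
  have he' : (1 : ℤ) ≤ (e : ℤ) := by exact_mod_cast he
  -- the chain of inequalities
  have hmain : 2 * (oH - N * (χI - χR)) + ((e : ℤ) + 1) * (2 * oH - N * (χ 0 - χR)) + N * T ≤ 0 := by
    have h1 : 2 * (N * (1 - g2)) ≤ 2 * (N * (χR + χI + χ 0 + S)) := by
      have := mul_le_mul_of_nonneg_left hlow hN.le
      linarith
    have h2 : N * (2 * S) = N * (((e : ℤ) - 1) * (χR + χ 0) - T) := by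
      rw [← h2S]; ring
    nlinarith [h1, h2, hnum]
  have hA : 0 ≤ oH - N * (χI - χR) := by linarith
  have hB : 0 ≤ 2 * oH - N * (χ 0 - χR) := by linarith
  have hB' : 0 ≤ ((e : ℤ) + 1) * (2 * oH - N * (χ 0 - χR)) := mul_nonneg (by linarith) hB
  have hNT : 0 ≤ N * T := mul_nonneg hN.le hT0
  have hA0 : oH - N * (χI - χR) = 0 := by linarith
  have hB0' : ((e : ℤ) + 1) * (2 * oH - N * (χ 0 - χR)) = 0 := by linarith
  have hB0 : 2 * oH - N * (χ 0 - χR) = 0 := by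
    rcases mul_eq_zero.1 hB0' with h | h
    · linarith
    · exact h
  have hNT0 : N * T = 0 := by linarith
  have hT00 : T = 0 := by
    rcases mul_eq_zero.1 hNT0 with h | h
    · linarith
    · exact h
  refine ⟨by linarith, by linarith, fun j hj => ?_⟩
  have h1 := (Finset.sum_eq_zero_iff_of_nonneg hsl0).1 hT00 j hj
  have h3 := a3 j hj
  have h4 := a4 j hj
  have h5 : (χ 0 + oc - (χ j + χ (e - j) - χR)) + (c j + c (e - j) - oc) = 0 := h1
  constructor <;> linarith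

/-- **the numeric core of the count.** -/
theorem count_core (hC : IsCurve Fb ξ g) {e N : ℕ} (he : 1 ≤ e) (hN : 0 < N)
    (I0 : Submodule k (LaurentSeries k)) (Nj : ℕ → Submodule k (LaurentSeries k)) (cj : ℕ → ℤ)
    {Hh c0 : LaurentSeries k} (hH : Hh ≠ 0) (hc0 : c0 ≠ 0)
    (fI : IsFrac (RR Fb ξ) I0) (fN : ∀ j, j < e → IsFrac (RR Fb ξ) (Nj j))
    (hI : powS (RR Fb ξ) I0 N ≤ sc Hh (ofAlg (RR Fb ξ)))
    (hN0 : powS (RR Fb ξ) (Nj 0) N ≤ sc (Hh ^ 2) (ofAlg (RR Fb ξ)))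
    (hmul : ∀ j, 0 < j → j < e → mulS (Nj j) (Nj (e - j)) ≤ sc c0 (Nj 0))
    (hcj : ∀ j, 0 < j → j < e → c0.order ≤ cj j + cj (e - j))
    {no nm : ℕ} (hno : 0 < no) (hnm : 0 < nm) (g2 : ℤ)
    (hlow : ∀ a : ℕ, ((a : ℤ) * (2 * no + e * nm) + 1 - g2 : ℤ)
      ≤ (finrank k (Tr (ofAlg (RR Fb ξ)) ((a : ℤ) * no)) : ℤ) + (finrank k (Tr I0 ((a : ℤ) * no)) : ℤ)
        + (finrank k (Tr (Nj 0) ((a : ℤ) * nm)) : ℤ)
        + ∑ j ∈ Finset.Ico 1 e, (finrank k (Tr (Nj j) ((a : ℤ) * nm - cj j)) : ℤ))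
    (hnum : (N : ℤ) * (1 - g2) = ((e : ℤ) + 2) * ((N : ℤ) * (1 - g) + Hh.order)) :
    powS (RR Fb ξ) I0 N = sc Hh (ofAlg (RR Fb ξ)) ∧
    powS (RR Fb ξ) (Nj 0) N = sc (Hh ^ 2) (ofAlg (RR Fb ξ)) ∧
    ∀ j, 0 < j → j < e →
      mulS (Nj j) (Nj (e - j)) = sc c0 (Nj 0) ∧ cj j + cj (e - j) = c0.order := by
  classical
  have hR := hasChi_RR hC
  obtain ⟨χI, hχI⟩ := exists_hasChi hC fI
  have hex : ∀ j, ∃ c : ℤ, j < e → HasChi (Nj j) c := by
    intro j
    by_cases hj : j < e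
    · obtain ⟨c, hc⟩ := exists_hasChi hC (fN j hj)
      exact ⟨c, fun _ => hc⟩
    · exact ⟨0, fun h => absurd h hj⟩
  choose χ hχ using hex
  have h0e : 0 < e := he
  have hH2 : Hh ^ 2 ≠ 0 := pow_ne_zero 2 hH
  have hoH2 : (Hh ^ 2).order = 2 * Hh.order := by
    rw [pow_two, HahnSeries.order_mul hH hH]; ring
  -- the four families of inequalities
  have cI := hasChi_powS hC fI hχI N
  have cIH := hasChi_sc hH hR
  have a1 : (N : ℤ) * (χI - (1 - g)) ≤ Hh.order := by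
    have := cI.le cIH hI
    linarith
  have c0N := hasChi_powS hC (fN 0 h0e) (hχ 0 h0e) N
  have c0H := hasChi_sc hH2 hR
  have a2 : (N : ℤ) * (χ 0 - (1 - g)) ≤ 2 * Hh.order := by
    have := c0N.le c0H hN0
    rw [hoH2] at this
    linarith
  have cm : ∀ j, 0 < j → j < e → HasChi (mulS (Nj j) (Nj (e - j))) (χ j + χ (e - j) - (1 - g)) :=
    fun j h1 h2 => hasChi_mulS hC (fN j h2) (fN (e - j) (by omega)) (hχ j h2) (hχ (e - j) (by omega))
  have cc := hasChi_sc hc0 (hχ 0 h0e)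
  have a3 : ∀ j ∈ Finset.Ico 1 e, χ j + χ (e - j) - (1 - g) ≤ χ 0 + c0.order := by
    intro j hj
    rw [Finset.mem_Ico] at hj
    exact (cm j hj.1 hj.2).le cc (hmul j hj.1 hj.2)
  have a4 : ∀ j ∈ Finset.Ico 1 e, c0.order ≤ cj j + cj (e - j) := by
    intro j hj
    rw [Finset.mem_Ico] at hj
    exact hcj j hj.1 hj.2
  -- the lower bound for one large `a`
  have hlow' : 1 - g2 ≤ (1 - g : ℤ) + χI + χ 0 + ∑ j ∈ Finset.Ico 1 e, (χ j - cj j) := by
    obtain ⟨nR, hnR⟩ := hR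
    obtain ⟨nI, hnI⟩ := hχI
    have hbd : ∀ j, ∃ n₀ : ℤ, j < e → ∀ n, n₀ ≤ n → (finrank k (Tr (Nj j) n) : ℤ) = n + χ j := by
      intro j
      by_cases hj : j < e
      · obtain ⟨n₀, hn₀⟩ := hχ j hj
        exact ⟨n₀, fun _ n hn => (hn₀ n hn).2⟩
      · exact ⟨0, fun h => absurd h hj⟩
    choose nn hnn using hbd
    -- a bound for all thresholds
    let Bd : ℤ := |nR| + |nI| + ∑ j ∈ Finset.range e, (|nn j| + |cj j|)
    have hBd : ∀ j, j < e → |nn j| + |cj j| ≤ ∑ j ∈ Finset.range e, (|nn j| + |cj j|) := by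
      intro j hj
      exact Finset.single_le_sum (f := fun j => |nn j| + |cj j|)
        (fun i _ => add_nonneg (abs_nonneg _) (abs_nonneg _)) (Finset.mem_range.2 hj)
    have hsum0 : 0 ≤ ∑ j ∈ Finset.range e, (|nn j| + |cj j|) :=
      Finset.sum_nonneg fun i _ => add_nonneg (abs_nonneg _) (abs_nonneg _)
    have hBd0 : 0 ≤ Bd := by
      have := abs_nonneg nR
      have := abs_nonneg nI
      show 0 ≤ |nR| + |nI| + ∑ j ∈ Finset.range e, (|nn j| + |cj j|)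
      linarith
    let a : ℕ := Bd.toNat
    have ha : (a : ℤ) = Bd := Int.toNat_of_nonneg hBd0
    have hno' : (1 : ℤ) ≤ no := by exact_mod_cast hno
    have hnm' : (1 : ℤ) ≤ nm := by exact_mod_cast hnm
    have hano : Bd ≤ (a : ℤ) * no := by
      rw [ha]; nlinarith
    have hanm : Bd ≤ (a : ℤ) * nm := by
      rw [ha]; nlinarith
    have e1 : (finrank k (Tr (ofAlg (RR Fb ξ)) ((a : ℤ) * no)) : ℤ) = (a : ℤ) * no + (1 - g) := by
      refine (hnR _ ?_).2
      have := le_abs_self nR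
      have := abs_nonneg nI
      have : |nR| ≤ Bd := by
        show |nR| ≤ |nR| + |nI| + ∑ j ∈ Finset.range e, (|nn j| + |cj j|)
        linarith
      linarith
    have e2 : (finrank k (Tr I0 ((a : ℤ) * no)) : ℤ) = (a : ℤ) * no + χI := by
      refine (hnI _ ?_).2
      have := le_abs_self nI
      have := abs_nonneg nR
      have : |nI| ≤ Bd := by
        show |nI| ≤ |nR| + |nI| + ∑ j ∈ Finset.range e, (|nn j| + |cj j|)
        linarith
      linarith
    have hj' : ∀ j, j < e → |nn j| + |cj j| ≤ Bd := by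
      intro j hj
      have := hBd j hj
      have := abs_nonneg nR
      have := abs_nonneg nI
      show |nn j| + |cj j| ≤ |nR| + |nI| + ∑ j ∈ Finset.range e, (|nn j| + |cj j|)
      linarith
    have e3 : (finrank k (Tr (Nj 0) ((a : ℤ) * nm)) : ℤ) = (a : ℤ) * nm + χ 0 := by
      refine hnn 0 h0e _ ?_
      have := hj' 0 h0e
      have := le_abs_self (nn 0)
      have := abs_nonneg (cj 0)
      linarith
    have e4 : ∀ j ∈ Finset.Ico 1 e, (finrank k (Tr (Nj j) ((a : ℤ) * nm - cj j)) : ℤ)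
        = (a : ℤ) * nm + (χ j - cj j) := by
      intro j hj
      rw [Finset.mem_Ico] at hj
      rw [hnn j hj.2 _ ?_]
      · ring
      · have := hj' j hj.2
        have := le_abs_self (nn j)
        have := le_abs_self (cj j)
        linarith
    have h := hlow a
    rw [e1, e2, e3, Finset.sum_congr rfl e4, Finset.sum_add_distrib, Finset.sum_const,
      nsmul_eq_mul, Nat.card_Ico] at h
    have hcast : ((e - 1 : ℕ) : ℤ) = (e : ℤ) - 1 := by
      push_cast [Nat.cast_sub he]; ring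
    rw [hcast] at h
    linarith
  obtain ⟨r1, r2, r3⟩ := core_arith (e := e) (N := (N : ℤ)) (by exact_mod_cast hN) (1 - g) χI
    Hh.order c0.order g2 χ cj a1 a2 a3 a4 hlow' hnum he
  refine ⟨cI.eq_of_le cIH hI (by linarith), c0N.eq_of_le c0H hN0 (by rw [hoH2]; linarith), ?_⟩
  intro j h1 h2
  obtain ⟨s1, s2⟩ := r3 j (Finset.mem_Ico.2 ⟨h1, h2⟩)
  exact ⟨(cm j h1 h2).eq_of_le cc (hmul j h1 h2) (by linarith), s2⟩

end Fermat.Agent.CAR.P1F
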