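import Fermat.Agent.CAR.P1F.BasicLs
import Fermat.Agent.CAR.P1F.Chain

/-!
# CAR / P1F : the filtration lemma applied to `Lat a`  (package P1F-2)
-/

set_option autoImplicit false

open Polynomial

noncomputable section

namespace Fermat.Agent.CAR.P1F

open Fermat.Agent.GAL.KL Fermat.Agent.GAL.KLC Fermat.Agent.TOR.T1 Fermat.Agent.CAR.DEG Fermat.Agent.CAR

variable {K F k Γ₀ : Type*} [Field K] [Field F] [Algebra K F] [Field k]
  [LinearOrderedCommGroupWithZero Γ₀]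

variable {D : Dat K F k Γ₀} {R : Subalgebra k (LaurentSeries k)} {no nm : ℕ}

/-- the kernel of the graded map at the step `s` is the next step.
`s = 0`: `rd_zero_iff h.redo`.  `s = 1`: `rd_zero_iff h.redz`, `vm z ≤ 1 = vm ν ^ 0`.
`s = j + 2`: `rd_zero_iff h.redm` gives `vm (z / ν^j) < 1`; `z / ν^j ∈ E` (`h.νB.1`, `D.E.div_mem`, `D.E.pow_mem`), so `h.dsm` gives
`vm (z / ν^j) ≤ vm ν`, i.e. `vm z ≤ vm ν ^ (j+1)` (`map_div₀`, `div_le_iff₀`, `pow_succ`, `nu_ne_zero`). -/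
theorem Ls_ker (h : Ok D R no nm) {a s : ℕ} {z : F} (hz : z ∈ D.Ls a s) (h0 : D.Gs s z 0) :
    z ∈ D.Ls a (s + 1) := by
  match s, hz, h0 with
  | 0, hz, h0 => exact ⟨hz, (rd_zero_iff h.redo).1 h0⟩
  | 1, hz, h0 =>
    refine ⟨hz.1, hz.2, (rd_zero_iff h.redz).1 h0, ?_⟩
    rw [pow_zero]
    exact hz.1.2.2.2.1
  | j + 2, hz, h0 =>
    show z ∈ D.Ls a ((j + 1) + 2)
    refine ⟨hz.1, hz.2.1, hz.2.2.1, ?_⟩
    have h1 : D.vm (z / D.ν ^ j) < 1 := (rd_zero_iff h.redm).1 h0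
    have hE : z / D.ν ^ j ∈ D.E := D.E.div_mem hz.1.1 (D.E.pow_mem h.νB.1 j)
    have h2 := h.dsm _ hE h1
    have hpos : 0 < D.vm D.ν ^ j :=
      pow_pos (zero_lt_iff.2 ((Valuation.ne_zero_iff _).2 (nu_ne_zero h))) j
    rw [map_div₀, map_pow, div_le_iff₀ hpos] at h2
    rw [pow_succ, mul_comm]
    exact h2

/-- the last step is `π Lat a` (`Lat_div_P` with `h.dso`, `h.dsz`, `h.νe`; `z = π • (z / π)`, `Algebra.smul_def`, `P_ne_zero`). -/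
theorem Ls_last (h : Ok D R no nm) {a : ℕ} {z : F} (hz : z ∈ D.Ls a (D.e + 2)) :
    ∃ z' ∈ D.Ls a 0, z = D.π • z' := by
  obtain ⟨hL, ho, hvz, hm⟩ := hz
  rw [h.νe] at hm
  refine ⟨z / D.P, Lat_div_P h hL (h.dso z hL.1 ho) hm (h.dsz z hL.1 hvz), ?_⟩
  rw [Algebra.smul_def]
  exact (mul_div_cancel₀ z (P_ne_zero h)).symm

/-- **dimension inequality.**  PROOF: `finrank_span_le` (CAR/P1F/Chain.lean) with `vK := D.vo.comap (algebraMap K F)`, `π := D.π`, `hA := hL.arch`,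
`R b c := algebraMap K F b ∈ D.E ∧ Rd D.ρo (algebraMap K F b) (C c) ∧ Rd D.ρm .. ∧ Rd D.ρz ..` (`hR := h.sc`), `r := D.e + 2`, `L := D.Ls a`, `G := D.Gs`,
`h0 := Ls_zero_mem, Gs_zero_zero`, `hsub := Ls_sub, Gs_sub`, `hsmul := Ls_Gs_smul`, `hV`: `exists_Gs` + `hV`, `hker := Ls_ker`, `hlast := Ls_last`,
`W₀ := LL K D.t a`, `hW₀`: `z ∈ Lat a → z ∈ LL`, `hc := fun z _ => hL.sep z`, `hb := hL.bd a`.
Then `finrank (LL) ≤ finrank (span (Lat a))`: `hL.span a` together with `span (Lat a) ≤ LL` gives equality of the two submodules. -/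
theorem finrank_LL_le (h : Ok D R no nm) {Dg : ℕ} {g₂ : ℤ} {J : Type*} {c : J → F →ₗ[K] K}
    (hL : LOk D Dg g₂ c) (a : ℕ) [FiniteDimensional K (LL K D.t a)]
    (V : ℕ → Submodule k (LaurentSeries k)) (hfin : ∀ s < D.e + 2, FiniteDimensional k (V s))
    (hV : ∀ s < D.e + 2, ∀ z ∈ D.Ls a s, ∀ u, D.Gs s z u → u ∈ V s) :
    Module.finrank K (LL K D.t a) ≤ ∑ s ∈ Finset.range (D.e + 2), Module.finrank k (V s) := by
  have hspan : Submodule.span K (D.Ls a 0) = LL K D.t a :=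
    le_antisymm (Submodule.span_le.2 fun z hz => hz.2.1) (hL.span a)
  rw [← hspan]
  refine finrank_span_le (D.vo.comap (algebraMap K F)) (π := D.π) hL.arch
    (fun b c => algebraMap K F b ∈ D.E ∧ Rd D.ρo (algebraMap K F b) (HahnSeries.C c) ∧
      Rd D.ρm (algebraMap K F b) (HahnSeries.C c) ∧ Rd D.ρz (algebraMap K F b) (HahnSeries.C c))
    h.sc (D.e + 2) (D.Ls a) D.Gs V hfin
    (fun s _ => ⟨Ls_zero_mem h a s, Gs_zero_zero s⟩)
    (fun s _ z z' u u' hz hz' hu hu' => ⟨Ls_sub hz hz', Gs_sub hu hu'⟩)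
    (fun s _ b c z u hR hz hu => Ls_Gs_smul hz hu hR.1 hR.2.1 hR.2.2.1 hR.2.2.2)
    (fun s hs z hz => ?_)
    (fun s _ z hz h0 => Ls_ker h hz h0)
    (fun z hz => Ls_last h hz)
    (LL K D.t a) (fun z hz => hz.2.1) c (fun z _ => hL.sep z) (hL.bd a)
  obtain ⟨u, hu⟩ := exists_Gs h hz
  exact ⟨u, hV s hs z hz u hu, hu⟩

end Fermat.Agent.CAR.P1F
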