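import Fermat.Agent.CAR.P1F.Conc
import Fermat.Agent.CAR.Main.Conc
import Fermat.Agent.CAR.D3.Conc
import Fermat.Agent.CAR.BK.ConcInf
import Fermat.Agent.CAR.XT.Inc

/-!
# CAR / P1F / Geo : `CAR.Main.GeoE` at `E = EC`, hence `CAR.Main.Geo` and Theorem C (function field form), through the count `P1F`
-/

set_option autoImplicit false

open ModularCurve AlgebraicCurve

noncomputable section

namespace Fermat.Agent.CAR.P1F

open Fermat.Agent.GR Fermat.Agent.GAL Fermat.Agent.GAL.KL Fermat.Agent.GAL.KLC Fermat.Agent.S24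
open Fermat.Agent.CAR.FQ2V Fermat.Agent.CAR.FQ2E Fermat.Agent.CAR.FQ2C Fermat.Agent.CAR.ON
open Fermat.Agent.CAR.BK Fermat.Agent.CAR

variable {M' q : ℕ} [NeZero M'] [NeZero q] (A : ValuationSubring Qb) (ζ : Qbˣ)

/-- **the geometry of the two charts**, `E = EC`. -/
theorem geoEC (hM : AdmLevel M') (hq : q.Prime) (hqM : ¬ q ∣ M') (hA : A.LiesOverPrime q)
    (hζ : IsPrimitiveRoot ζ q) (i₀ : (ZMod q)ˣ) :
    Main.GeoE M' q A ζ (EC A (M' * q * q)) i₀ := by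
  obtain ⟨νt, -, Dt⟩ := D3.exists_disc3C A ζ hM hq hqM hA hζ i₀
  obtain ⟨νi, -, Di⟩ := D3.exists_disc3C_inv A ζ hM hq hqM hA hζ i₀
  obtain ⟨s, hs⟩ := exists_sC A ζ hM hq hqM hA hζ
  have ONE := oneC A ζ hM hq hqM hA hζ i₀ s hs
  have he : q - 1 + 1 = q := by have := hq.two_le; omega
  obtain ⟨h1, h2, h3⟩ := prC A ζ hM hq hqM hA hζ i₀ Dt he s hs ONE
  exact ⟨⟨νt, νi, q - 1, Dt, Di⟩, XT.incC hM hq hqM A hA ζ hζ i₀ Dt, h1, h2, ⟨s, hs, ONE, h3⟩⟩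

/-- **Theorem C (function field form).** -/
theorem thmCField_P1F (hM : AdmLevel M') (hq : q.Prime) (hqM : ¬ q ∣ M') :
    Main.ThmCField M' q ((q ^ 2 - 1) ^ 2) :=
  Main.thmCField_of_geo hM hq hqM fun A hA ζ hζ =>
    ⟨1, Main.geo_of_EC M' q A ζ (geoEC A ζ hM hq hqM hA hζ 1)⟩

end Fermat.Agent.CAR.P1F
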