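import Fermat.Agent.CAR.P1F.Mod
import Fermat.Agent.CAR.DEG.Mul

/-!
# CAR / P1F : the three inclusions  `I₀^N ⊆ H R'`, `N₀^N ⊆ H² R'`, `N_j N_j' ⊆ c₀ N₀`  (package P1F-5)
-/

set_option autoImplicit false

open Polynomial

noncomputable section

namespace Fermat.Agent.CAR.P1F

open Fermat.Agent.GAL.KL Fermat.Agent.GAL.KLC Fermat.Agent.TOR.T1 Fermat.Agent.CAR.DEG Fermat.Agent.CAR

variable {K F k Γ₀ : Type*} [Field K] [Field F] [Algebra K F] [Field k]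
  [LinearOrderedCommGroupWithZero Γ₀]

variable {D : Dat K F k Γ₀} {R : Subalgebra k (LaurentSeries k)} {no nm : ℕ}

variable {H : LaurentSeries k} {Nn : ℕ} {Xo Xo' Xz Xz' : F}

/-- the valuation of a product of `n` elements of value `≤ γ`. -/
theorem Incl_prod_le (v : Valuation F Γ₀) {n : ℕ} (z : Fin n → F) {γ : Γ₀} (hz : ∀ i, v (z i) ≤ γ) :
    v (∏ i, z i) ≤ γ ^ n := by
  rw [map_prod]
  calc ∏ i, v (z i) ≤ ∏ _i : Fin n, γ := Finset.prod_le_prod' (fun i _ => hz i)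
    _ = γ ^ n := by simp

/-- reduction of a product. -/
theorem Incl_Rd_prod {v : Valuation F Γ₀} {ρ : v.integer →+* LaurentSeries k} {ι : Type*}
    (s : Finset ι) {z : ι → F} {φ : ι → LaurentSeries k} (h : ∀ i ∈ s, Rd ρ (z i) (φ i)) :
    Rd ρ (∏ i ∈ s, z i) (∏ i ∈ s, φ i) := by
  classical
  induction s using Finset.induction_on with
  | empty => simpa using Rd.one
  | insert a s ha ih =>
    rw [Finset.prod_insert ha, Finset.prod_insert ha]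
    exact (h a (Finset.mem_insert_self a s)).mul (ih fun i hi => h i (Finset.mem_insert_of_mem hi))

/-- `sc ξ R` is an `R`-module. -/
theorem Incl_sc_mul_mem (ξ : LaurentSeries k) :
    ∀ r ∈ R, ∀ x ∈ sc ξ (ofAlg R), r * x ∈ sc ξ (ofAlg R) := by
  rintro r hr _ ⟨x, hx, rfl⟩
  exact ⟨r * x, R.mul_mem hr hx, by ring⟩

/-- elementwise form.  `y := (∏ z i) / Xo ∈ B` by `B_div` (`Y := Xo`, `Y' := Xo'`, `hX.mulo`): `vo (∏ z i) = ∏ vo (z i) ≤ vo π ^ Nn = vo Xo` (`h.dso`, `map_prod`,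
`Finset.prod_le_pow_card`-type lemma or induction; `hX.voXo`); `vm Xo = vz Xo = 1` (`Rd.v_eq_one`, `hX.H0`) and `vm (∏ z i) ≤ 1` (`B_prod`). -/
theorem prod_div_Xo_mem (h : Ok D R no nm) (hX : XOk D H Nn Xo Xo' Xz Xz') (z : Fin Nn → F)
    (hz : ∀ i, z i ∈ D.B ∧ D.vo (z i) < 1) : (∏ i, z i) / Xo ∈ D.B := by
  have hB : ∏ i, z i ∈ D.B := B_prod Finset.univ (fun i _ => (hz i).1)
  refine B_div h hB hX.XoB hX.Xo'B hX.mulo ?_ ?_ ?_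
  · rw [hX.voXo]
    exact Incl_prod_le D.vo z (fun i => h.dso _ (hz i).1.1 (hz i).2)
  · rw [hX.rmXo.v_eq_one h.redm hX.H0]
    exact hB.2.2.2.1
  · rw [hX.rzXo.v_eq_one h.redz hX.H0]
    exact hB.2.2.2.2

/-- `DEG.powS_le` with `M := sc H (ofAlg R)`.  For `u i ∈ Ns 1`: `u i` = reduction at `vz` of `z i ∈ B`, `vo (z i) < 1` (`mem_Ns_iff`, `Lat_subset_B`);
`y := (∏ z i) / Xo ∈ B` (`prod_div_Xo_mem`), `∏ z i = Xo * y`, so `∏ u i = H * w`, `w` = reduction of `y`, `w ∈ R` (`exists_mem_Lat`, `h.rz`);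
(`Rd.prod`: induction with `Rd.mul`, `Rd.one`; `Rd.unique`). -/
theorem powS_Ns_one_le (h : Ok D R no nm) (hX : XOk D H Nn Xo Xo' Xz Xz') :
    powS R (D.Ns 1) Nn ≤ sc H (ofAlg R) := by
  apply powS_le Nn (Incl_sc_mul_mem H)
  intro u hu
  have h1 : ∀ i, ∃ z : F, z ∈ D.B ∧ D.vo z < 1 ∧ Rd D.ρz z (u i) := by
    intro i
    obtain ⟨a, z, hz, hG⟩ := (mem_Ns_iff h).1 (hu i)
    exact ⟨z, Lat_subset_B a hz.1, hz.2, hG⟩
  choose z hzB hzo hzr using h1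
  have hy := prod_div_Xo_mem h hX z (fun i => ⟨hzB i, hzo i⟩)
  obtain ⟨w, hw⟩ := exists_rd (ρ := D.ρz) hy.2.2.2.2
  obtain ⟨a₀, ha₀⟩ := exists_mem_Lat h hy
  have hwR := (h.rz a₀ _ (ha₀ a₀ le_rfl) w hw).1
  refine ⟨w, hwR, ?_⟩
  have hXo0 : Xo ≠ 0 := by
    intro h0
    have := hX.rzXo.v_eq_one h.redz hX.H0
    rw [h0, map_zero] at this
    exact zero_ne_one this
  have e : ∏ i, z i = Xo * ((∏ i, z i) / Xo) := by field_simp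
  have h2 : Rd D.ρz (∏ i, z i) (∏ i, u i) := Incl_Rd_prod _ (fun i _ => hzr i)
  rw [e] at h2
  exact (hX.rzXo.mul hw).unique h2

/-- the same with `Y := Xo * Xz`, `Y' := Xo' * Xz'`, `N := Nn + Nn`: `vo (Xo Xz) = vo π ^ Nn` (`vo Xz = 1` by `hX.roXz`), `vz (Xo Xz) = vz π ^ Nn`, `vm (Xo Xz) = 1`;
reduction at `vm` of `Xo * Xz` is `H * H`. -/
theorem powS_Ns_two_le (h : Ok D R no nm) (hX : XOk D H Nn Xo Xo' Xz Xz') :
    powS R (D.Ns 2) Nn ≤ sc (H * H) (ofAlg R) := by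
  apply powS_le Nn (Incl_sc_mul_mem (H * H))
  intro u hu
  have h1 : ∀ i, ∃ z : F, z ∈ D.B ∧ D.vo z < 1 ∧ D.vz z < 1 ∧ Rd D.ρm z (u i) := by
    intro i
    obtain ⟨a, z, hz, hG⟩ := (mem_Ns_iff h).1 (hu i)
    have hG' : Rd D.ρm (z / D.ν ^ 0) (u i) := hG
    rw [pow_zero, div_one] at hG'
    exact ⟨z, Lat_subset_B a hz.1, hz.2.1, hz.2.2.1, hG'⟩
  choose z hzB hzo hzz hzr using h1
  have hB : ∏ i, z i ∈ D.B := B_prod Finset.univ (fun i _ => hzB i)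
  have hYY : (Xo * Xz) * (Xo' * Xz') = D.P ^ (Nn + Nn) := by
    calc (Xo * Xz) * (Xo' * Xz') = (Xo * Xo') * (Xz * Xz') := by ring
      _ = D.P ^ (Nn + Nn) := by rw [hX.mulo, hX.mulz, pow_add]
  have hm1 : D.vm (Xo * Xz) = 1 := by
    rw [map_mul, hX.rmXo.v_eq_one h.redm hX.H0, hX.rmXz.v_eq_one h.redm hX.H0, one_mul]
  have hy : (∏ i, z i) / (Xo * Xz) ∈ D.B := by
    refine B_div h hB (B_mul hX.XoB hX.XzB) (B_mul hX.Xo'B hX.Xz'B) hYY ?_ ?_ ?_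
    · rw [map_mul, hX.voXo, hX.roXz.v_eq_one h.redo hX.H0, mul_one]
      exact Incl_prod_le D.vo z (fun i => h.dso _ (hzB i).1 (hzo i))
    · rw [hm1]
      exact hB.2.2.2.1
    · rw [map_mul, hX.vzXz, hX.rzXo.v_eq_one h.redz hX.H0, one_mul]
      exact Incl_prod_le D.vz z (fun i => h.dsz _ (hzB i).1 (hzz i))
  obtain ⟨w, hw⟩ := exists_rd (ρ := D.ρm) hy.2.2.2.1
  obtain ⟨a₀, ha₀⟩ := exists_mem_Lat h hy
  have hwR := (h.rm a₀ _ (ha₀ a₀ le_rfl) w hw).1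
  refine ⟨w, hwR, ?_⟩
  have hY0 : Xo * Xz ≠ 0 := by
    intro h0
    rw [h0, map_zero] at hm1
    exact zero_ne_one hm1
  have e : ∏ i, z i = (Xo * Xz) * ((∏ i, z i) / (Xo * Xz)) := by
    rw [mul_div_cancel₀ _ hY0]
  have h2 : Rd D.ρm (∏ i, z i) (∏ i, u i) := Incl_Rd_prod _ (fun i _ => hzr i)
  rw [e] at h2
  exact ((hX.rmXo.mul hX.rmXz).mul hw).unique h2

/-- `DEG.mulS_le` (CAR/DEG/Scale.lean), `mem_Ns_iff`, `prod_mem`, `mem_Ns_of`. -/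
theorem mulS_Ns_le (h : Ok D R no nm) {c₀ : LaurentSeries k} (hc₀ : Rd D.ρm (D.P / D.ν ^ D.e) c₀)
    {j j' : ℕ} (hj : j + j' = D.e) : mulS (D.Ns (j + 2)) (D.Ns (j' + 2)) ≤ sc c₀ (D.Ns 2) := by
  rw [mulS_le]
  intro u hu u' hu'
  obtain ⟨a, z, hz, hG⟩ := (mem_Ns_iff h).1 hu
  obtain ⟨a', z', hz', hG'⟩ := (mem_Ns_iff h).1 hu'
  obtain ⟨hL, w, hw, e⟩ := prod_mem h hc₀ hj hz hz' hG hG'
  exact ⟨w, mem_Ns_of h hL hw, e.symm⟩

end Fermat.Agent.CAR.P1F
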