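import Fermat.Agent.CAR.P1F.Prod

/-!
# CAR / P1F : the modules `Ns s` are fractional ideals of `R'`  (package P1F-4)
-/

set_option autoImplicit false

open Polynomial

noncomputable section

namespace Fermat.Agent.CAR.P1F

open Fermat.Agent.GAL.KL Fermat.Agent.GAL.KLC Fermat.Agent.TOR.T1 Fermat.Agent.CAR.DEG Fermat.Agent.CAR

variable {K F k Γ₀ : Type*} [Field K] [Field F] [Algebra K F] [Field k]
  [LinearOrderedCommGroupWithZero Γ₀]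

variable {D : Dat K F k Γ₀} {R : Subalgebra k (LaurentSeries k)} {no nm : ℕ}

/-- `Im s` is already a `k`-subspace.  PROOF: `←` is `Submodule.subset_span`.  `→`: `Submodule.span_induction`: zero (`Ls_zero_mem`, `Gs_zero_zero`, `a = 0`);
add: `(a, z, u)`, `(a', z', u')`: move both to `max a a'` (`Ls_mono`), `Ls_add`, `Gs_add`; smul: `h.sc c` and `Ls_Gs_smul`. -/
theorem mem_Ns_iff (h : Ok D R no nm) {s : ℕ} {u : LaurentSeries k} : u ∈ D.Ns s ↔ u ∈ D.Im s := by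
  constructor
  · intro hu
    refine Submodule.span_induction (p := fun x _ => x ∈ D.Im s) ?_ ?_ ?_ ?_ hu
    · intro x hx
      exact hx
    · exact ⟨0, 0, Ls_zero_mem h 0 s, Gs_zero_zero s⟩
    · rintro x y _ _ ⟨a, z, hz, hzu⟩ ⟨a', z', hz', hzu'⟩
      exact ⟨max a a', z + z',
        Ls_add (Ls_mono (le_max_left _ _) s hz) (Ls_mono (le_max_right _ _) s hz'), Gs_add hzu hzu'⟩
    · rintro c x _ ⟨a, z, hz, hzu⟩
      obtain ⟨b, hE, ho, hm, hz'⟩ := h.sc c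
      obtain ⟨h1, h2⟩ := Ls_Gs_smul hz hzu hE ho hm hz'
      exact ⟨a, b • z, h1, h2⟩
  · exact fun hu => Submodule.subset_span hu

theorem mem_Ns_of (h : Ok D R no nm) {a s : ℕ} {z : F} {u : LaurentSeries k} (hz : z ∈ D.Ls a s)
    (hu : D.Gs s z u) : u ∈ D.Ns s :=
  Submodule.subset_span ⟨a, z, hz, hu⟩

/-- `Ns s` is an `R'`-module.  PROOF: `u = ` reduction of `z ∈ Ls a s` (`mem_Ns_iff`); lift `r` to `b ∈ B` by `h.so` (`s = 0`), `h.sz` (`s = 1`),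
`h.sm` (`s = j + 2`); `b ∈ Lat a'` (`exists_mem_Lat`); `Ls_mul`, `Gs_mul_zero/one/add_two`. -/
theorem Ns_mul_mem (h : Ok D R no nm) (s : ℕ) : ∀ r ∈ R, ∀ u ∈ D.Ns s, r * u ∈ D.Ns s := by
  intro r hr u hu
  obtain ⟨a, z, hz, hzu⟩ := (mem_Ns_iff h).1 hu
  match s, hz, hzu with
  | 0, hz, hzu =>
    obtain ⟨b, hb, hbr⟩ := h.so r hr
    obtain ⟨a₀, ha₀⟩ := exists_mem_Lat h hb
    exact mem_Ns_of h (Ls_mul (ha₀ a₀ le_rfl) hz) (Gs_mul_zero hbr hzu)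
  | 1, hz, hzu =>
    obtain ⟨b, hb, hbr⟩ := h.sz r hr
    obtain ⟨a₀, ha₀⟩ := exists_mem_Lat h hb
    exact mem_Ns_of h (Ls_mul (ha₀ a₀ le_rfl) hz) (Gs_mul_one hbr hzu)
  | j + 2, hz, hzu =>
    obtain ⟨b, hb, hbr⟩ := h.sm r hr
    obtain ⟨a₀, ha₀⟩ := exists_mem_Lat h hb
    exact mem_Ns_of h (Ls_mul (ha₀ a₀ le_rfl) hz) (Gs_mul_add_two hbr hzu)

/-- `h.ro`, `h.rz`, `h.rm` (for `s = 2`: `z / ν^0 = z`). -/
theorem Ns_le_of_le_two (h : Ok D R no nm) {s : ℕ} (hs : s ≤ 2) : D.Ns s ≤ ofAlg R := by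
  intro u hu
  obtain ⟨a, z, hz, hzu⟩ := (mem_Ns_iff h).1 hu
  show u ∈ R
  match s, hs, hz, hzu with
  | 0, _, hz, hzu => exact (h.ro a z hz u hzu).1
  | 1, _, hz, hzu => exact (h.rz a z hz.1 u hzu).1
  | 2, _, hz, hzu =>
    have hzu' : Rd D.ρm (z / D.ν ^ 0) u := hzu
    rw [pow_zero, div_one] at hzu'
    exact (h.rm a z hz.1 u hzu').1
  | n + 3, hs, _, _ => omega

variable {H : LaurentSeries k} {Nn : ℕ} {Xo Xo' Xz Xz' : F}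

/-- `Xo ∈ B`, `vo Xo = vo π ^ Nn < 1`. -/
theorem H_mem_Ns_one (h : Ok D R no nm) (hX : XOk D H Nn Xo Xo' Xz Xz') : H ∈ D.Ns 1 := by
  obtain ⟨a₀, ha₀⟩ := exists_mem_Lat h hX.XoB
  refine mem_Ns_of h (a := a₀) (z := Xo) (D.mem_Ls_one.2 ⟨ha₀ a₀ le_rfl, ?_⟩) hX.rzXo
  rw [hX.voXo]
  exact pow_lt_one₀ zero_le h.πo hX.Nn0.ne'

/-- `z := ν^j * Xo * Xz ∈ B`, `vo z < 1`, `vz z < 1`, `vm z ≤ vm ν^j`, `z / ν^j = Xo * Xz` reduces to `H * H`. -/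
theorem HH_mem_Ns (h : Ok D R no nm) (hX : XOk D H Nn Xo Xo' Xz Xz') (j : ℕ) :
    H * H ∈ D.Ns (j + 2) := by
  have hν0 := nu_ne_zero h
  have hνB := B_pow h.νB j
  have hzB : D.ν ^ j * (Xo * Xz) ∈ D.B := B_mul hνB (B_mul hX.XoB hX.XzB)
  obtain ⟨a₀, ha₀⟩ := exists_mem_Lat h hzB
  have hvo : D.vo Xo < 1 := by
    rw [hX.voXo]
    exact pow_lt_one₀ zero_le h.πo hX.Nn0.ne'
  have hvz : D.vz Xz < 1 := by
    rw [hX.vzXz]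
    exact pow_lt_one₀ zero_le h.πz hX.Nn0.ne'
  refine mem_Ns_of h (a := a₀) (z := D.ν ^ j * (Xo * Xz))
    (D.mem_Ls_add_two.2 ⟨ha₀ a₀ le_rfl, ?_, ?_, ?_⟩) ?_
  · rw [map_mul, map_mul]
    calc D.vo (D.ν ^ j) * (D.vo Xo * D.vo Xz) ≤ 1 * (D.vo Xo * 1) :=
          mul_le_mul' hνB.2.2.1 (mul_le_mul' le_rfl hX.XzB.2.2.1)
      _ = D.vo Xo := by rw [one_mul, mul_one]
      _ < 1 := hvo
  · rw [map_mul, map_mul]
    calc D.vz (D.ν ^ j) * (D.vz Xo * D.vz Xz) ≤ 1 * (1 * D.vz Xz) :=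
          mul_le_mul' hνB.2.2.2.2 (mul_le_mul' hX.XoB.2.2.2.2 le_rfl)
      _ = D.vz Xz := by rw [one_mul, one_mul]
      _ < 1 := hvz
  · rw [map_mul, map_mul, map_pow]
    calc D.vm D.ν ^ j * (D.vm Xo * D.vm Xz) ≤ D.vm D.ν ^ j * (1 * 1) :=
          mul_le_mul' le_rfl (mul_le_mul' hX.XoB.2.2.2.1 hX.XzB.2.2.2.1)
      _ = D.vm D.ν ^ j := by rw [one_mul, mul_one]
  · rw [Dat.Gs_add_two, mul_div_cancel_left₀ _ (pow_ne_zero j hν0)]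
    exact hX.rmXo.mul hX.rmXz

/-- `N ≠ ⊥` by `H_mem_Ns_one`; `Ns_mul_mem`; `ξ := 1` and `Ns_le_of_le_two`. -/
theorem isFrac_Ns_one (h : Ok D R no nm) (hX : XOk D H Nn Xo Xo' Xz Xz') : IsFrac R (D.Ns 1) := by
  refine ⟨(Submodule.ne_bot_iff _).2 ⟨H, H_mem_Ns_one h hX, hX.H0⟩, Ns_mul_mem h 1, 1, one_ne_zero,
    fun x hx => ?_⟩
  rw [one_mul]
  exact Ns_le_of_le_two h one_le_two hx

/-- `N ≠ ⊥` by `HH_mem_Ns`; `Ns_mul_mem`; `ξ := c₀⁻¹ * (H * H)`: for `u ∈ Ns (j+2)`, `u * (H * H) = c₀ * w` with `w ∈ Ns 2 ≤ R` (`prod_mem` applied to `u` and to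
`H * H ∈ Ns (j' + 2)`, `mem_Ns_iff`, `mem_Ns_of`, `Ns_le_of_le_two`, `c0_ne_zero`). -/
theorem isFrac_Ns (h : Ok D R no nm) (hX : XOk D H Nn Xo Xo' Xz Xz') {c₀ : LaurentSeries k}
    (hc₀ : Rd D.ρm (D.P / D.ν ^ D.e) c₀) {j j' : ℕ} (hj : j + j' = D.e) :
    IsFrac R (D.Ns (j + 2)) := by
  have hc := c0_ne_zero h hc₀
  have hHH : H * H ≠ 0 := mul_ne_zero hX.H0 hX.H0
  refine ⟨(Submodule.ne_bot_iff _).2 ⟨H * H, HH_mem_Ns h hX j, hHH⟩, Ns_mul_mem h (j + 2),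
    c₀⁻¹ * (H * H), mul_ne_zero (inv_ne_zero hc) hHH, fun u hu => ?_⟩
  obtain ⟨a, z, hz, hzu⟩ := (mem_Ns_iff h).1 hu
  obtain ⟨a', z', hz', hzu'⟩ := (mem_Ns_iff h).1 (HH_mem_Ns h hX j')
  obtain ⟨h1, w, hw, he⟩ := P1F.prod_mem h hc₀ hj hz hz' hzu hzu'
  have hwR : w ∈ R := Ns_le_of_le_two h le_rfl (mem_Ns_of h h1 hw)
  have e : c₀⁻¹ * (H * H) * u = w := by
    rw [mul_assoc, mul_comm (H * H) u, he, ← mul_assoc, inv_mul_cancel₀ hc, one_mul]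
  rw [e]
  exact hwR

end Fermat.Agent.CAR.P1F
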