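import Fermat.Agent.CAR.P1F.BasicLs
import Fermat.Agent.CAR.DEG.Basic

/-!
# CAR / P1F : the product lemma `λ_j(z) λ_j'(z') = c₀ r_m(z z' / π)`, `j + j' = e`  (package P1F-3)
-/

set_option autoImplicit false

open Polynomial

noncomputable section

namespace Fermat.Agent.CAR.P1F

open Fermat.Agent.GAL.KL Fermat.Agent.GAL.KLC Fermat.Agent.TOR.T1 Fermat.Agent.CAR.DEG Fermat.Agent.CAR

variable {K F k Γ₀ : Type*} [Field K] [Field F] [Algebra K F] [Field k]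
  [LinearOrderedCommGroupWithZero Γ₀]

variable {D : Dat K F k Γ₀} {R : Subalgebra k (LaurentSeries k)} {no nm : ℕ}

/-- `vm (π / ν^e) = 1` (`h.νe`), so its reduction is not `0` (`rd_zero_iff h.redm`). -/
theorem c0_ne_zero (h : Ok D R no nm) {c₀ : LaurentSeries k} (hc₀ : Rd D.ρm (D.P / D.ν ^ D.e) c₀) :
    c₀ ≠ 0 := by
  rintro rfl
  have h1 := (rd_zero_iff h.redm).1 hc₀
  have hP : D.vm D.P ≠ 0 := (Valuation.ne_zero_iff _).2 (P_ne_zero h)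
  rw [map_div₀, map_pow, h.νe, div_self hP] at h1
  exact lt_irrefl _ h1

/-- **the product lemma.**  `y := z z' / π`.  `z z' ∈ Lat (a + a')` (`Lat_mul`, `Ls_subset_Lat`).
`vo (z z') = vo z * vo z' ≤ vo π * vo z' ` (`h.dso`; `z ∈ E`), and `vo z' < 1`: so `vo (z z') ≤ vo π` and `vo y < 1`
(`map_div₀`, `div_lt_one₀`, `mul_lt_of_le_of_lt_one`-type lemmas, `vo π ≠ 0`).  The same at `vz`.  `vm (z z') ≤ vm ν^j * vm ν^j' = vm ν^e = vm π`.
So `y ∈ Lat (a + a')` (`Lat_div_P`) and `y ∈ Ls (a + a') 2` (`vm y ≤ 1 = vm ν ^ 0`).  `w` := its reduction (`exists_rd`; `y / ν^0 = y`).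
`(z / ν^j) * (z' / ν^j') = (π / ν^e) * y` (`field_simp`, `pow_add`, `hj`), so `u * u' = c₀ * w` by `Rd.mul` and `Rd.unique`. -/
theorem prod_mem (h : Ok D R no nm) {c₀ : LaurentSeries k} (hc₀ : Rd D.ρm (D.P / D.ν ^ D.e) c₀)
    {j j' : ℕ} (hj : j + j' = D.e) {a a' : ℕ} {z z' : F} {u u' : LaurentSeries k}
    (hz : z ∈ D.Ls a (j + 2)) (hz' : z' ∈ D.Ls a' (j' + 2)) (hu : D.Gs (j + 2) z u)
    (hu' : D.Gs (j' + 2) z' u') :
    z * z' / D.P ∈ D.Ls (a + a') 2 ∧ ∃ w, D.Gs 2 (z * z' / D.P) w ∧ u * u' = c₀ * w := by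
  obtain ⟨hzL, hzo, hzz, hzm⟩ := D.mem_Ls_add_two.1 hz
  obtain ⟨hzL', hzo', hzz', hzm'⟩ := D.mem_Ls_add_two.1 hz'
  have hP0 := P_ne_zero h
  have hν0 := nu_ne_zero h
  have hPo : D.vo D.P ≠ 0 := (Valuation.ne_zero_iff _).2 hP0
  have hPz : D.vz D.P ≠ 0 := (Valuation.ne_zero_iff _).2 hP0
  have hmul : z * z' ∈ D.Lat (a + a') := Lat_mul hzL hzL'
  have ho1 : D.vo (z * z') < D.vo D.P := by
    rw [map_mul]
    calc D.vo z * D.vo z' ≤ D.vo D.P * D.vo z' := mul_le_mul_left (h.dso z hzL.1 hzo) _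
      _ < D.vo D.P * 1 := mul_lt_mul_of_pos_left hzo' (zero_lt_iff.2 hPo)
      _ = D.vo D.P := mul_one _
  have hz1 : D.vz (z * z') < D.vz D.P := by
    rw [map_mul]
    calc D.vz z * D.vz z' ≤ D.vz D.P * D.vz z' := mul_le_mul_left (h.dsz z hzL.1 hzz) _
      _ < D.vz D.P * 1 := mul_lt_mul_of_pos_left hzz' (zero_lt_iff.2 hPz)
      _ = D.vz D.P := mul_one _
  have hm1 : D.vm (z * z') ≤ D.vm D.P := by
    rw [map_mul, ← h.νe, ← hj, pow_add]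
    exact mul_le_mul' hzm hzm'
  have hyL : z * z' / D.P ∈ D.Lat (a + a') := Lat_div_P h hmul ho1.le hm1 hz1.le
  have hy : z * z' / D.P ∈ D.Ls (a + a') 2 := by
    refine (D.mem_Ls_add_two (j := 0)).2 ⟨hyL, ?_, ?_, ?_⟩
    · rw [map_div₀, div_lt_one₀ (zero_lt_iff.2 hPo)]; exact ho1
    · rw [map_div₀, div_lt_one₀ (zero_lt_iff.2 hPz)]; exact hz1
    · rw [pow_zero]; exact hyL.2.2.2.1
  obtain ⟨w, hw⟩ := exists_rd (ρ := D.ρm) hyL.2.2.2.1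
  refine ⟨hy, w, (D.Gs_add_two (j := 0)).2 (by rw [pow_zero, div_one]; exact hw), ?_⟩
  have h1 : Rd D.ρm (z / D.ν ^ j * (z' / D.ν ^ j')) (u * u') :=
    (D.Gs_add_two.1 hu).mul (D.Gs_add_two.1 hu')
  have h2 : Rd D.ρm (D.P / D.ν ^ D.e * (z * z' / D.P)) (c₀ * w) := hc₀.mul hw
  have e1 : z / D.ν ^ j * (z' / D.ν ^ j') = D.P / D.ν ^ D.e * (z * z' / D.P) := by
    rw [← hj, pow_add]
    field_simp
  rw [e1] at h1
  exact h1.unique h2

/-- orders: `u u' = c₀ w`, `w ≠ 0` lies in `Cut k ((a + a') nm)` (`h.rm`, `Ls_subset_Lat`, `Dat.Gs_add_two` with `j = 0`, `pow_zero`, `div_one`),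
`HahnSeries.order_mul`, `DEG.mem_Cut_iff_order` (CAR/DEG/Basic.lean). -/
theorem order_add_ge (h : Ok D R no nm) {c₀ : LaurentSeries k}
    (hc₀ : Rd D.ρm (D.P / D.ν ^ D.e) c₀) {j j' : ℕ} (hj : j + j' = D.e) {a a' : ℕ} {z z' : F}
    {u u' : LaurentSeries k} (hz : z ∈ D.Ls a (j + 2)) (hz' : z' ∈ D.Ls a' (j' + 2))
    (hu : D.Gs (j + 2) z u) (hu' : D.Gs (j' + 2) z' u') (hu0 : u ≠ 0) (hu0' : u' ≠ 0) :
    c₀.order ≤ (u.order + ((a * nm : ℕ) : ℤ)) + (u'.order + ((a' * nm : ℕ) : ℤ)) := by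
  obtain ⟨hy, w, hw, huw⟩ := prod_mem h hc₀ hj hz hz' hu hu'
  have hc0 := c0_ne_zero h hc₀
  have hw0 : w ≠ 0 := by
    rintro rfl
    rw [mul_zero] at huw
    exact mul_ne_zero hu0 hu0' huw
  have hwR : Rd D.ρm (z * z' / D.P) w := by
    have := (D.Gs_add_two (j := 0)).1 hw
    rwa [pow_zero, div_one] at this
  have hcut := (h.rm (a + a') _ (Ls_subset_Lat _ _ hy) w hwR).2
  rw [mem_Cut_iff_order hw0] at hcut
  have h3 := congrArg HahnSeries.order huw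
  rw [HahnSeries.order_mul hu0 hu0', HahnSeries.order_mul hc0 hw0] at h3
  push_cast at hcut ⊢
  nlinarith

end Fermat.Agent.CAR.P1F
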